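/-
helper44 (P-S34, WP2 TwoVal, part 1): the SECOND EMBEDDING `ι₀ : F_{Nℓ} → L((s))` of the function
field of `X₀(Nℓ)` (`ℓ ∤ N` prime), characterised by
`ι₀ (α h) = h(s^ℓ)`, `ι₀ (β h) = h(s)`   (`α h = h(t)`, `β h = h(t^ℓ)` in the natural embedding),
i.e. the `q`-expansion at the cusp `0`-side of the Atkin-Lehner involution `w_ℓ`.
Existence comes from the classification of embeddings `ESC/EmbClassify` + `ESC/CharpolyBeta`;
`ι₀` is unique, injective and commutes with the coefficientwise Galois action.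
-/
import Fermat.Agent.Gateway.ESC.CharpolyBeta
import Fermat.Agent.Gateway.Hecke.Galois

set_option autoImplicit false
set_option linter.style.haveILetI false

noncomputable section

namespace Fermat.Agent.S34x.TwoVal

open Polynomial ModularCurve AlgebraicCurve IntermediateField
open Fermat.Agent.S28 Fermat.Agent.S28.Tower Fermat.Agent.Gateway.Hecke
open Fermat.Agent.Gateway.ESC

section Lift

/-- lifting a ring homomorphism through an injective one containing its range -/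
theorem exists_ringHom_lift {F S E : Type*} [Semiring F] [Semiring S] [Semiring E]
    (emb : S →+* E) (hemb : Function.Injective emb) (σ : F →+* E)
    (h : ∀ x, ∃ s, emb s = σ x) : ∃ τ : F →+* S, ∀ x, emb (τ x) = σ x := by
  choose f hf using h
  refine ⟨{ toFun := f, map_one' := ?_, map_mul' := ?_, map_zero' := ?_, map_add' := ?_ }, hf⟩
  · apply hemb
    rw [hf, map_one, map_one]
  · intro x y
    apply hemb
    rw [hf, map_mul, map_mul, hf, hf]
  · apply hemb
    rw [hf, map_zero, map_zero]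
  · intro x y
    apply hemb
    rw [hf, map_add, map_add, hf, hf]

end Lift

section Main

variable (L : Type) [Field L] [Algebra ℚ L] [IsAlgClosed L]
variable (N ℓ : ℕ) [NeZero N] [NeZero ℓ]

omit [IsAlgClosed L] in
/-- two ring homomorphisms out of `F_{Nℓ}` into a field which agree on `α F_N` and on `β F_N`
are equal -/
theorem ringHom_ext_alpha_beta (hℓ : ℓ.Prime) {E : Type*} [Field E]
    (φ ψ : FL L (N * ℓ) →+* E)
    (hα : ∀ v : FL L N, φ (heckeAlphaBar L N ℓ v) = ψ (heckeAlphaBar L N ℓ v))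
    (hβ : ∀ v : FL L N, φ (heckeBetaBar L N ℓ v) = ψ (heckeBetaBar L N ℓ v)) : φ = ψ := by
  refine ringHom_ext_FL L (N * ℓ) φ ψ (fun c => ?_) (fun d _ hd => ?_)
  · have h1 : algebraMap L (FL L (N * ℓ)) c =
        heckeAlphaBar L N ℓ (algebraMap L (FL L N) c) := ((heckeAlphaBar L N ℓ).commutes c).symm
    rw [h1, hα]
  · obtain ⟨d', hd'0, hd', h | h⟩ := gen_Nℓ_cases L N ℓ hℓ d hd
    · rw [h, hα]
    · rw [h, hβ]

/-- **existence of the second embedding** -/
theorem exists_iota0 (hdeg : finrankAlong L (heckeAlphaBar L N ℓ) = ℓ + 1) (hℓ : ℓ.Prime)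
    (hℓN : ¬ ℓ ∣ N) :
    ∃ ι₀ : FL L (N * ℓ) →+* LaurentSeries L,
      (∀ v : FL L N, ι₀ (heckeAlphaBar L N ℓ v) = qExpand L ℓ (v : LaurentSeries L)) ∧
      (∀ v : FL L N, ι₀ (heckeBetaBar L N ℓ v) = (v : LaurentSeries L)) := by
  haveI : CharZero L := charZero_of_ratAlgebra L
  obtain ⟨ζ, hζ⟩ := exists_prim_unit L ℓ hℓ.ne_zero
  let emb : LaurentSeries L →+* AlgebraicClosure (LaurentSeries L) :=
    algebraMap (LaurentSeries L) (AlgebraicClosure (LaurentSeries L))
  obtain ⟨σ, hσ1, hσ2⟩ := (degPair_alpha_beta L N ℓ hℓ ζ hζ).exists_ringHom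
    (finiteAlong_alpha L N ℓ) hdeg hℓ hℓN ζ hζ emb (some ⟨0, hℓ.pos⟩)
  have hα : ∀ v : FL L N, σ (heckeAlphaBar L N ℓ v) = emb (qExpand L ℓ (v : LaurentSeries L)) := by
    intro v
    have h1 := congrFun (congrArg DFunLike.coe hσ1) v
    rw [RingHom.comp_apply, RingHom.comp_apply, baseHom_apply] at h1
    exact h1
  have hβ : ∀ v : FL L N, σ (heckeBetaBar L N ℓ v) = emb (v : LaurentSeries L) := by
    intro v
    have h1 := hσ2 v
    rw [RingHom.comp_apply, conjHom_apply, tauHom_some] at h1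
    simp only [pow_zero, Tower.twist_one] at h1
    exact h1
  -- the range of `σ` lies in the range of `emb`
  let E' : IntermediateField L (FL L (N * ℓ)) :=
    { (emb.fieldRange).comap σ with
      algebraMap_mem' := fun c => by
        have h1 : algebraMap L (FL L (N * ℓ)) c =
            heckeAlphaBar L N ℓ (algebraMap L (FL L N) c) :=
          ((heckeAlphaBar L N ℓ).commutes c).symm
        show σ (algebraMap L (FL L (N * ℓ)) c) ∈ emb.fieldRange
        rw [h1, hα]
        exact ⟨_, rfl⟩ }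
  have hE : ∀ x, x ∈ E' ↔ σ x ∈ emb.fieldRange := fun _ => Iff.rfl
  have hle : IntermediateField.adjoin L (genSetF L (N * ℓ)) ≤ E' := by
    rw [IntermediateField.adjoin_le_iff]
    rintro x ⟨d, hd0, hd, rfl⟩
    rw [SetLike.mem_coe, hE]
    obtain ⟨d', hd'0, hd', h | h⟩ := gen_Nℓ_cases L N ℓ hℓ d hd
    · rw [h, hα]
      exact ⟨_, rfl⟩
    · rw [h, hβ]
      exact ⟨_, rfl⟩
  rw [adjoin_genSetF] at hle
  have hrange : ∀ x, ∃ s, emb s = σ x := fun x =>
    (hE x).mp (hle (IntermediateField.mem_top))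
  obtain ⟨τ, hτ⟩ := exists_ringHom_lift emb emb.injective σ hrange
  refine ⟨τ, fun v => emb.injective ?_, fun v => emb.injective ?_⟩
  · rw [hτ, hα]
  · rw [hτ, hβ]

/-- **the second embedding** `ι₀ : F_{Nℓ} → L((s))`: `α h ↦ h(s^ℓ)`, `β h ↦ h(s)` -/
def iota0 (hdeg : finrankAlong L (heckeAlphaBar L N ℓ) = ℓ + 1) (hℓ : ℓ.Prime) (hℓN : ¬ ℓ ∣ N) :
    FL L (N * ℓ) →+* LaurentSeries L :=
  (exists_iota0 L N ℓ hdeg hℓ hℓN).choose

variable {L N ℓ}
variable (hdeg : finrankAlong L (heckeAlphaBar L N ℓ) = ℓ + 1) (hℓ : ℓ.Prime) (hℓN : ¬ ℓ ∣ N)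

theorem iota0_alpha (v : FL L N) :
    iota0 L N ℓ hdeg hℓ hℓN (heckeAlphaBar L N ℓ v) = qExpand L ℓ (v : LaurentSeries L) :=
  (exists_iota0 L N ℓ hdeg hℓ hℓN).choose_spec.1 v

theorem iota0_beta (v : FL L N) :
    iota0 L N ℓ hdeg hℓ hℓN (heckeBetaBar L N ℓ v) = (v : LaurentSeries L) :=
  (exists_iota0 L N ℓ hdeg hℓ hℓN).choose_spec.2 v

theorem iota0_injective : Function.Injective (iota0 L N ℓ hdeg hℓ hℓN) :=
  (iota0 L N ℓ hdeg hℓ hℓN).injective

theorem iota0_algebraMap (c : L) :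
    iota0 L N ℓ hdeg hℓ hℓN (algebraMap L (FL L (N * ℓ)) c) = HahnSeries.C c := by
  have h1 : algebraMap L (FL L (N * ℓ)) c =
      heckeBetaBar L N ℓ (algebraMap L (FL L N) c) := ((heckeBetaBar L N ℓ).commutes c).symm
  rw [h1, iota0_beta]
  exact algebraMap_laurentSeries_eq_single L c

/-- uniqueness of the second embedding -/
theorem iota0_unique (ι : FL L (N * ℓ) →+* LaurentSeries L)
    (hα : ∀ v : FL L N, ι (heckeAlphaBar L N ℓ v) = qExpand L ℓ (v : LaurentSeries L))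
    (hβ : ∀ v : FL L N, ι (heckeBetaBar L N ℓ v) = (v : LaurentSeries L)) :
    ι = iota0 L N ℓ hdeg hℓ hℓN :=
  ringHom_ext_alpha_beta L N ℓ hℓ _ _
    (fun v => by rw [hα, iota0_alpha]) (fun v => by rw [hβ, iota0_beta])

/-- **(K2), first half**: `ι₀` commutes with the coefficientwise Galois action -/
theorem iota0_galois (σ : L ≃ₐ[ℚ] L) (x : FL L (N * ℓ)) :
    iota0 L N ℓ hdeg hℓ hℓN (arithmeticGalois (modularFunctionFieldFull (N * ℓ)) σ • x) =
      coeffMap (σ : L →+* L) (iota0 L N ℓ hdeg hℓ hℓN x) := by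
  set g := arithmeticGalois (modularFunctionFieldFull (N * ℓ)) σ with hg
  set g' := arithmeticGalois (modularFunctionFieldFull N) σ with hg'
  -- the ring homomorphism `x ↦ σ⁻¹ (ι₀ (σ x))`
  let ψ : FL L (N * ℓ) →+* LaurentSeries L :=
    ((coeffMap ((σ.symm : L ≃ₐ[ℚ] L) : L →+* L)).comp (iota0 L N ℓ hdeg hℓ hℓN)).comp
      (MulSemiringAction.toRingHom _ (FL L (N * ℓ)) g)
  have hψ : ∀ y, ψ y = coeffMap ((σ.symm : L ≃ₐ[ℚ] L) : L →+* L)
      (iota0 L N ℓ hdeg hℓ hℓN (g • y)) := fun y => rfl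
  have hinv : ∀ z : LaurentSeries L,
      coeffMap ((σ.symm : L ≃ₐ[ℚ] L) : L →+* L) (coeffMap (σ : L →+* L) z) = z := by
    intro z
    rw [coeffMap_coeffMap,
      coeffMap_congr (g := RingHom.id L) (RingHom.ext fun a => σ.symm_apply_apply a) z,
      coeffMap_id]
  have hinv' : ∀ z : LaurentSeries L,
      coeffMap (σ : L →+* L) (coeffMap ((σ.symm : L ≃ₐ[ℚ] L) : L →+* L) z) = z := by
    intro z
    rw [coeffMap_coeffMap,
      coeffMap_congr (g := RingHom.id L) (RingHom.ext fun a => σ.apply_symm_apply a) z,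
      coeffMap_id]
  have key : ψ = iota0 L N ℓ hdeg hℓ hℓN := by
    refine iota0_unique hdeg hℓ hℓN ψ (fun v => ?_) (fun v => ?_)
    · rw [hψ, intertwines_alpha L N ℓ σ v, iota0_alpha, coe_arithmeticGalois_smul,
        ← coeffMap_qExpand, hinv]
    · rw [hψ, intertwines_beta L N ℓ σ v, iota0_beta, coe_arithmeticGalois_smul, hinv]
  have h1 := congrFun (congrArg DFunLike.coe key) x
  rw [hψ] at h1
  rw [← h1, hinv']

end Main

end Fermat.Agent.S34x.TwoVal
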