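/-
helper44 (P-S34, WP2 TwoVal, part 2): the two Gauss rings of `F_{Nℓ}` and the Kronecker
relations (K1).

`L` algebraically closed of characteristic `0`, `A` a valuation subring of `L`, `π : A → k`,
`ℓ ∤ N` prime.  On `F_{Nℓ}` we have
* `Ov_∞ := Ov A π (FBar L (N * ℓ))`, `red_∞ := redV`, the Gauss ring for the natural embedding
  (`α h ↦ h(t)`, `β h ↦ h(t^ℓ)`),
* `Ov0 := (gaussRing A π).comap ι₀`, `red0 := gaussRed ∘ ι₀`, the Gauss ring for the second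
  embedding (`α h ↦ h(s^ℓ)`, `β h ↦ h(s)`).

(K1): for `h` in the Gauss ring `Ov` of `F_N`,
  `red_∞ (α h) = h̄`,        `red_∞ (β h) = h̄(t^ℓ)`,
  `red_0 (β h) = h̄`,        `red_0 (α h) = h̄(s^ℓ)`,
and, if `k` is perfect of characteristic `ℓ`, `h̄(t^ℓ) = (Fc⁻¹ h̄) ^ ℓ` with `Fc` the
coefficientwise Frobenius.  If moreover `π` is onto and `k` is algebraically closed of
characteristic `ℓ`, membership reflects:
  `α h ∈ Ov_∞ ↔ h ∈ Ov ↔ β h ∈ Ov_∞`, `α h ∈ Ov0 ↔ h ∈ Ov ↔ β h ∈ Ov0`.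
-/
import Fermat.Agent.S34x.TwoVal.Iota0
import Fermat.Agent.Gateway.ESC.KroneckerGauss
import Fermat.Agent.Gateway.ES.CoeffAut

set_option autoImplicit false
set_option linter.style.haveILetI false
set_option linter.unusedSectionVars false

noncomputable section

namespace Fermat.Agent.S34x.TwoVal

open Polynomial ModularCurve AlgebraicCurve IntermediateField
open Fermat.Agent.Gateway.Hecke Fermat.Agent.Gateway.ESC
open Fermat.Agent.Gateway.Red Fermat.Agent.Gateway.GoodRed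

section Congr

variable {L : Type*} [Field L] (A : ValuationSubring L) {k : Type*} [Field k] (π : A →+* k)

theorem gaussRed_congr {y y' : LaurentSeries L} (h : y = y') (hy : y ∈ gaussRing A π)
    (hy' : y' ∈ gaussRing A π) : gaussRed A π ⟨y, hy⟩ = gaussRed A π ⟨y', hy'⟩ := by
  subst h
  rfl

end Congr

/-! ### The natural embedding (the place `∞`) -/

section Infinity

variable {L : Type} [Field L] [Algebra ℚ L] (A : ValuationSubring L)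
  {k : Type} [Field k] (π : A →+* k)
variable (N ℓ : ℕ) [NeZero N] [NeZero ℓ]

/-- `α h ∈ Ov_∞ ↔ h ∈ Ov` -/
theorem alpha_mem_Ov_iff (h : FL L N) :
    heckeAlphaBar L N ℓ h ∈ Ov A π (FBar L (N * ℓ)) ↔ h ∈ Ov A π (FBar L N) := by
  rw [mem_Ov_iff, mem_Ov_iff, coe_heckeAlphaBar]

/-- **(K1)**: `red_∞ (α h) = h̄` -/
theorem redV_alpha (h : FL L N) (hh : h ∈ Ov A π (FBar L N)) :
    redV A π (FBar L (N * ℓ)) ⟨heckeAlphaBar L N ℓ h, (alpha_mem_Ov_iff A π N ℓ h).mpr hh⟩ =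
      redV A π (FBar L N) ⟨h, hh⟩ := by
  rw [redV_apply, redV_apply]
  exact gaussRed_congr A π (coe_heckeAlphaBar N ℓ h) _ _

/-- `h ∈ Ov → β h ∈ Ov_∞` -/
theorem beta_mem_Ov (h : FL L N) (hh : h ∈ Ov A π (FBar L N)) :
    heckeBetaBar L N ℓ h ∈ Ov A π (FBar L (N * ℓ)) := by
  rw [mem_Ov_iff, coe_heckeBetaBar]
  exact GaussRing.qExpand_mem_gaussRing A π ℓ hh

/-- **(K1)**: `red_∞ (β h) = h̄(t^ℓ)` -/
theorem redV_beta (h : FL L N) (hh : h ∈ Ov A π (FBar L N)) :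
    redV A π (FBar L (N * ℓ)) ⟨heckeBetaBar L N ℓ h, beta_mem_Ov A π N ℓ h hh⟩ =
      qExpand k ℓ (redV A π (FBar L N) ⟨h, hh⟩) := by
  have h1 := GaussRing.gaussRed_qExpand A π ℓ hh
  rw [redV_apply, redV_apply]
  refine Eq.trans ?_ h1
  exact gaussRed_congr A π (coe_heckeBetaBar N ℓ h) _ _

end Infinity

section InfinityReflect

variable {L : Type} [Field L] [Algebra ℚ L] (A : ValuationSubring L)
  {k : Type} [Field k] (π : A →+* k) [IsAlgClosed k]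
variable (N ℓ : ℕ) [NeZero N] [Fact ℓ.Prime] [CharP k ℓ]

/-- `β h ∈ Ov_∞ ↔ h ∈ Ov` (`ℓ` the residue characteristic, `ℓ ∤ N`). -/
theorem beta_mem_Ov_iff (hπ : Function.Surjective π) (hℓN : ¬ ℓ ∣ N) (h : FL L N) :
    haveI : NeZero ℓ := ⟨(Fact.out : ℓ.Prime).ne_zero⟩
    heckeBetaBar L N ℓ h ∈ Ov A π (FBar L (N * ℓ)) ↔ h ∈ Ov A π (FBar L N) := by
  haveI : NeZero ℓ := ⟨(Fact.out : ℓ.Prime).ne_zero⟩
  refine ⟨fun hm => ?_, beta_mem_Ov A π N ℓ h⟩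
  rw [mem_Ov_iff, coe_heckeBetaBar] at hm
  exact mem_Ov_of_qExpand_mem A π ℓ N hπ hℓN ℓ h hm

end InfinityReflect

/-! ### The second embedding (the place `0`) -/

section Zero

variable {L : Type} [Field L] [Algebra ℚ L] [IsAlgClosed L] (A : ValuationSubring L)
  {k : Type} [Field k] (π : A →+* k)
variable (N ℓ : ℕ) [NeZero N] [NeZero ℓ]
variable (hdeg : finrankAlong L (heckeAlphaBar L N ℓ) = ℓ + 1) (hℓ : ℓ.Prime) (hℓN : ¬ ℓ ∣ N)

/-- the Gauss ring of `F_{Nℓ}` for the second embedding `ι₀` -/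
def Ov0 : Subring (FL L (N * ℓ)) := (gaussRing A π).comap (iota0 L N ℓ hdeg hℓ hℓN)

theorem mem_Ov0_iff {x : FL L (N * ℓ)} :
    x ∈ Ov0 A π N ℓ hdeg hℓ hℓN ↔ iota0 L N ℓ hdeg hℓ hℓN x ∈ gaussRing A π := Iff.rfl

/-- the reduction map of the second Gauss ring -/
def red0 : Ov0 A π N ℓ hdeg hℓ hℓN →+* LaurentSeries k :=
  (gaussRed A π).comp
    ((iota0 L N ℓ hdeg hℓ hℓN).restrict (Ov0 A π N ℓ hdeg hℓ hℓN) (gaussRing A π) fun _ hx => hx)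

theorem red0_apply (x : Ov0 A π N ℓ hdeg hℓ hℓN) :
    red0 A π N ℓ hdeg hℓ hℓN x =
      gaussRed A π ⟨iota0 L N ℓ hdeg hℓ hℓN (x : FL L (N * ℓ)), x.2⟩ := rfl

/-- `Ov0` is local with maximal ideal `ker red0` -/
theorem inv_mem_Ov0 {x : FL L (N * ℓ)} (hx : x ∈ Ov0 A π N ℓ hdeg hℓ hℓN)
    (hred : red0 A π N ℓ hdeg hℓ hℓN ⟨x, hx⟩ ≠ 0) : x⁻¹ ∈ Ov0 A π N ℓ hdeg hℓ hℓN := by
  rw [mem_Ov0_iff, map_inv₀]
  exact inv_mem_gaussRing A π hx hred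

theorem red0_inv {x : FL L (N * ℓ)} (hx : x ∈ Ov0 A π N ℓ hdeg hℓ hℓN)
    (hx' : x⁻¹ ∈ Ov0 A π N ℓ hdeg hℓ hℓN) :
    red0 A π N ℓ hdeg hℓ hℓN ⟨x⁻¹, hx'⟩ = (red0 A π N ℓ hdeg hℓ hℓN ⟨x, hx⟩)⁻¹ := by
  by_cases hx0 : x = 0
  · subst hx0
    have h0 : (⟨(0 : FL L (N * ℓ))⁻¹, hx'⟩ : Ov0 A π N ℓ hdeg hℓ hℓN) = 0 :=
      Subtype.ext inv_zero
    have h1 : (⟨(0 : FL L (N * ℓ)), hx⟩ : Ov0 A π N ℓ hdeg hℓ hℓN) = 0 := rfl
    rw [h0, h1, map_zero, inv_zero]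
  · have h1 : (⟨x⁻¹, hx'⟩ : Ov0 A π N ℓ hdeg hℓ hℓN) * ⟨x, hx⟩ = 1 :=
      Subtype.ext (inv_mul_cancel₀ hx0)
    have h2 := congrArg (red0 A π N ℓ hdeg hℓ hℓN) h1
    rw [map_mul, map_one] at h2
    exact eq_inv_of_mul_eq_one_left h2

/-- `β h ∈ Ov0 ↔ h ∈ Ov` -/
theorem beta_mem_Ov0_iff (h : FL L N) :
    heckeBetaBar L N ℓ h ∈ Ov0 A π N ℓ hdeg hℓ hℓN ↔ h ∈ Ov A π (FBar L N) := by
  rw [mem_Ov0_iff, iota0_beta, mem_Ov_iff]

/-- **(K1)**: `red_0 (β h) = h̄` -/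
theorem red0_beta (h : FL L N) (hh : h ∈ Ov A π (FBar L N)) :
    red0 A π N ℓ hdeg hℓ hℓN
        ⟨heckeBetaBar L N ℓ h, (beta_mem_Ov0_iff A π N ℓ hdeg hℓ hℓN h).mpr hh⟩ =
      redV A π (FBar L N) ⟨h, hh⟩ := by
  rw [red0_apply, redV_apply]
  exact gaussRed_congr A π (iota0_beta hdeg hℓ hℓN h) _ _

/-- `h ∈ Ov → α h ∈ Ov0` -/
theorem alpha_mem_Ov0 (h : FL L N) (hh : h ∈ Ov A π (FBar L N)) :
    heckeAlphaBar L N ℓ h ∈ Ov0 A π N ℓ hdeg hℓ hℓN := by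
  rw [mem_Ov0_iff, iota0_alpha]
  exact GaussRing.qExpand_mem_gaussRing A π ℓ hh

/-- **(K1)**: `red_0 (α h) = h̄(s^ℓ)` -/
theorem red0_alpha (h : FL L N) (hh : h ∈ Ov A π (FBar L N)) :
    red0 A π N ℓ hdeg hℓ hℓN ⟨heckeAlphaBar L N ℓ h, alpha_mem_Ov0 A π N ℓ hdeg hℓ hℓN h hh⟩ =
      qExpand k ℓ (redV A π (FBar L N) ⟨h, hh⟩) := by
  have h1 := GaussRing.gaussRed_qExpand A π ℓ hh
  rw [red0_apply, redV_apply]
  refine Eq.trans ?_ h1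
  exact gaussRed_congr A π (iota0_alpha hdeg hℓ hℓN h) _ _

/-- constants: `c ∈ Ov0 ↔ c ∈ Ov` (as a constant of `F_N`) -/
theorem algebraMap_mem_Ov0_iff (c : L) :
    algebraMap L (FL L (N * ℓ)) c ∈ Ov0 A π N ℓ hdeg hℓ hℓN ↔
      algebraMap L (FL L N) c ∈ Ov A π (FBar L N) := by
  have h1 : algebraMap L (FL L (N * ℓ)) c =
      heckeBetaBar L N ℓ (algebraMap L (FL L N) c) := ((heckeBetaBar L N ℓ).commutes c).symm
  rw [h1, beta_mem_Ov0_iff]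

end Zero

section ZeroReflect

variable {L : Type} [Field L] [Algebra ℚ L] [IsAlgClosed L] (A : ValuationSubring L)
  {k : Type} [Field k] (π : A →+* k) [IsAlgClosed k]
variable (N ℓ : ℕ) [NeZero N] [NeZero ℓ] [Fact ℓ.Prime] [CharP k ℓ]
variable (hdeg : finrankAlong L (heckeAlphaBar L N ℓ) = ℓ + 1) (hℓ : ℓ.Prime) (hℓN : ¬ ℓ ∣ N)

/-- `α h ∈ Ov0 ↔ h ∈ Ov` (`ℓ` the residue characteristic, `ℓ ∤ N`). -/
theorem alpha_mem_Ov0_iff (hπ : Function.Surjective π) (h : FL L N) :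
    heckeAlphaBar L N ℓ h ∈ Ov0 A π N ℓ hdeg hℓ hℓN ↔ h ∈ Ov A π (FBar L N) := by
  refine ⟨fun hm => ?_, alpha_mem_Ov0 A π N ℓ hdeg hℓ hℓN h⟩
  rw [mem_Ov0_iff, iota0_alpha] at hm
  exact mem_Ov_of_qExpand_mem A π ℓ N hπ hℓN ℓ h hm

end ZeroReflect

/-! ### `h(t^ℓ) = (Fc⁻¹ h)^ℓ` in characteristic `ℓ` -/

section FrobInv

variable {k : Type*} [Field k] (ℓ : ℕ) [Fact ℓ.Prime] [CharP k ℓ] [PerfectRing k ℓ]

/-- the coefficientwise inverse Frobenius of `k((t))` -/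
def frobInvLS : LaurentSeries k →+* LaurentSeries k :=
  coeffMap ((frobeniusEquiv k ℓ).symm : k →+* k)

theorem frobInvLS_coeff (f : LaurentSeries k) (n : ℤ) :
    (frobInvLS ℓ f).coeff n = (frobeniusEquiv k ℓ).symm (f.coeff n) := rfl

theorem coeffMap_frobenius_frobInvLS (f : LaurentSeries k) :
    coeffMap (frobenius k ℓ) (frobInvLS ℓ f) = f := by
  rw [frobInvLS, coeffMap_coeffMap,
    coeffMap_congr (g := RingHom.id k)
      (RingHom.ext fun a => by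
        rw [RingHom.comp_apply, RingHom.id_apply]
        exact frobenius_apply_frobeniusEquiv_symm k ℓ a) f,
    coeffMap_id]

theorem frobInvLS_coeffMap_frobenius (f : LaurentSeries k) :
    frobInvLS ℓ (coeffMap (frobenius k ℓ) f) = f := by
  rw [frobInvLS, coeffMap_coeffMap,
    coeffMap_congr (g := RingHom.id k)
      (RingHom.ext fun a => by
        rw [RingHom.comp_apply, RingHom.id_apply]
        exact frobeniusEquiv_symm_apply_frobenius k ℓ a) f,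
    coeffMap_id]

/-- `f(t^ℓ) = (Fc⁻¹ f)^ℓ` -/
theorem qExpand_eq_frobInvLS_pow (f : LaurentSeries k) :
    haveI : NeZero ℓ := ⟨(Fact.out : ℓ.Prime).ne_zero⟩
    qExpand k ℓ f = (frobInvLS ℓ f) ^ ℓ := by
  haveI : NeZero ℓ := ⟨(Fact.out : ℓ.Prime).ne_zero⟩
  rw [Fermat.Agent.Gateway.ES.pow_char_eq_qExpand_coeffMap_frobenius ℓ,
    coeffMap_frobenius_frobInvLS]

/-- on `Fk`, `frobInvLS` is the inverse of the coefficientwise Frobenius `frobC` -/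
theorem frobInvLS_eq_frobC_inv (N : ℕ) (x : modularFunctionFieldFullC k N) :
    frobInvLS ℓ (x : LaurentSeries k) =
      (((Fermat.Agent.Gateway.ES.frobC k N ℓ)⁻¹ • x : modularFunctionFieldFullC k N) :
        LaurentSeries k) := by
  have h1 := Fermat.Agent.Gateway.ES.coe_frobC_smul k N ℓ
    ((Fermat.Agent.Gateway.ES.frobC k N ℓ)⁻¹ • x)
  rw [smul_inv_smul] at h1
  rw [h1, frobInvLS_coeffMap_frobenius]

end FrobInv

end Fermat.Agent.S34x.TwoVal
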