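import Fermat.Agent.S34x.TwoVal.ValLevel
import Fermat.Agent.S34x.TwoVal.Gauss0

/-!
# P-S34, WP2-V (V4): `Ov0` is a valuation ring

helper60.  The pull-back `Ov0` of the Gauss ring along the second embedding `ι₀ : F_{Nℓ} → L((s))`
(helper44, `Iota0.lean` / `Gauss0.lean`) is a valuation subring `valZero` of `F_{Nℓ}`, in residue
characteristic `ℓ`.  Together with `valInfty` (`ValLevel.lean`) these are the two extensions of the
Gauss valuation of `F_N` to `F_{Nℓ}`.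

* `Ov0_mem_or_inv_mem`, `valZero`, `mem_valZero_iff`;
* `Ov_mem_or_inv_mem` (the tautological embedding, restated);
* `red0_eq_zero_iff`, `redV_eq_zero_iff`: the kernels of the reductions are the non-units;
* `alpha_mem_valZero_iff`, `beta_mem_valZero_iff`: `valZero` induces the Gauss valuation of `F_N`
  along both degeneracy maps.
-/

set_option autoImplicit false
set_option linter.style.haveILetI false

noncomputable section

namespace Fermat.Agent.S34x.TwoVal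

open Polynomial ModularCurve AlgebraicCurve IntermediateField
open Fermat.Agent.S28 Fermat.Agent.S28.Tower Fermat.Agent.Gateway.Hecke
open Fermat.Agent.Gateway.Red Fermat.Agent.Gateway.GoodRed Fermat.Agent.Gateway.ESC

variable {L : Type} [Field L] [Algebra ℚ L] [IsAlgClosed L] (A : ValuationSubring L)
  {k : Type} [Field k] (π : A →+* k) [IsAlgClosed k]
variable (N ℓ : ℕ) [NeZero N] [Fact ℓ.Prime] [CharP k ℓ]
variable (hdeg : finrankAlong L (heckeAlphaBar L N ℓ) = ℓ + 1) (hℓ : ℓ.Prime) (hℓN : ¬ ℓ ∣ N)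

omit [IsAlgClosed k] [CharP k ℓ] in
theorem iota0_gen_mem_quotLS (d : ℕ) [NeZero d] (hd : d ∣ N * ℓ) :
    iota0 L N ℓ hdeg hℓ hℓN (gen L (N * ℓ) hd) ∈ quotLS A := by
  obtain ⟨d', hd'0, hd', h | h⟩ := gen_Nℓ_cases L N ℓ hℓ d hd
  · rw [h, iota0_alpha]
    haveI : NeZero d' := ⟨hd'0⟩
    have : qExpand L ℓ ((genS L N hd'0 hd' : FL L N) : LaurentSeries L) ∈ intLS A := by
      rw [← gen_eq_genS, coe_gen, qExpand_jL]
      haveI : NeZero (ℓ * d') := ⟨Nat.mul_ne_zero (NeZero.ne ℓ) hd'0⟩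
      exact jL_mem_intLS A (ℓ * d')
    exact intLS_le_quotLS A this
  · rw [h, iota0_beta]
    haveI : NeZero d' := ⟨hd'0⟩
    rw [← gen_eq_genS, coe_gen]
    exact intLS_le_quotLS A (jL_mem_intLS A d')

/-- **`Ov0` is a valuation ring.** -/
theorem Ov0_mem_or_inv_mem
    (hrk : ∀ x ∈ IsLocalRing.maximalIdeal A, ∀ c : A, c ≠ 0 → ∃ j : ℕ, c ∣ x ^ j)
    (hπ : Function.Surjective π) (x : FL L (N * ℓ)) :
    x ∈ Ov0 A π N ℓ hdeg hℓ hℓN ∨ x⁻¹ ∈ Ov0 A π N ℓ hdeg hℓ hℓN :=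
  gaussOf_level_mem_or_inv_mem A π N ℓ hrk hπ hℓN (iota0 L N ℓ hdeg hℓ hℓN)
    (fun c => by rw [iota0_algebraMap]; exact C_mem_quotLS A c)
    (fun d _ hd => iota0_gen_mem_quotLS A N ℓ hdeg hℓ hℓN d hd)
    (fun c hc => alpha_mem_Ov0 A π N ℓ hdeg hℓ hℓN c hc) x

omit [IsAlgClosed L] in
/-- **`Ov A π (F_{Nℓ})` is a valuation ring.** -/
theorem Ov_mem_or_inv_mem
    (hrk : ∀ x ∈ IsLocalRing.maximalIdeal A, ∀ c : A, c ≠ 0 → ∃ j : ℕ, c ∣ x ^ j)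
    (hπ : Function.Surjective π) (hℓN : ¬ ℓ ∣ N) (x : FL L (N * ℓ)) :
    x ∈ Ov A π (FL L (N * ℓ)) ∨ x⁻¹ ∈ Ov A π (FL L (N * ℓ)) :=
  (valInfty A π N ℓ hrk hπ hℓN).mem_or_inv_mem x

/-- `Ov0` as a valuation subring of `F_{Nℓ}`. -/
def valZero
    (hrk : ∀ x ∈ IsLocalRing.maximalIdeal A, ∀ c : A, c ≠ 0 → ∃ j : ℕ, c ∣ x ^ j)
    (hπ : Function.Surjective π) : ValuationSubring (FL L (N * ℓ)) :=
  { Ov0 A π N ℓ hdeg hℓ hℓN with
    mem_or_inv_mem' := Ov0_mem_or_inv_mem A π N ℓ hdeg hℓ hℓN hrk hπ }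

theorem mem_valZero_iff
    (hrk : ∀ x ∈ IsLocalRing.maximalIdeal A, ∀ c : A, c ≠ 0 → ∃ j : ℕ, c ∣ x ^ j)
    (hπ : Function.Surjective π) {x : FL L (N * ℓ)} :
    x ∈ valZero A π N ℓ hdeg hℓ hℓN hrk hπ ↔ x ∈ Ov0 A π N ℓ hdeg hℓ hℓN := Iff.rfl

theorem alpha_mem_valZero_iff
    (hrk : ∀ x ∈ IsLocalRing.maximalIdeal A, ∀ c : A, c ≠ 0 → ∃ j : ℕ, c ∣ x ^ j)
    (hπ : Function.Surjective π) (c : FL L N) :
    heckeAlphaBar L N ℓ c ∈ valZero A π N ℓ hdeg hℓ hℓN hrk hπ ↔ c ∈ OvVal A π N ℓ hπ hℓN :=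
  alpha_mem_Ov0_iff A π N ℓ hdeg hℓ hℓN hπ c

theorem beta_mem_valZero_iff
    (hrk : ∀ x ∈ IsLocalRing.maximalIdeal A, ∀ c : A, c ≠ 0 → ∃ j : ℕ, c ∣ x ^ j)
    (hπ : Function.Surjective π) (c : FL L N) :
    heckeBetaBar L N ℓ c ∈ valZero A π N ℓ hdeg hℓ hℓN hrk hπ ↔ c ∈ OvVal A π N ℓ hπ hℓN :=
  beta_mem_Ov0_iff A π N ℓ hdeg hℓ hℓN c

/-- the non-units of `valZero` are the elements with zero reduction. -/
theorem red0_eq_zero_iff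
    (hrk : ∀ x ∈ IsLocalRing.maximalIdeal A, ∀ c : A, c ≠ 0 → ∃ j : ℕ, c ∣ x ^ j)
    (hπ : Function.Surjective π) (x : valZero A π N ℓ hdeg hℓ hℓN hrk hπ) :
    red0 A π N ℓ hdeg hℓ hℓN ⟨(x : FL L (N * ℓ)), x.2⟩ = 0 ↔ ¬ IsUnit x :=
  gaussRedOf_eq_zero_iff A π N ℓ hrk hπ hℓN (iota0 L N ℓ hdeg hℓ hℓN)
    (fun c => by rw [iota0_algebraMap]; exact C_mem_quotLS A c)
    (fun d _ hd => iota0_gen_mem_quotLS A N ℓ hdeg hℓ hℓN d hd)
    (fun c hc => alpha_mem_Ov0 A π N ℓ hdeg hℓ hℓN c hc) x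

omit [IsAlgClosed L] in
/-- the non-units of `valInfty` are the elements with zero reduction. -/
theorem redV_eq_zero_iff
    (hrk : ∀ x ∈ IsLocalRing.maximalIdeal A, ∀ c : A, c ≠ 0 → ∃ j : ℕ, c ∣ x ^ j)
    (hπ : Function.Surjective π) (hℓN : ¬ ℓ ∣ N) (x : valInfty A π N ℓ hrk hπ hℓN) :
    redV A π (FL L (N * ℓ)) ⟨(x : FL L (N * ℓ)), x.2⟩ = 0 ↔ ¬ IsUnit x :=
  gaussRedOf_eq_zero_iff A π N ℓ hrk hπ hℓN (algebraMap (FL L (N * ℓ)) (LaurentSeries L))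
    (fun c => algebraMap_mem_quotLS A c)
    (fun d _ _ => intLS_le_quotLS A (jL_mem_intLS A d))
    (fun c hc => by
      show ((heckeAlphaBar L N ℓ c : FL L (N * ℓ)) : LaurentSeries L) ∈ gaussRing A π
      rw [coe_heckeAlphaBar]
      exact hc) x

end Fermat.Agent.S34x.TwoVal
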