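/-
helper60 (P-S34, WP2 TwoVal): **(K2)** coefficientwise automorphisms and the two Gauss rings.

Generic part: a ring endomorphism `τ` of `L` which preserves `A` and induces `τb` on the residue
field `k` (`ResCompat A π τ τb`) preserves the Gauss ring `gaussRing A π` of `L((t))`
(coefficientwise action) and commutes with the reduction:
  `gaussRed (coeffMap τ y) = coeffMap τb (gaussRed y)`.

Instances: elements of the decomposition group of `A` (with the induced automorphism of `k`),
elements of the inertia group of `A` (`τb = id`).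

Level part: for `σ : L ≃ₐ[ℚ] L`, `g := arithmeticGalois (modularFunctionFieldFull M) σ` acts on
`F_M = FL L M` coefficientwise for the natural embedding, and on `F_{Nℓ}` also coefficientwise for
the second embedding `ι₀` (helper44's `iota0_galois`).  Hence the decomposition group preserves
both Gauss rings `Ov_∞`, `Ov0` and the inertia group fixes both reductions `redV`, `red0`.
-/
import Fermat.Agent.S34x.TwoVal.Gauss0
import Fermat.Prelude.Def_FLTPrelim_Ramification

set_option autoImplicit false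
set_option linter.style.haveILetI false
set_option linter.unusedSectionVars false

noncomputable section

namespace Fermat.Agent.S34x.TwoVal

open Polynomial ModularCurve AlgebraicCurve IntermediateField
open Fermat.Agent.Gateway.Hecke Fermat.Agent.Gateway.ESC
open Fermat.Agent.Gateway.Red Fermat.Agent.Gateway.GoodRed

/-! ### Generic (K2) -/

section Generic

variable {L : Type*} [Field L] (A : ValuationSubring L) {k : Type*} [Field k] (π : A →+* k)

/-- `τ` preserves `A` and induces `τb` on the residue field. -/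
def ResCompat (τ : L →+* L) (τb : k →+* k) : Prop :=
  ∀ a : A, ∃ h : τ (a : L) ∈ A, π ⟨τ (a : L), h⟩ = τb (π a)

variable {A π}
variable {τ : L →+* L} {τb : k →+* k}

/-- the restriction of `τ` to `A` -/
def ResCompat.resHom (hc : ResCompat A π τ τb) : A →+* A where
  toFun a := ⟨τ (a : L), (hc a).fst⟩
  map_one' := Subtype.ext (by simp)
  map_mul' a b := Subtype.ext (by simp)
  map_zero' := Subtype.ext (by simp)
  map_add' a b := Subtype.ext (by simp)

theorem ResCompat.coe_resHom (hc : ResCompat A π τ τb) (a : A) :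
    ((hc.resHom a : A) : L) = τ (a : L) := rfl

theorem ResCompat.pi_resHom (hc : ResCompat A π τ τb) (a : A) :
    π (hc.resHom a) = τb (π a) := (hc a).snd

theorem ResCompat.embA_coeffMap (hc : ResCompat A π τ τb) (a : LaurentSeries A) :
    embA A (coeffMap hc.resHom a) = coeffMap τ (embA A a) := by
  ext n
  rfl

theorem ResCompat.redA_coeffMap (hc : ResCompat A π τ τb) (a : LaurentSeries A) :
    redA A π (coeffMap hc.resHom a) = coeffMap τb (redA A π a) := by
  ext n
  rw [redA_coeff, coeffMap_coeff, coeffMap_coeff, redA_coeff]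
  exact hc.pi_resHom _

theorem coeffMap_field_injective (τb : k →+* k) : Function.Injective (coeffMap τb) :=
  (coeffMap τb).injective

/-- **(K2), generic, membership**: the coefficientwise action preserves the Gauss ring. -/
theorem ResCompat.coeffMap_mem_gaussRing (hc : ResCompat A π τ τb) {y : LaurentSeries L}
    (hy : y ∈ gaussRing A π) : coeffMap τ y ∈ gaussRing A π := by
  obtain ⟨a, b, hb, h⟩ := hy
  refine ⟨coeffMap hc.resHom a, coeffMap hc.resHom b, ?_, ?_⟩
  · rw [hc.redA_coeffMap]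
    intro h0
    exact hb (coeffMap_field_injective τb (by rw [h0, map_zero]))
  · rw [hc.embA_coeffMap, hc.embA_coeffMap, ← map_mul, h]

/-- **(K2), generic, reduction**: the coefficientwise action commutes with the reduction. -/
theorem ResCompat.gaussRed_coeffMap (hc : ResCompat A π τ τb) {y : LaurentSeries L}
    (hy : y ∈ gaussRing A π) :
    gaussRed A π ⟨coeffMap τ y, hc.coeffMap_mem_gaussRing hy⟩ =
      coeffMap τb (gaussRed A π ⟨y, hy⟩) := by
  have hy' := hy
  obtain ⟨a, b, hb, h⟩ := hy'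
  have hb' : redA A π (coeffMap hc.resHom b) ≠ 0 := by
    rw [hc.redA_coeffMap]
    intro h0
    exact hb (coeffMap_field_injective τb (by rw [h0, map_zero]))
  have h' : coeffMap τ y * embA A (coeffMap hc.resHom b) = embA A (coeffMap hc.resHom a) := by
    rw [hc.embA_coeffMap, hc.embA_coeffMap, ← map_mul, h]
  rw [gaussRed_eq_div A π ⟨coeffMap τ y, _⟩ hb' h', gaussRed_eq_div A π ⟨y, _⟩ hb h,
    hc.redA_coeffMap, hc.redA_coeffMap, map_div₀]

/-- an element fixed by the reduction: for `τb = id` the reduction is unchanged -/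
theorem ResCompat.gaussRed_coeffMap_id {τ : L →+* L} (hc : ResCompat A π τ (RingHom.id k))
    {y : LaurentSeries L} (hy : y ∈ gaussRing A π) :
    gaussRed A π ⟨coeffMap τ y, hc.coeffMap_mem_gaussRing hy⟩ = gaussRed A π ⟨y, hy⟩ := by
  rw [hc.gaussRed_coeffMap hy, coeffMap_id]

end Generic

/-! ### Decomposition and inertia groups -/

section Groups

variable {L : Type*} [Field L] [Algebra ℚ L] (A : ValuationSubring L) {k : Type*} [Field k]
  (π : A →+* k)

/-- elements of the decomposition group preserve `A` -/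
theorem apply_mem_of_mem_decomposition {σ : L ≃ₐ[ℚ] L} (hσ : σ ∈ A.decompositionSubgroup ℚ)
    (a : A) : σ (a : L) ∈ A :=
  ((⟨σ, hσ⟩ : A.decompositionSubgroup ℚ) • a).2

/-- an inertia element moves every element of `A` by an element of the maximal ideal, so it is
compatible with the identity of `k` (for any surjective `π : A → k` onto a field). -/
theorem resCompat_of_mem_inertia (hπ : Function.Surjective π) {σ : L ≃ₐ[ℚ] L}
    (hσ : σ ∈ A.inertiaSubgroupIn ℚ) :
    ResCompat A π ((σ : L ≃ₐ[ℚ] L) : L →+* L) (RingHom.id k) := by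
  obtain ⟨τ, hτ, rfl⟩ := hσ
  intro a
  refine ⟨(τ • a).2, ?_⟩
  have h1 : MulSemiringAction.toRingAut (A.decompositionSubgroup ℚ)
      (IsLocalRing.ResidueField A) τ = 1 := (MonoidHom.mem_ker).mp hτ
  have h2 : τ • (IsLocalRing.residue A a) = IsLocalRing.residue A a := by
    have := congrArg (fun e : RingAut (IsLocalRing.ResidueField A) =>
      e (IsLocalRing.residue A a)) h1
    simpa using this
  have h3 : IsLocalRing.residue A (τ • a) = IsLocalRing.residue A a := by
    rw [← h2]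
    rfl
  have h4 : τ • a - a ∈ IsLocalRing.maximalIdeal A := by
    rw [← IsLocalRing.residue_eq_zero_iff, map_sub, h3, sub_self]
  have h5 : π (τ • a - a) = 0 := (GaussRing.pi_eq_zero_iff hπ _).mpr h4
  rw [map_sub, sub_eq_zero] at h5
  exact h5

/-- a decomposition element induces an endomorphism of `k` (for any surjective `π : A → k`). -/
theorem exists_resCompat_of_mem_decomposition (hπ : Function.Surjective π) {σ : L ≃ₐ[ℚ] L}
    (hσ : σ ∈ A.decompositionSubgroup ℚ) :
    ∃ τb : k →+* k, ResCompat A π ((σ : L ≃ₐ[ℚ] L) : L →+* L) τb := by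
  set σA : A →+* A := MulSemiringAction.toRingHom (A.decompositionSubgroup ℚ) A ⟨σ, hσ⟩ with hσA
  have hker : RingHom.ker π ≤ RingHom.ker (π.comp σA) := by
    intro a ha
    rw [RingHom.mem_ker] at ha
    rw [RingHom.mem_ker, RingHom.comp_apply]
    have h1 : a ∈ IsLocalRing.maximalIdeal A := (GaussRing.pi_eq_zero_iff hπ a).mp ha
    rw [GaussRing.pi_eq_zero_iff hπ]
    rw [IsLocalRing.mem_maximalIdeal, mem_nonunits_iff] at h1 ⊢
    intro hu
    apply h1
    -- `a = σA⁻¹ (σA a)`
    set σA' : A →+* A :=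
      MulSemiringAction.toRingHom (A.decompositionSubgroup ℚ) A (⟨σ, hσ⟩⁻¹) with hσA'
    have h2 : σA' (σA a) = a := by
      show (⟨σ, hσ⟩⁻¹ : A.decompositionSubgroup ℚ) • ((⟨σ, hσ⟩ : A.decompositionSubgroup ℚ) • a)
        = a
      rw [inv_smul_smul]
    rw [← h2]
    exact hu.map σA'
  refine ⟨π.liftOfRightInverse (Function.surjInv hπ) (Function.rightInverse_surjInv hπ)
    ⟨π.comp σA, hker⟩, fun a => ⟨apply_mem_of_mem_decomposition A hσ a, ?_⟩⟩
  have := RingHom.liftOfRightInverse_comp_apply π (Function.surjInv hπ)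
    (Function.rightInverse_surjInv hπ) ⟨π.comp σA, hker⟩ a
  rw [this]
  rfl

end Groups

/-! ### The two Gauss rings of the level fields -/

section LevelInfty

variable {L : Type} [Field L] [Algebra ℚ L] (A : ValuationSubring L)
  {k : Type} [Field k] (π : A →+* k)
variable (M : ℕ) [NeZero M]

/-- **(K2) for `Ov_∞`, membership.** -/
theorem smul_mem_Ov {τb : k →+* k} (σ : L ≃ₐ[ℚ] L)
    (hc : ResCompat A π ((σ : L ≃ₐ[ℚ] L) : L →+* L) τb) {x : FL L M}
    (hx : x ∈ Ov A π (FBar L M)) :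
    arithmeticGalois (modularFunctionFieldFull M) σ • x ∈ Ov A π (FBar L M) := by
  rw [mem_Ov_iff, coe_arithmeticGalois_smul]
  exact hc.coeffMap_mem_gaussRing hx

/-- **(K2) for `Ov_∞`, reduction.** -/
theorem redV_smul {τb : k →+* k} (σ : L ≃ₐ[ℚ] L)
    (hc : ResCompat A π ((σ : L ≃ₐ[ℚ] L) : L →+* L) τb) {x : FL L M}
    (hx : x ∈ Ov A π (FBar L M)) :
    redV A π (FBar L M)
        ⟨arithmeticGalois (modularFunctionFieldFull M) σ • x, smul_mem_Ov A π M σ hc hx⟩ =
      coeffMap τb (redV A π (FBar L M) ⟨x, hx⟩) := by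
  rw [redV_apply, redV_apply]
  refine Eq.trans ?_ (hc.gaussRed_coeffMap hx)
  exact gaussRed_congr A π (coe_arithmeticGalois_smul _ σ x) _ _

/-- the decomposition group preserves `Ov_∞` (and reflects membership) -/
theorem smul_mem_Ov_iff (hπ : Function.Surjective π) {σ : L ≃ₐ[ℚ] L}
    (hσ : σ ∈ A.decompositionSubgroup ℚ) (x : FL L M) :
    arithmeticGalois (modularFunctionFieldFull M) σ • x ∈ Ov A π (FBar L M) ↔
      x ∈ Ov A π (FBar L M) := by
  constructor
  · intro h
    obtain ⟨τb, hc⟩ := exists_resCompat_of_mem_decomposition A π hπ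
      ((A.decompositionSubgroup ℚ).inv_mem hσ)
    have h1 := smul_mem_Ov A π M σ⁻¹ hc h
    rwa [map_inv, inv_smul_smul] at h1
  · intro h
    obtain ⟨τb, hc⟩ := exists_resCompat_of_mem_decomposition A π hπ hσ
    exact smul_mem_Ov A π M σ hc h

/-- the inertia group fixes the reduction `redV` -/
theorem redV_smul_of_mem_inertia (hπ : Function.Surjective π) {σ : L ≃ₐ[ℚ] L}
    (hσ : σ ∈ A.inertiaSubgroupIn ℚ) {x : FL L M} (hx : x ∈ Ov A π (FBar L M)) :
    ∃ h : arithmeticGalois (modularFunctionFieldFull M) σ • x ∈ Ov A π (FBar L M),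
      redV A π (FBar L M) ⟨_, h⟩ = redV A π (FBar L M) ⟨x, hx⟩ := by
  have hc := resCompat_of_mem_inertia A π hπ hσ
  refine ⟨smul_mem_Ov A π M σ hc hx, ?_⟩
  rw [redV_smul A π M σ hc hx, coeffMap_id]

end LevelInfty

section LevelZero

variable {L : Type} [Field L] [Algebra ℚ L] [IsAlgClosed L] (A : ValuationSubring L)
  {k : Type} [Field k] (π : A →+* k)
variable (N ℓ : ℕ) [NeZero N] [NeZero ℓ]
variable (hdeg : finrankAlong L (heckeAlphaBar L N ℓ) = ℓ + 1) (hℓ : ℓ.Prime) (hℓN : ¬ ℓ ∣ N)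

/-- **(K2) for `Ov0`, membership.** -/
theorem smul_mem_Ov0 {τb : k →+* k} (σ : L ≃ₐ[ℚ] L)
    (hc : ResCompat A π ((σ : L ≃ₐ[ℚ] L) : L →+* L) τb) {x : FL L (N * ℓ)}
    (hx : x ∈ Ov0 A π N ℓ hdeg hℓ hℓN) :
    arithmeticGalois (modularFunctionFieldFull (N * ℓ)) σ • x ∈ Ov0 A π N ℓ hdeg hℓ hℓN := by
  rw [mem_Ov0_iff, iota0_galois]
  exact hc.coeffMap_mem_gaussRing hx

/-- **(K2) for `Ov0`, reduction.** -/
theorem red0_smul {τb : k →+* k} (σ : L ≃ₐ[ℚ] L)
    (hc : ResCompat A π ((σ : L ≃ₐ[ℚ] L) : L →+* L) τb) {x : FL L (N * ℓ)}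
    (hx : x ∈ Ov0 A π N ℓ hdeg hℓ hℓN) :
    red0 A π N ℓ hdeg hℓ hℓN
        ⟨arithmeticGalois (modularFunctionFieldFull (N * ℓ)) σ • x,
          smul_mem_Ov0 A π N ℓ hdeg hℓ hℓN σ hc hx⟩ =
      coeffMap τb (red0 A π N ℓ hdeg hℓ hℓN ⟨x, hx⟩) := by
  refine Eq.trans ?_ (hc.gaussRed_coeffMap hx)
  exact gaussRed_congr A π (iota0_galois hdeg hℓ hℓN σ x) _ _

/-- the decomposition group preserves `Ov0` (and reflects membership) -/
theorem smul_mem_Ov0_iff (hπ : Function.Surjective π) {σ : L ≃ₐ[ℚ] L}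
    (hσ : σ ∈ A.decompositionSubgroup ℚ) (x : FL L (N * ℓ)) :
    arithmeticGalois (modularFunctionFieldFull (N * ℓ)) σ • x ∈ Ov0 A π N ℓ hdeg hℓ hℓN ↔
      x ∈ Ov0 A π N ℓ hdeg hℓ hℓN := by
  constructor
  · intro h
    obtain ⟨τb, hc⟩ := exists_resCompat_of_mem_decomposition A π hπ
      ((A.decompositionSubgroup ℚ).inv_mem hσ)
    have h1 := smul_mem_Ov0 A π N ℓ hdeg hℓ hℓN σ⁻¹ hc h
    rwa [map_inv, inv_smul_smul] at h1
  · intro h
    obtain ⟨τb, hc⟩ := exists_resCompat_of_mem_decomposition A π hπ hσ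
    exact smul_mem_Ov0 A π N ℓ hdeg hℓ hℓN σ hc h

/-- the inertia group fixes the reduction `red0` -/
theorem red0_smul_of_mem_inertia (hπ : Function.Surjective π) {σ : L ≃ₐ[ℚ] L}
    (hσ : σ ∈ A.inertiaSubgroupIn ℚ) {x : FL L (N * ℓ)}
    (hx : x ∈ Ov0 A π N ℓ hdeg hℓ hℓN) :
    ∃ h : arithmeticGalois (modularFunctionFieldFull (N * ℓ)) σ • x ∈
        Ov0 A π N ℓ hdeg hℓ hℓN,
      red0 A π N ℓ hdeg hℓ hℓN ⟨_, h⟩ = red0 A π N ℓ hdeg hℓ hℓN ⟨x, hx⟩ := by
  have hc := resCompat_of_mem_inertia A π hπ hσ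
  refine ⟨smul_mem_Ov0 A π N ℓ hdeg hℓ hℓN σ hc hx, ?_⟩
  rw [red0_smul A π N ℓ hdeg hℓ hℓN σ hc hx, coeffMap_id]

end LevelZero

end Fermat.Agent.S34x.TwoVal
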