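/-
helper44 (P-S34): a SEPARATING ELEMENT for the two Gauss valuations of `F_{Nℓ}` (`ℓ ∤ N` the
residue characteristic): there is `s ∈ Ov_∞ ∩ Ov0` with `red_∞ s = 0` and `red_0 s = 1`
(so `1 - s` has reductions `(1, 0)`).  Construction: `F := β j - (α j)^ℓ` has reductions
`(0, j̄ - j̄^(ℓ²))` by `NodeElt`, and `j̄ - j̄^(ℓ²) ≠ 0` is inverted by a lift from level `N`.
In particular the two valuations are distinct (independent).
-/
import Fermat.Agent.S34x.TwoVal.NodeElt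

set_option autoImplicit false
set_option linter.style.haveILetI false
set_option linter.unusedSectionVars false

noncomputable section

namespace Fermat.Agent.S34x.TwoVal

open Polynomial ModularCurve AlgebraicCurve IntermediateField
open Fermat.Agent.S28 Fermat.Agent.S28.Tower
open Fermat.Agent.Gateway.Hecke Fermat.Agent.Gateway.ESC
open Fermat.Agent.Gateway.Red Fermat.Agent.Gateway.GoodRed

section JBar

variable (k : Type*) [Field k]

/-- `j̄ - j̄^b ≠ 0` for `b ≥ 2` -/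
theorem jqModC_sub_pow_ne_zero {b : ℕ} (hb : 2 ≤ b) : jqModC k - jqModC k ^ b ≠ 0 := by
  intro h
  have h1 := congrArg (fun s : LaurentSeries k => s.coeff (-(b : ℤ))) h
  simp only [HahnSeries.coeff_sub, HahnSeries.coeff_zero] at h1
  rw [coeff_jqModC_pow_self, coeff_jqModC_of_lt k (by omega), zero_sub, neg_eq_zero] at h1
  exact one_ne_zero h1

variable {k} in
/-- the coefficients of `j̄` lie in the prime field: `Fc⁻¹ j̄ = j̄` -/
theorem frobInvLS_jqModC (ℓ : ℕ) [Fact ℓ.Prime] [CharP k ℓ] [PerfectRing k ℓ] :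
    frobInvLS ℓ (jqModC k) = jqModC k :=
  coeffMap_jqModC _

end JBar

section Main

variable {L : Type} [Field L] [Algebra ℚ L] [IsAlgClosed L] (A : ValuationSubring L)
  {k : Type} [Field k] (π : A →+* k) [IsAlgClosed k]
variable (N ℓ : ℕ) [NeZero N] [NeZero ℓ] [Fact ℓ.Prime] [CharP k ℓ]
variable (hdeg : finrankAlong L (heckeAlphaBar L N ℓ) = ℓ + 1) (hℓ : ℓ.Prime) (hℓN : ¬ ℓ ∣ N)

/-- **separating element**: `s ∈ Ov_∞ ∩ Ov0` with reductions `(0, 1)` -/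
theorem exists_separating (hπ : Function.Surjective π) :
    ∃ (s : FL L (N * ℓ)) (hs : s ∈ Ov A π (FBar L (N * ℓ)))
      (hs0 : s ∈ Ov0 A π N ℓ hdeg hℓ hℓN),
      redV A π (FBar L (N * ℓ)) ⟨s, hs⟩ = 0 ∧ red0 A π N ℓ hdeg hℓ hℓN ⟨s, hs0⟩ = 1 := by
  have h1N : (1 : ℕ) ∣ N := one_dvd N
  set j : FL L N := ⟨jS L 1 1, jS_mem_FBar one_ne_zero h1N⟩ with hjdef
  have hj : j ∈ Ov A π (FBar L N) := jS_mem_Ov A π N one_ne_zero h1N
  have hjred : redV A π (FBar L N) ⟨j, hj⟩ = jqModC k := by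
    rw [← jS_one_one]
    exact redV_jS A π N one_ne_zero h1N
  have hrel : redV A π (FBar L N) ⟨j, hj⟩ = frobInvLS ℓ (redV A π (FBar L N) ⟨j, hj⟩) := by
    rw [hjred, frobInvLS_jqModC]
  -- the element `F`
  set F := nodeEltInf L N ℓ j j with hF
  have hFinf := nodeEltInf_mem_Ov A π N ℓ j j hj hj
  have hF0 := nodeEltInf_mem_Ov0 A π N ℓ hdeg hℓ hℓN j j hj hj
  have hredinf := redV_nodeEltInf_eq_zero A π N ℓ j j hj hj hrel
  have hred0 := red0_nodeEltInf_eq A π N ℓ hdeg hℓ hℓN j j hj hj hrel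
  rw [hjred, frobInvLS_jqModC, frobInvLS_jqModC] at hred0
  -- invert `g := j̄ - j̄^(ℓ²)`
  set g : LaurentSeries k := jqModC k - jqModC k ^ (ℓ * ℓ) with hg
  have hℓ2 : 2 ≤ ℓ * ℓ := by
    have := (Fact.out : ℓ.Prime).two_le
    nlinarith
  have hg0 : g ≠ 0 := jqModC_sub_pow_ne_zero k hℓ2
  have hgmem : g⁻¹ ∈ modularFunctionFieldFullC k N :=
    inv_mem (sub_mem (jqModC_mem_full k N) (pow_mem (jqModC_mem_full k N) _))
  obtain ⟨e, he⟩ := redV_surjective_Fk A π N ℓ hπ hℓN hgmem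
  have heinf := beta_mem_Ov A π N ℓ (e : FL L N) e.2
  have he0 := (beta_mem_Ov0_iff A π N ℓ hdeg hℓ hℓN (e : FL L N)).mpr e.2
  refine ⟨F * heckeBetaBar L N ℓ (e : FL L N), mul_mem hFinf heinf, mul_mem hF0 he0, ?_, ?_⟩
  · have h1 : (⟨F * heckeBetaBar L N ℓ (e : FL L N), mul_mem hFinf heinf⟩ :
        Ov A π (FBar L (N * ℓ))) = ⟨F, hFinf⟩ * ⟨heckeBetaBar L N ℓ (e : FL L N), heinf⟩ := rfl
    rw [h1, map_mul, hredinf, zero_mul]
  · have h1 : (⟨F * heckeBetaBar L N ℓ (e : FL L N), mul_mem hF0 he0⟩ :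
        Ov0 A π N ℓ hdeg hℓ hℓN) = ⟨F, hF0⟩ * ⟨heckeBetaBar L N ℓ (e : FL L N), he0⟩ := rfl
    rw [h1, map_mul, hred0, red0_beta A π N ℓ hdeg hℓ hℓN (e : FL L N) e.2]
    have h2 : redV A π (FBar L N) ⟨(e : FL L N), e.2⟩ = g⁻¹ := he
    rw [h2, mul_inv_cancel₀ hg0]

/-- the complementary separating element: reductions `(1, 0)` -/
theorem exists_separating' (hπ : Function.Surjective π) :
    ∃ (s : FL L (N * ℓ)) (hs : s ∈ Ov A π (FBar L (N * ℓ)))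
      (hs0 : s ∈ Ov0 A π N ℓ hdeg hℓ hℓN),
      redV A π (FBar L (N * ℓ)) ⟨s, hs⟩ = 1 ∧ red0 A π N ℓ hdeg hℓ hℓN ⟨s, hs0⟩ = 0 := by
  obtain ⟨s, hs, hs0, h1, h2⟩ := exists_separating A π N ℓ hdeg hℓ hℓN hπ
  refine ⟨1 - s, sub_mem (one_mem _) hs, sub_mem (one_mem _) hs0, ?_, ?_⟩
  · have h3 : (⟨1 - s, sub_mem (one_mem _) hs⟩ : Ov A π (FBar L (N * ℓ))) = 1 - ⟨s, hs⟩ := rfl
    rw [h3, map_sub, map_one, h1, sub_zero]
  · have h3 : (⟨1 - s, sub_mem (one_mem _) hs0⟩ : Ov0 A π N ℓ hdeg hℓ hℓN) = 1 - ⟨s, hs0⟩ := rfl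
    rw [h3, map_sub, map_one, h2, sub_self]

/-- the two Gauss rings of `F_{Nℓ}` are different -/
theorem Ov_ne_Ov0 (hπ : Function.Surjective π) :
    Ov A π (FBar L (N * ℓ)) ≠ Ov0 A π N ℓ hdeg hℓ hℓN := by
  intro heq
  obtain ⟨s, hs, hs0, h1, h2⟩ := exists_separating A π N ℓ hdeg hℓ hℓN hπ
  -- `s` is a unit of `Ov0` but not of `Ov_∞`
  have hs0ne : red0 A π N ℓ hdeg hℓ hℓN ⟨s, hs0⟩ ≠ 0 := by
    rw [h2]
    exact one_ne_zero
  have hinv0 := inv_mem_Ov0 A π N ℓ hdeg hℓ hℓN hs0 hs0ne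
  have hinv : s⁻¹ ∈ Ov A π (FBar L (N * ℓ)) := by
    rw [heq]
    exact hinv0
  have hs_ne : s ≠ 0 := by
    rintro rfl
    apply hs0ne
    have : (⟨(0 : FL L (N * ℓ)), hs0⟩ : Ov0 A π N ℓ hdeg hℓ hℓN) = 0 := rfl
    rw [this, map_zero]
  have hmul : (⟨s, hs⟩ : Ov A π (FBar L (N * ℓ))) * ⟨s⁻¹, hinv⟩ = 1 :=
    Subtype.ext (mul_inv_cancel₀ hs_ne)
  have := congrArg (redV A π (FBar L (N * ℓ))) hmul
  rw [map_mul, h1, zero_mul, map_one] at this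
  exact zero_ne_one this

end Main

end Fermat.Agent.S34x.TwoVal
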