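/-
helper10 (P-S34, WP2(c), abstract part): the fundamental equality `∑ eᵢ fᵢ = n` for TWO rank-one
valuation rings `V`, `W` of a finite extension `F / E` lying over the same valuation ring `O` of
`E`, in a form which needs no residue-field algebra structures: everything is expressed by
membership in maximal ideals (`valuation < 1`).

Hypotheses: `ϖ ∈ E` nonzero non-unit of `O` with `∀ a, ∃ n, ϖ ^ n * a ∈ O` (rank one), a separating
element `s` with `s / ϖ ∈ V`, `(1 - s) / ϖ ∈ W`, residually independent families `x` in `V`, `y` in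
`W` with `[F : E] ≤ |x| + |y|`.  Conclusions: strong approximation, an `E`-basis of `F` adapted to
both valuations, the residues of `x` SPAN the residue field of `V` over that of `O` (`f` exact) and
the value group of `V` is that of `O` (`e = 1`).
-/
import Mathlib

set_option autoImplicit false

namespace Fermat.Agent.S34x.TwoVal.FundEq

variable {E F : Type*} [Field E] [Field F] [Algebra E F]

section Basic

variable (O : ValuationSubring E) (V : ValuationSubring F)

/-- `V` lies over `O`. -/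
def LiesOver : Prop := ∀ e : E, algebraMap E F e ∈ V ↔ e ∈ O

variable {O V}

theorem LiesOver.isEquiv (h : LiesOver O V) :
    (V.valuation.comap (algebraMap E F)).IsEquiv O.valuation := by
  rw [Valuation.isEquiv_iff_val_le_one]
  intro e
  rw [Valuation.comap_apply, ValuationSubring.valuation_le_one_iff,
    ValuationSubring.valuation_le_one_iff]
  exact h e

theorem LiesOver.le_iff (h : LiesOver O V) (a b : E) :
    V.valuation (algebraMap E F a) ≤ V.valuation (algebraMap E F b) ↔
      O.valuation a ≤ O.valuation b := h.isEquiv a b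

theorem LiesOver.lt_iff (h : LiesOver O V) (a b : E) :
    V.valuation (algebraMap E F a) < V.valuation (algebraMap E F b) ↔
      O.valuation a < O.valuation b :=
  Valuation.isEquiv_iff_val_lt_val.mp h.isEquiv

theorem LiesOver.le_one_iff (h : LiesOver O V) (a : E) :
    V.valuation (algebraMap E F a) ≤ 1 ↔ O.valuation a ≤ 1 := by
  have := h.le_iff a 1
  rwa [map_one, map_one, map_one] at this

theorem LiesOver.lt_one_iff (h : LiesOver O V) (a : E) :
    V.valuation (algebraMap E F a) < 1 ↔ O.valuation a < 1 := by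
  have := h.lt_iff a 1
  rwa [map_one, map_one, map_one] at this

theorem LiesOver.one_lt_iff (h : LiesOver O V) (a : E) :
    1 < V.valuation (algebraMap E F a) ↔ 1 < O.valuation a := by
  have := h.lt_iff 1 a
  rwa [map_one, map_one, map_one] at this

theorem LiesOver.eq_one_iff (h : LiesOver O V) (a : E) :
    V.valuation (algebraMap E F a) = 1 ↔ O.valuation a = 1 := by
  constructor
  · intro h1
    exact le_antisymm ((h.le_one_iff a).mp h1.le) (not_lt.mp fun h2 =>
      absurd ((h.lt_one_iff a).mpr h2) (not_lt.mpr h1.ge))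
  · intro h1
    exact le_antisymm ((h.le_one_iff a).mpr h1.le) (not_lt.mp fun h2 =>
      absurd ((h.lt_one_iff a).mp h2) (not_lt.mpr h1.ge))

/-- an algebraic element becomes integral after multiplication by a nonzero element of `O` -/
theorem LiesOver.exists_mul_mem (h : LiesOver O V) [Algebra.IsAlgebraic E F] (g : F) :
    ∃ a : E, a ≠ 0 ∧ a ∈ O ∧ algebraMap E F a * g ∈ V := by
  by_cases hg : g ∈ V
  · exact ⟨1, one_ne_zero, one_mem _, by rwa [map_one, one_mul]⟩
  have hg1 : 1 < V.valuation g := by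
    rw [← not_le, ValuationSubring.valuation_le_one_iff]
    exact hg
  have hg0 : g ≠ 0 := by
    rintro rfl
    exact hg (zero_mem _)
  have hvg0 : V.valuation g ≠ 0 := (Valuation.ne_zero_iff _).mpr hg0
  -- the minimal polynomial
  have halg : IsIntegral E g := (Algebra.IsAlgebraic.isAlgebraic g).isIntegral
  set p := minpoly E g with hp
  have hmonic : p.Monic := minpoly.monic halg
  set n := p.natDegree with hn
  have hroot : Polynomial.aeval g p = 0 := minpoly.aeval E g
  rw [Polynomial.aeval_eq_sum_range, Finset.sum_range_succ, ← hn] at hroot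
  have hlead : p.coeff n = 1 := hmonic
  rw [hlead, one_smul] at hroot
  have hgn : g ^ n = -∑ i ∈ Finset.range n, p.coeff i • g ^ i := eq_neg_of_add_eq_zero_right hroot
  -- some term dominates
  have hex : ∃ i ∈ Finset.range n, V.valuation (g ^ n) ≤ V.valuation (p.coeff i • g ^ i) := by
    by_contra hcon
    push Not at hcon
    have hlt := Valuation.map_sum_lt V.valuation (g := V.valuation (g ^ n))
      (by rw [map_pow]; exact pow_ne_zero _ hvg0) hcon
    rw [← Valuation.map_neg, ← hgn] at hlt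
    exact lt_irrefl _ hlt
  obtain ⟨i, hi, hle⟩ := hex
  rw [Finset.mem_range] at hi
  rw [Algebra.smul_def, map_mul, map_pow, map_pow] at hle
  -- `v g ^ (n - i) ≤ v (coeff i)`
  have hsplit : V.valuation g ^ n = V.valuation g ^ (n - i) * V.valuation g ^ i := by
    rw [← pow_add, Nat.sub_add_cancel hi.le]
  rw [hsplit] at hle
  have hgi0 : V.valuation g ^ i ≠ 0 := pow_ne_zero _ hvg0
  have hle' : V.valuation g ^ (n - i) ≤ V.valuation (algebraMap E F (p.coeff i)) :=
    le_of_mul_le_mul_right hle (zero_lt_iff.mpr hgi0)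
  have hge : V.valuation g ≤ V.valuation g ^ (n - i) := by
    have h1 : 1 ≤ n - i := by omega
    calc V.valuation g = V.valuation g ^ 1 := (pow_one _).symm
      _ ≤ V.valuation g ^ (n - i) := pow_le_pow_right₀ hg1.le h1
  have hc : V.valuation g ≤ V.valuation (algebraMap E F (p.coeff i)) := hge.trans hle'
  have hc0 : p.coeff i ≠ 0 := by
    intro h0
    rw [h0, map_zero, map_zero] at hc
    exact hvg0 (le_antisymm hc zero_le)
  have hcF0 : algebraMap E F (p.coeff i) ≠ 0 := by
    rwa [Ne, map_eq_zero_iff _ (algebraMap E F).injective]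
  have hc1 : 1 < V.valuation (algebraMap E F (p.coeff i)) := lt_of_lt_of_le hg1 hc
  refine ⟨(p.coeff i)⁻¹, inv_ne_zero hc0, ?_, ?_⟩
  · rw [← ValuationSubring.valuation_le_one_iff, ← h.le_one_iff, map_inv₀, map_inv₀]
    exact inv_le_one_of_one_le₀ hc1.le
  · rw [← ValuationSubring.valuation_le_one_iff, map_mul, map_inv₀, map_inv₀]
    rw [inv_mul_le_iff₀ (zero_lt_iff.mpr ((Valuation.ne_zero_iff _).mpr hcF0)), mul_one]
    exact hc

end Basic

section Arch

variable {O : ValuationSubring E} {V W : ValuationSubring F}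

/-- rank one, lifted along an algebraic extension: some power of `ϖ` kills the poles of `g` -/
theorem LiesOver.exists_pow_mul_mem (h : LiesOver O V) [Algebra.IsAlgebraic E F] {ϖ : E}
    (harch : ∀ a : E, ∃ n : ℕ, ϖ ^ n * a ∈ O) (g : F) :
    ∃ n : ℕ, algebraMap E F ϖ ^ n * g ∈ V := by
  obtain ⟨a, ha0, -, hag⟩ := h.exists_mul_mem g
  obtain ⟨n, hn⟩ := harch a⁻¹
  refine ⟨n, ?_⟩
  have h1 : algebraMap E F ϖ ^ n * g = algebraMap E F (ϖ ^ n * a⁻¹) * (algebraMap E F a * g) := by
    rw [map_mul, map_pow, map_inv₀]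
    have : algebraMap E F a ≠ 0 := by rwa [Ne, map_eq_zero_iff _ (algebraMap E F).injective]
    field_simp
  rw [h1]
  exact mul_mem ((h _).mpr hn) hag

theorem LiesOver.pow_mul_mem_of_le (h : LiesOver O V) {ϖ : E} (hϖ : O.valuation ϖ < 1) {g : F}
    {n m : ℕ} (hnm : n ≤ m) (hn : algebraMap E F ϖ ^ n * g ∈ V) :
    algebraMap E F ϖ ^ m * g ∈ V := by
  obtain ⟨d, rfl⟩ := Nat.exists_eq_add_of_le hnm
  rw [pow_add, mul_comm (algebraMap E F ϖ ^ n), mul_assoc]
  refine mul_mem (pow_mem ((h ϖ).mpr ?_) d) hn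
  exact (ValuationSubring.valuation_le_one_iff _ _).mp hϖ.le

/-- a common exponent for finitely many elements -/
theorem LiesOver.exists_pow_mul_mem_finset (h : LiesOver O V) [Algebra.IsAlgebraic E F] {ϖ : E}
    (hϖ : O.valuation ϖ < 1) (harch : ∀ a : E, ∃ n : ℕ, ϖ ^ n * a ∈ O) (gs : Finset F) :
    ∃ n : ℕ, ∀ g ∈ gs, algebraMap E F ϖ ^ n * g ∈ V := by
  classical
  induction gs using Finset.induction_on with
  | empty => exact ⟨0, fun g hg => absurd hg (Finset.notMem_empty g)⟩
  | insert g₀ gs _ ih =>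
    obtain ⟨n, hn⟩ := ih
    obtain ⟨m, hm⟩ := h.exists_pow_mul_mem harch g₀
    refine ⟨max n m, fun g hg => ?_⟩
    rcases Finset.mem_insert.mp hg with rfl | hg
    · exact h.pow_mul_mem_of_le hϖ (le_max_right n m) hm
    · exact h.pow_mul_mem_of_le hϖ (le_max_left n m) (hn g hg)

/-- **Approximation, quantitative form.**  `t ≡ 1` at `V`, `t` divisible by `ϖ ^ n` at `W`. -/
theorem exists_approx_pow (hV : LiesOver O V) (hW : LiesOver O W) {ϖ : E} (hϖ0 : ϖ ≠ 0)
    (hϖ : O.valuation ϖ < 1) {s : F} (hs₁ : s * (algebraMap E F ϖ)⁻¹ ∈ V)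
    (hs₂ : (1 - s) * (algebraMap E F ϖ)⁻¹ ∈ W) (n : ℕ) :
    ∃ t : F, V.valuation (1 - t) < 1 ∧ W.valuation t ≤ W.valuation (algebraMap E F ϖ) ^ (n + 1) := by
  set ϖF := algebraMap E F ϖ with hϖF
  have hϖF0 : ϖF ≠ 0 := by rwa [hϖF, Ne, map_eq_zero_iff _ (algebraMap E F).injective]
  have hvϖ : V.valuation ϖF < 1 := (hV.lt_one_iff ϖ).mpr hϖ
  have hwϖ : W.valuation ϖF < 1 := (hW.lt_one_iff ϖ).mpr hϖ
  have hvϖ0 : V.valuation ϖF ≠ 0 := (Valuation.ne_zero_iff _).mpr hϖF0
  have hwϖ0 : W.valuation ϖF ≠ 0 := (Valuation.ne_zero_iff _).mpr hϖF0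
  -- `v s ≤ v ϖ`, `w (1 - s) ≤ w ϖ`
  have hvs : V.valuation s ≤ V.valuation ϖF := by
    have := (ValuationSubring.valuation_le_one_iff _ _).mpr hs₁
    rwa [map_mul, map_inv₀, mul_inv_le_iff₀ (zero_lt_iff.mpr hvϖ0), one_mul] at this
  have hwu : W.valuation (1 - s) ≤ W.valuation ϖF := by
    have := (ValuationSubring.valuation_le_one_iff _ _).mpr hs₂
    rwa [map_mul, map_inv₀, mul_inv_le_iff₀ (zero_lt_iff.mpr hwϖ0), one_mul] at this
  have hvs1 : V.valuation s < 1 := lt_of_le_of_lt hvs hvϖ
  have hwu1 : W.valuation (1 - s) < 1 := lt_of_le_of_lt hwu hwϖ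
  have hvu : V.valuation (1 - s) = 1 := Valuation.map_one_sub_of_lt _ hvs1
  have hws : W.valuation s = 1 := by
    have := Valuation.map_one_sub_of_lt _ hwu1
    rwa [sub_sub_cancel] at this
  set N := n + 1 with hN
  set u := 1 - s with hu
  have hvsN : V.valuation (s ^ N) < 1 := by
    rw [map_pow]; exact pow_lt_one₀ zero_le hvs1 (by omega)
  have hwuN : W.valuation (u ^ N) ≤ W.valuation ϖF ^ N := by
    rw [map_pow]; exact pow_le_pow_left₀ zero_le hwu N
  have hwuN1 : W.valuation (u ^ N) < 1 :=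
    lt_of_le_of_lt hwuN (pow_lt_one₀ zero_le hwϖ (by omega))
  have hvden : V.valuation (u ^ N + s ^ N) = 1 := by
    have h1 : V.valuation (u ^ N) = 1 := by rw [map_pow, hvu, one_pow]
    rw [Valuation.map_add_eq_of_lt_left _ (by rw [h1]; exact hvsN), h1]
  have hwden : W.valuation (u ^ N + s ^ N) = 1 := by
    have h1 : W.valuation (s ^ N) = 1 := by rw [map_pow, hws, one_pow]
    rw [Valuation.map_add_eq_of_lt_right _ (by rw [h1]; exact hwuN1), h1]
  have hden0 : u ^ N + s ^ N ≠ 0 := by
    intro h0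
    rw [h0, map_zero] at hvden
    exact zero_ne_one hvden
  refine ⟨u ^ N / (u ^ N + s ^ N), ?_, ?_⟩
  · have h1 : 1 - u ^ N / (u ^ N + s ^ N) = s ^ N / (u ^ N + s ^ N) := by
      field_simp
      ring
    rw [h1, map_div₀, hvden, div_one]
    exact hvsN
  · rw [map_div₀, hwden, div_one]
    exact hwuN

/-- **Strong approximation**: `t ≡ 1` at `V` and `t * g` in the maximal ideal of `W` for finitely
many prescribed `g`. -/
theorem exists_approx (hV : LiesOver O V) (hW : LiesOver O W) [Algebra.IsAlgebraic E F] {ϖ : E}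
    (hϖ0 : ϖ ≠ 0) (hϖ : O.valuation ϖ < 1) (harch : ∀ a : E, ∃ n : ℕ, ϖ ^ n * a ∈ O) {s : F}
    (hs₁ : s * (algebraMap E F ϖ)⁻¹ ∈ V) (hs₂ : (1 - s) * (algebraMap E F ϖ)⁻¹ ∈ W)
    (gs : Finset F) :
    ∃ t : F, V.valuation (1 - t) < 1 ∧ ∀ g ∈ gs, W.valuation (t * g) < 1 := by
  obtain ⟨n, hn⟩ := hW.exists_pow_mul_mem_finset hϖ harch gs
  obtain ⟨t, ht1, ht2⟩ := exists_approx_pow hV hW hϖ0 hϖ hs₁ hs₂ n
  refine ⟨t, ht1, fun g hg => ?_⟩
  have hwϖ : W.valuation (algebraMap E F ϖ) < 1 := (hW.lt_one_iff ϖ).mpr hϖ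
  have h1 : W.valuation (algebraMap E F ϖ ^ n * g) ≤ 1 :=
    (ValuationSubring.valuation_le_one_iff _ _).mpr (hn g hg)
  rw [map_mul, map_pow] at h1
  calc W.valuation (t * g) = W.valuation t * W.valuation g := map_mul _ _ _
    _ ≤ W.valuation (algebraMap E F ϖ) ^ (n + 1) * W.valuation g := mul_le_mul_left ht2 _
    _ = W.valuation (algebraMap E F ϖ) * (W.valuation (algebraMap E F ϖ) ^ n * W.valuation g) := by
        rw [pow_succ, mul_comm (W.valuation (algebraMap E F ϖ) ^ n), mul_assoc]
    _ ≤ W.valuation (algebraMap E F ϖ) * 1 := mul_le_mul_right h1 _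
    _ < 1 := by rw [mul_one]; exact hwϖ

end Arch

section Indep

variable (O : ValuationSubring E) (V W : ValuationSubring F)

/-- the family `x` lies in `V` and its residues are linearly independent over the residue field
of `O` -/
def ResIndep {ι : Type*} [Fintype ι] (x : ι → F) : Prop :=
  (∀ a, x a ∈ V) ∧ ∀ c : ι → E, (∀ a, c a ∈ O) →
    V.valuation (∑ a, algebraMap E F (c a) * x a) < 1 → ∀ a, O.valuation (c a) < 1

/-- a pair of families adapted to the two valuation rings: `p` is residually independent at `V`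
and small at `W`, `q` is residually independent at `W` and small at `V` -/
structure Adapted {ι κ : Type*} [Fintype ι] [Fintype κ] (p : ι → F) (q : κ → F) : Prop where
  indep₁ : ResIndep O V p
  small₁ : ∀ a, W.valuation (p a) < 1
  indep₂ : ResIndep O W q
  small₂ : ∀ b, V.valuation (q b) < 1

variable {O V W}

theorem sum_mul_mem (hV : LiesOver O V) {ι : Type*} [Fintype ι] {x : ι → F} (hx : ∀ a, x a ∈ V)
    {c : ι → E} (hc : ∀ a, c a ∈ O) : ∑ a, algebraMap E F (c a) * x a ∈ V :=
  sum_mem fun a _ => mul_mem ((hV _).mpr (hc a)) (hx a)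

theorem valuation_sum_mul_lt (hV : LiesOver O V) {ι : Type*} [Fintype ι] {x : ι → F}
    (hx : ∀ a, V.valuation (x a) < 1) {c : ι → E} (hc : ∀ a, c a ∈ O) :
    V.valuation (∑ a, algebraMap E F (c a) * x a) < 1 := by
  refine Valuation.map_sum_lt _ one_ne_zero fun a _ => ?_
  rw [map_mul]
  have h1 : V.valuation (algebraMap E F (c a)) ≤ 1 :=
    (ValuationSubring.valuation_le_one_iff _ _).mpr ((hV _).mpr (hc a))
  calc V.valuation (algebraMap E F (c a)) * V.valuation (x a) ≤ 1 * V.valuation (x a) :=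
        mul_le_mul_left h1 _
    _ = V.valuation (x a) := one_mul _
    _ < 1 := hx a

theorem valuation_eq_one_of_sub_lt {t : F} (ht : V.valuation (1 - t) < 1) : V.valuation t = 1 := by
  have := Valuation.map_one_sub_of_lt _ ht
  rwa [sub_sub_cancel] at this

/-- multiplying a residually independent family by an element `≡ 1` -/
theorem ResIndep.mul_right (hV : LiesOver O V) {ι : Type*} [Fintype ι] {x : ι → F}
    (hx : ResIndep O V x) {t : F} (ht : V.valuation (1 - t) < 1) :
    ResIndep O V fun a => x a * t := by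
  have ht1 : V.valuation t = 1 := valuation_eq_one_of_sub_lt ht
  have htV : t ∈ V := (ValuationSubring.valuation_le_one_iff _ _).mp ht1.le
  refine ⟨fun a => mul_mem (hx.1 a) htV, fun c hc hlt => hx.2 c hc ?_⟩
  have hsum : ∑ a, algebraMap E F (c a) * x a =
      ∑ a, algebraMap E F (c a) * (x a * t) + (1 - t) * ∑ a, algebraMap E F (c a) * x a := by
    rw [Finset.mul_sum, ← Finset.sum_add_distrib]
    refine Finset.sum_congr rfl fun a _ => ?_
    ring
  rw [hsum]
  refine Valuation.map_add_lt _ hlt ?_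
  rw [map_mul]
  have h1 : V.valuation (∑ a, algebraMap E F (c a) * x a) ≤ 1 :=
    (ValuationSubring.valuation_le_one_iff _ _).mpr (sum_mul_mem hV hx.1 hc)
  calc V.valuation (1 - t) * V.valuation (∑ a, algebraMap E F (c a) * x a)
      ≤ V.valuation (1 - t) * 1 := mul_le_mul_right h1 _
    _ < 1 := by rw [mul_one]; exact ht

theorem Adapted.symm {ι κ : Type*} [Fintype ι] [Fintype κ] {p : ι → F} {q : κ → F}
    (h : Adapted O V W p q) : Adapted O W V q p :=
  ⟨h.indep₂, h.small₂, h.indep₁, h.small₁⟩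

section Adapted

variable {ι κ : Type*} [Fintype ι] [Fintype κ] {p : ι → F} {q : κ → F}

theorem Adapted.mem₁ (h : Adapted O V W p q) (a : ι) : p a ∈ V ∧ p a ∈ W :=
  ⟨h.indep₁.1 a, (ValuationSubring.valuation_le_one_iff _ _).mp (h.small₁ a).le⟩

theorem Adapted.mem₂ (h : Adapted O V W p q) (b : κ) : q b ∈ V ∧ q b ∈ W :=
  ⟨(ValuationSubring.valuation_le_one_iff _ _).mp (h.small₂ b).le, h.indep₂.1 b⟩

/-- **orthonormality**, at `V` -/
theorem Adapted.coeff_lt_of_lt (h : Adapted O V W p q) (hV : LiesOver O V) {c : ι → E}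
    {d : κ → E} (hc : ∀ a, c a ∈ O) (hd : ∀ b, d b ∈ O)
    (hlt : V.valuation (∑ a, algebraMap E F (c a) * p a + ∑ b, algebraMap E F (d b) * q b) < 1) :
    ∀ a, O.valuation (c a) < 1 := by
  refine h.indep₁.2 c hc ?_
  have h1 : ∑ a, algebraMap E F (c a) * p a =
      (∑ a, algebraMap E F (c a) * p a + ∑ b, algebraMap E F (d b) * q b) -
        ∑ b, algebraMap E F (d b) * q b := by ring
  rw [h1]
  exact Valuation.map_sub_lt _ hlt (valuation_sum_mul_lt hV h.small₂ hd)

theorem Adapted.sum_mem (h : Adapted O V W p q) (hV : LiesOver O V) {c : ι → E}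
    {d : κ → E} (hc : ∀ a, c a ∈ O) (hd : ∀ b, d b ∈ O) :
    ∑ a, algebraMap E F (c a) * p a + ∑ b, algebraMap E F (d b) * q b ∈ V :=
  add_mem (sum_mul_mem hV (fun a => (h.mem₁ a).1) hc) (sum_mul_mem hV (fun b => (h.mem₂ b).1) hd)

end Adapted

/-- a coefficient of maximal valuation -/
theorem exists_max_valuation (O : ValuationSubring E) {ι : Type*} [Fintype ι] (g : ι → E)
    (hg : ∃ i, g i ≠ 0) :
    ∃ i₁, g i₁ ≠ 0 ∧ ∀ i, O.valuation (g i) ≤ O.valuation (g i₁) := by
  obtain ⟨i₀, hi₀⟩ := hg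
  obtain ⟨i₁, -, hmax⟩ := Finset.exists_max_image Finset.univ (fun i => O.valuation (g i))
    ⟨i₀, Finset.mem_univ _⟩
  refine ⟨i₁, ?_, fun i => hmax i (Finset.mem_univ _)⟩
  intro h0
  have := hmax i₀ (Finset.mem_univ _)
  rw [h0, map_zero] at this
  exact hi₀ ((Valuation.zero_iff _).mp (le_antisymm this zero_le))

section Basis

variable {ι κ : Type*} [Fintype ι] [Fintype κ] {p : ι → F} {q : κ → F}

/-- an adapted pair of families is linearly independent over `E` -/
theorem Adapted.eq_zero_of_sum_eq_zero (h : Adapted O V W p q) (hV : LiesOver O V)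
    (hW : LiesOver O W) {c : ι → E} {d : κ → E}
    (hsum : ∑ a, algebraMap E F (c a) * p a + ∑ b, algebraMap E F (d b) * q b = 0) :
    (∀ a, c a = 0) ∧ ∀ b, d b = 0 := by
  by_contra hcon
  have hex : ∃ i : ι ⊕ κ, Sum.elim c d i ≠ 0 := by
    by_contra hall
    push Not at hall
    exact hcon ⟨fun a => hall (Sum.inl a), fun b => hall (Sum.inr b)⟩
  obtain ⟨i₁, hi₁, hmax⟩ := exists_max_valuation O (Sum.elim c d) hex
  set e := Sum.elim c d i₁ with he
  have heF : algebraMap E F e ≠ 0 := by rwa [Ne, map_eq_zero_iff _ (algebraMap E F).injective]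
  have hve : O.valuation e ≠ 0 := (Valuation.ne_zero_iff _).mpr hi₁
  have hmem : ∀ i, Sum.elim c d i / e ∈ O := by
    intro i
    rw [← ValuationSubring.valuation_le_one_iff, map_div₀]
    exact div_le_one_of_le₀ (hmax i) zero_le
  have hc : ∀ a, c a / e ∈ O := fun a => hmem (Sum.inl a)
  have hd : ∀ b, d b / e ∈ O := fun b => hmem (Sum.inr b)
  have hsum' : ∑ a, algebraMap E F (c a / e) * p a + ∑ b, algebraMap E F (d b / e) * q b = 0 := by
    have : ∑ a, algebraMap E F (c a / e) * p a + ∑ b, algebraMap E F (d b / e) * q b =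
        (algebraMap E F e)⁻¹ *
          (∑ a, algebraMap E F (c a) * p a + ∑ b, algebraMap E F (d b) * q b) := by
      rw [mul_add, Finset.mul_sum, Finset.mul_sum]
      congr 1 <;> refine Finset.sum_congr rfl fun a _ => ?_ <;> rw [map_div₀] <;> ring
    rw [this, hsum, mul_zero]
  have h0V : V.valuation (∑ a, algebraMap E F (c a / e) * p a +
      ∑ b, algebraMap E F (d b / e) * q b) < 1 := by
    rw [hsum', map_zero]; exact zero_lt_one
  have h0W : W.valuation (∑ b, algebraMap E F (d b / e) * q b +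
      ∑ a, algebraMap E F (c a / e) * p a) < 1 := by
    rw [add_comm, hsum', map_zero]; exact zero_lt_one
  have h1 := h.coeff_lt_of_lt hV hc hd h0V
  have h2 := h.symm.coeff_lt_of_lt hW hd hc h0W
  have hone : O.valuation (Sum.elim c d i₁ / e) = 1 := by
    rw [← he, div_self hi₁, map_one]
  rcases i₁ with a | b
  · exact absurd (h1 a) (by rw [Sum.elim_inl] at hone; rw [hone]; exact lt_irrefl _)
  · exact absurd (h2 b) (by rw [Sum.elim_inr] at hone; rw [hone]; exact lt_irrefl _)

theorem Adapted.linearIndependent (h : Adapted O V W p q) (hV : LiesOver O V)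
    (hW : LiesOver O W) : LinearIndependent E (Sum.elim p q) := by
  rw [Fintype.linearIndependent_iff]
  intro g hg
  rw [Fintype.sum_sum_type] at hg
  simp only [Sum.elim_inl, Sum.elim_inr, Algebra.smul_def] at hg
  obtain ⟨h1, h2⟩ := h.eq_zero_of_sum_eq_zero hV hW (c := fun a => g (Sum.inl a))
    (d := fun b => g (Sum.inr b)) hg
  rintro (a | b)
  · exact h1 a
  · exact h2 b

/-- an adapted pair of families of the right size spans `F` over `E` -/
theorem Adapted.exists_repr (h : Adapted O V W p q) (hV : LiesOver O V) (hW : LiesOver O W)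
    [FiniteDimensional E F] (hcard : Module.finrank E F ≤ Fintype.card ι + Fintype.card κ)
    (z : F) :
    ∃ (c : ι → E) (d : κ → E),
      z = ∑ a, algebraMap E F (c a) * p a + ∑ b, algebraMap E F (d b) * q b := by
  have hli := h.linearIndependent hV hW
  have hle := hli.fintype_card_le_finrank
  rw [Fintype.card_sum] at hle
  have hspan := hli.span_eq_top_of_card_eq_finrank'
    (by rw [Fintype.card_sum]; exact le_antisymm hle hcard)
  have hz : z ∈ Submodule.span E (Set.range (Sum.elim p q)) := by rw [hspan]; trivial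
  obtain ⟨g, hg⟩ := (Submodule.mem_span_range_iff_exists_fun E).mp hz
  refine ⟨fun a => g (Sum.inl a), fun b => g (Sum.inr b), ?_⟩
  rw [← hg, Fintype.sum_sum_type]
  simp only [Sum.elim_inl, Sum.elim_inr, Algebra.smul_def]

end Basis

section Main

variable {ι κ : Type*} [Fintype ι] [Fintype κ] {p : ι → F} {q : κ → F}

/-- normalised representation of a nonzero element in an adapted basis: after division by a
suitable `e ∈ Eˣ` all coordinates lie in `O` and the element is a unit at `V` or at `W` -/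
theorem Adapted.exists_normalised (h : Adapted O V W p q) (hV : LiesOver O V) (hW : LiesOver O W)
    [FiniteDimensional E F] (hcard : Module.finrank E F ≤ Fintype.card ι + Fintype.card κ)
    {z : F} (hz : z ≠ 0) :
    ∃ (e : E) (c : ι → E) (d : κ → E), e ≠ 0 ∧ (∀ a, c a ∈ O) ∧ (∀ b, d b ∈ O) ∧
      z = algebraMap E F e *
        (∑ a, algebraMap E F (c a) * p a + ∑ b, algebraMap E F (d b) * q b) ∧
      V.valuation z ≤ V.valuation (algebraMap E F e) ∧
      W.valuation z ≤ W.valuation (algebraMap E F e) ∧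
      (V.valuation z = V.valuation (algebraMap E F e) ∨
        W.valuation z = W.valuation (algebraMap E F e)) := by
  obtain ⟨c, d, hcd⟩ := h.exists_repr hV hW hcard z
  have hex : ∃ i : ι ⊕ κ, Sum.elim c d i ≠ 0 := by
    by_contra hall
    push Not at hall
    apply hz
    rw [hcd]
    have h1 : ∀ a, c a = 0 := fun a => hall (Sum.inl a)
    have h2 : ∀ b, d b = 0 := fun b => hall (Sum.inr b)
    simp [h1, h2]
  obtain ⟨i₁, hi₁, hmax⟩ := exists_max_valuation O (Sum.elim c d) hex
  set e := Sum.elim c d i₁ with he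
  have heF : algebraMap E F e ≠ 0 := by rwa [Ne, map_eq_zero_iff _ (algebraMap E F).injective]
  have hmem : ∀ i, Sum.elim c d i / e ∈ O := by
    intro i
    rw [← ValuationSubring.valuation_le_one_iff, map_div₀]
    exact div_le_one_of_le₀ (hmax i) zero_le
  have hc : ∀ a, c a / e ∈ O := fun a => hmem (Sum.inl a)
  have hd : ∀ b, d b / e ∈ O := fun b => hmem (Sum.inr b)
  set z' := ∑ a, algebraMap E F (c a / e) * p a + ∑ b, algebraMap E F (d b / e) * q b with hz'
  have hzz' : z = algebraMap E F e * z' := by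
    rw [hcd, hz', mul_add, Finset.mul_sum, Finset.mul_sum]
    congr 1 <;> refine Finset.sum_congr rfl fun a _ => ?_ <;> rw [map_div₀] <;> field_simp
  have hz'V : z' ∈ V := h.sum_mem hV hc hd
  have hz'W : z' ∈ W := by
    have := h.symm.sum_mem hW hd hc
    rwa [add_comm] at this
  have hvz : V.valuation z = V.valuation (algebraMap E F e) * V.valuation z' := by
    rw [hzz', map_mul]
  have hwz : W.valuation z = W.valuation (algebraMap E F e) * W.valuation z' := by
    rw [hzz', map_mul]
  have hone : O.valuation (Sum.elim c d i₁ / e) = 1 := by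
    rw [← he, div_self hi₁, map_one]
  refine ⟨e, fun a => c a / e, fun b => d b / e, hi₁, hc, hd, hzz', ?_, ?_, ?_⟩
  · rw [hvz]
    exact mul_le_of_le_one_right zero_le ((ValuationSubring.valuation_le_one_iff _ _).mpr hz'V)
  · rw [hwz]
    exact mul_le_of_le_one_right zero_le ((ValuationSubring.valuation_le_one_iff _ _).mpr hz'W)
  · -- not both small
    by_contra hcon
    push Not at hcon
    obtain ⟨hc1, hc2⟩ := hcon
    have hlt1 : V.valuation z' < 1 := by
      rcases lt_or_eq_of_le ((ValuationSubring.valuation_le_one_iff _ _).mpr hz'V) with h1 | h1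
      · exact h1
      · exact absurd (by rw [hvz, h1, mul_one]) hc1
    have hlt2 : W.valuation z' < 1 := by
      rcases lt_or_eq_of_le ((ValuationSubring.valuation_le_one_iff _ _).mpr hz'W) with h1 | h1
      · exact h1
      · exact absurd (by rw [hwz, h1, mul_one]) hc2
    have h1 := h.coeff_lt_of_lt hV hc hd hlt1
    have h2 := h.symm.coeff_lt_of_lt hW hd hc (by rwa [add_comm])
    rcases i₁ with a | b
    · exact absurd (h1 a) (by rw [Sum.elim_inl] at hone; rw [hone]; exact lt_irrefl _)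
    · exact absurd (h2 b) (by rw [Sum.elim_inr] at hone; rw [hone]; exact lt_irrefl _)

/-- **`e = 1`**: the value group of `V` is that of `O`. -/
theorem Adapted.exists_valuation_eq (h : Adapted O V W p q) (hV : LiesOver O V)
    (hW : LiesOver O W) [FiniteDimensional E F]
    (hcard : Module.finrank E F ≤ Fintype.card ι + Fintype.card κ)
    (happrox : ∀ g : F, ∃ t : F, V.valuation (1 - t) < 1 ∧ W.valuation (t * g) < 1)
    {z : F} (hz : z ≠ 0) :
    ∃ e : E, e ≠ 0 ∧ V.valuation z = V.valuation (algebraMap E F e) := by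
  -- a lower bound `e₀` for `v z`
  obtain ⟨e₀, he₀, -, he₀z⟩ := hV.exists_mul_mem z⁻¹
  have he₀F : algebraMap E F e₀ ≠ 0 := by rwa [Ne, map_eq_zero_iff _ (algebraMap E F).injective]
  have hvz0 : V.valuation z ≠ 0 := (Valuation.ne_zero_iff _).mpr hz
  have hlow : V.valuation (algebraMap E F e₀) ≤ V.valuation z := by
    have := (ValuationSubring.valuation_le_one_iff _ _).mpr he₀z
    rwa [map_mul, map_inv₀, mul_inv_le_iff₀ (zero_lt_iff.mpr hvz0), one_mul] at this
  obtain ⟨t, ht1, ht2⟩ := happrox (z * (algebraMap E F e₀)⁻¹)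
  have hvt : V.valuation t = 1 := valuation_eq_one_of_sub_lt ht1
  have ht0 : t ≠ 0 := by
    rintro rfl
    rw [map_zero] at hvt
    exact zero_ne_one hvt
  have hz'0 : t * z ≠ 0 := mul_ne_zero ht0 hz
  have hvz' : V.valuation (t * z) = V.valuation z := by rw [map_mul, hvt, one_mul]
  have hwz' : W.valuation (t * z) < W.valuation (algebraMap E F e₀) := by
    have hw0 : W.valuation (algebraMap E F e₀) ≠ 0 := (Valuation.ne_zero_iff _).mpr he₀F
    have := ht2
    rwa [← mul_assoc, map_mul, map_inv₀, mul_inv_lt_iff₀ (zero_lt_iff.mpr hw0), one_mul] at this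
  obtain ⟨e, c, d, he, -, -, -, hle1, hle2, hor⟩ := h.exists_normalised hV hW hcard hz'0
  rcases hor with h1 | h2
  · exact ⟨e, he, by rw [← hvz', h1]⟩
  · exfalso
    -- `w e < w e₀` hence `v e < v e₀ ≤ v z = v (t z) ≤ v e`
    rw [h2] at hwz'
    have h3 : O.valuation e < O.valuation e₀ := (hW.lt_iff e e₀).mp hwz'
    have h4 : V.valuation (algebraMap E F e) < V.valuation (algebraMap E F e₀) :=
      (hV.lt_iff e e₀).mpr h3
    have h5 : V.valuation (algebraMap E F e₀) ≤ V.valuation (algebraMap E F e) := by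
      calc V.valuation (algebraMap E F e₀) ≤ V.valuation z := hlow
        _ = V.valuation (t * z) := hvz'.symm
        _ ≤ V.valuation (algebraMap E F e) := hle1
    exact absurd h4 (not_lt.mpr h5)

/-- **`f` exact**: the residues of the family `p` span the residue field of `V` over that of `O`. -/
theorem Adapted.residue_spanning (h : Adapted O V W p q) (hV : LiesOver O V)
    (hW : LiesOver O W) [FiniteDimensional E F]
    (hcard : Module.finrank E F ≤ Fintype.card ι + Fintype.card κ)
    (happrox : ∀ g : F, ∃ t : F, V.valuation (1 - t) < 1 ∧ W.valuation (t * g) < 1)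
    {z : F} (hz : z ∈ V) :
    ∃ c : ι → E, (∀ a, c a ∈ O) ∧
      V.valuation (z - ∑ a, algebraMap E F (c a) * p a) < 1 := by
  rcases lt_or_eq_of_le ((ValuationSubring.valuation_le_one_iff _ _).mpr hz) with hz1 | hz1
  · exact ⟨fun _ => 0, fun _ => zero_mem _, by simpa using hz1⟩
  have hz0 : z ≠ 0 := by
    rintro rfl
    rw [map_zero] at hz1
    exact zero_ne_one hz1
  obtain ⟨t, ht1, ht2⟩ := happrox z
  have hvt : V.valuation t = 1 := valuation_eq_one_of_sub_lt ht1
  have ht0 : t ≠ 0 := by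
    rintro rfl
    rw [map_zero] at hvt
    exact zero_ne_one hvt
  have hz'0 : t * z ≠ 0 := mul_ne_zero ht0 hz0
  have hvz' : V.valuation (t * z) = 1 := by rw [map_mul, hvt, one_mul, hz1]
  obtain ⟨e, c, d, he, hc, hd, hrepr, hle1, hle2, hor⟩ := h.exists_normalised hV hW hcard hz'0
  have hve : V.valuation (algebraMap E F e) = 1 := by
    rcases hor with h1 | h2
    · rw [← h1, hvz']
    · exfalso
      rw [hvz'] at hle1
      rw [h2] at ht2
      have h3 : O.valuation e < 1 := (hW.lt_one_iff e).mp ht2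
      exact absurd ((hV.lt_one_iff e).mpr h3) (not_lt.mpr hle1)
  have heO : O.valuation e = 1 := (hV.eq_one_iff e).mp hve
  have heO' : e ∈ O := (ValuationSubring.valuation_le_one_iff _ _).mp heO.le
  refine ⟨fun a => e * c a, fun a => mul_mem heO' (hc a), ?_⟩
  have hsplit : z - ∑ a, algebraMap E F (e * c a) * p a =
      (1 - t) * z + algebraMap E F e * ∑ b, algebraMap E F (d b) * q b := by
    have h1 : ∑ a, algebraMap E F (e * c a) * p a =
        algebraMap E F e * ∑ a, algebraMap E F (c a) * p a := by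
      rw [Finset.mul_sum]
      refine Finset.sum_congr rfl fun a _ => ?_
      rw [map_mul, mul_assoc]
    rw [h1]
    have h2 : z = (1 - t) * z + t * z := by ring
    conv_lhs => rw [h2, hrepr]
    ring
  rw [hsplit]
  refine Valuation.map_add_lt _ ?_ ?_
  · rw [map_mul, hz1, mul_one]; exact ht1
  · rw [map_mul, hve, one_mul]
    exact valuation_sum_mul_lt hV h.small₂ hd

end Main

end Indep

section Final

variable (O : ValuationSubring E) (V W : ValuationSubring F)

/-- the standing hypotheses: `V`, `W` lie over `O`; `O` has rank one relative to the nonzero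
non-unit `ϖ`; `s` is `ϖ`-small at `V` and `1 - s` is `ϖ`-small at `W`. -/
structure Hyp (ϖ : E) (s : F) : Prop where
  liesOver₁ : LiesOver O V
  liesOver₂ : LiesOver O W
  ϖ_ne : ϖ ≠ 0
  ϖ_lt : O.valuation ϖ < 1
  arch : ∀ a : E, ∃ n : ℕ, ϖ ^ n * a ∈ O
  s_mem₁ : s * (algebraMap E F ϖ)⁻¹ ∈ V
  s_mem₂ : (1 - s) * (algebraMap E F ϖ)⁻¹ ∈ W

variable {O V W} {ϖ : E} {s : F}

theorem Hyp.symm (H : Hyp O V W ϖ s) : Hyp O W V ϖ (1 - s) :=
  ⟨H.liesOver₂, H.liesOver₁, H.ϖ_ne, H.ϖ_lt, H.arch, H.s_mem₂, by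
    rw [sub_sub_cancel]; exact H.s_mem₁⟩

/-- **strong approximation** -/
theorem Hyp.exists_approx (H : Hyp O V W ϖ s) [Algebra.IsAlgebraic E F] (gs : Finset F) :
    ∃ t : F, V.valuation (1 - t) < 1 ∧ ∀ g ∈ gs, W.valuation (t * g) < 1 :=
  FundEq.exists_approx H.liesOver₁ H.liesOver₂ H.ϖ_ne H.ϖ_lt H.arch H.s_mem₁ H.s_mem₂ gs

theorem Hyp.exists_approx_one (H : Hyp O V W ϖ s) [Algebra.IsAlgebraic E F] (g : F) :
    ∃ t : F, V.valuation (1 - t) < 1 ∧ W.valuation (t * g) < 1 := by
  classical
  obtain ⟨t, h1, h2⟩ := H.exists_approx {g}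
  exact ⟨t, h1, h2 g (Finset.mem_singleton_self g)⟩

/-- the two valuation rings are different -/
theorem Hyp.ne (H : Hyp O V W ϖ s) : V ≠ W := by
  intro hVW
  have hs₂ := H.s_mem₂
  rw [← hVW] at hs₂
  have h1 : (algebraMap E F ϖ)⁻¹ ∈ V := by
    have := add_mem H.s_mem₁ hs₂
    rwa [← add_mul, add_sub_cancel, one_mul] at this
  have h2 : V.valuation (algebraMap E F ϖ) < 1 := (H.liesOver₁.lt_one_iff ϖ).mpr H.ϖ_lt
  have h3 := (ValuationSubring.valuation_le_one_iff _ _).mpr h1
  rw [map_inv₀] at h3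
  have h4 : V.valuation (algebraMap E F ϖ) ≠ 0 := by
    rw [Valuation.ne_zero_iff, Ne, map_eq_zero_iff _ (algebraMap E F).injective]
    exact H.ϖ_ne
  rw [inv_le_one₀ (zero_lt_iff.mpr h4)] at h3
  exact absurd h2 (not_lt.mpr h3)

variable {ι κ : Type*} [Fintype ι] [Fintype κ] {x : ι → F} {y : κ → F}

/-- residually independent families can be made adapted by multiplication with suitable
approximants of `1` -/
theorem Hyp.exists_adapted (H : Hyp O V W ϖ s) [Algebra.IsAlgebraic E F]
    (hx : ResIndep O V x) (hy : ResIndep O W y) :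
    ∃ t₁ t₂ : F, V.valuation (1 - t₁) < 1 ∧ W.valuation (1 - t₂) < 1 ∧
      Adapted O V W (fun a => x a * t₁) (fun b => y b * t₂) := by
  classical
  obtain ⟨t₁, h1, h1'⟩ := H.exists_approx (Finset.univ.image x)
  obtain ⟨t₂, h2, h2'⟩ := H.symm.exists_approx (Finset.univ.image y)
  refine ⟨t₁, t₂, h1, h2, hx.mul_right H.liesOver₁ h1, fun a => ?_, hy.mul_right H.liesOver₂ h2,
    fun b => ?_⟩
  · rw [mul_comm]
    exact h1' _ (Finset.mem_image_of_mem x (Finset.mem_univ a))
  · rw [mul_comm]
    exact h2' _ (Finset.mem_image_of_mem y (Finset.mem_univ b))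

/-- **`e = 1` at `V`** -/
theorem Hyp.exists_valuation_eq (H : Hyp O V W ϖ s) [FiniteDimensional E F]
    (hx : ResIndep O V x) (hy : ResIndep O W y)
    (hcard : Module.finrank E F ≤ Fintype.card ι + Fintype.card κ) {z : F} (hz : z ≠ 0) :
    ∃ e : E, e ≠ 0 ∧ V.valuation z = V.valuation (algebraMap E F e) := by
  obtain ⟨t₁, t₂, -, -, had⟩ := H.exists_adapted hx hy
  exact had.exists_valuation_eq H.liesOver₁ H.liesOver₂ hcard H.exists_approx_one hz

/-- **`e = 1` at `W`** -/
theorem Hyp.exists_valuation_eq' (H : Hyp O V W ϖ s) [FiniteDimensional E F]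
    (hx : ResIndep O V x) (hy : ResIndep O W y)
    (hcard : Module.finrank E F ≤ Fintype.card ι + Fintype.card κ) {z : F} (hz : z ≠ 0) :
    ∃ e : E, e ≠ 0 ∧ W.valuation z = W.valuation (algebraMap E F e) :=
  H.symm.exists_valuation_eq hy hx (by rw [add_comm]; exact hcard) hz

/-- **`f` exact at `V`**: the residues of `x` span the residue field of `V`. -/
theorem Hyp.residue_spanning (H : Hyp O V W ϖ s) [FiniteDimensional E F]
    (hx : ResIndep O V x) (hy : ResIndep O W y)
    (hcard : Module.finrank E F ≤ Fintype.card ι + Fintype.card κ) {z : F} (hz : z ∈ V) :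
    ∃ c : ι → E, (∀ a, c a ∈ O) ∧
      V.valuation (z - ∑ a, algebraMap E F (c a) * x a) < 1 := by
  obtain ⟨t₁, t₂, ht₁, -, had⟩ := H.exists_adapted hx hy
  obtain ⟨c, hc, hlt⟩ := had.residue_spanning H.liesOver₁ H.liesOver₂ hcard H.exists_approx_one hz
  refine ⟨c, hc, ?_⟩
  have hsplit : z - ∑ a, algebraMap E F (c a) * x a =
      (z - ∑ a, algebraMap E F (c a) * (x a * t₁)) -
        (1 - t₁) * ∑ a, algebraMap E F (c a) * x a := by
    have : ∑ a, algebraMap E F (c a) * (x a * t₁) = t₁ * ∑ a, algebraMap E F (c a) * x a := by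
      rw [Finset.mul_sum]
      refine Finset.sum_congr rfl fun a _ => ?_
      ring
    rw [this]
    ring
  rw [hsplit]
  refine Valuation.map_sub_lt _ hlt ?_
  rw [map_mul]
  have h1 : V.valuation (∑ a, algebraMap E F (c a) * x a) ≤ 1 :=
    (ValuationSubring.valuation_le_one_iff _ _).mpr (sum_mul_mem H.liesOver₁ hx.1 hc)
  calc V.valuation (1 - t₁) * V.valuation (∑ a, algebraMap E F (c a) * x a)
      ≤ V.valuation (1 - t₁) * 1 := mul_le_mul_right h1 _
    _ < 1 := by rw [mul_one]; exact ht₁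

/-- **`f` exact at `W`** -/
theorem Hyp.residue_spanning' (H : Hyp O V W ϖ s) [FiniteDimensional E F]
    (hx : ResIndep O V x) (hy : ResIndep O W y)
    (hcard : Module.finrank E F ≤ Fintype.card ι + Fintype.card κ) {z : F} (hz : z ∈ W) :
    ∃ d : κ → E, (∀ b, d b ∈ O) ∧
      W.valuation (z - ∑ b, algebraMap E F (d b) * y b) < 1 :=
  H.symm.residue_spanning hy hx (by rw [add_comm]; exact hcard) hz

end Final

end Fermat.Agent.S34x.TwoVal.FundEq
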