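import Mathlib
import Fermat.Agent.S28.Laurent

/-!
# P-S34: linear independence of `1, J, …, J^(q-1)` over the range of `qExpand q`

`k` a field, `J` a Laurent series of order `-1`.  If `∑_{b < q} qExpand q (y b) * J ^ b = 0` then all
`y b` vanish: the nonzero terms have orders `q * ord (y b) - b`, which are pairwise distinct modulo
`q`, so the term of minimal order cannot be cancelled.
-/

set_option autoImplicit false

namespace Fermat.Agent.S34x.TwoVal.OrderIndep

open HahnSeries ModularCurve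

variable {k : Type*} [Field k]

theorem ne_zero_of_order_eq_neg_one {J : LaurentSeries k} (hJ : J.order = -1) : J ≠ 0 := by
  rintro rfl
  rw [HahnSeries.order_zero] at hJ
  norm_num at hJ

/-- the order of a nonzero term `qExpand q y * J ^ b`. -/
theorem order_term (q : ℕ) [NeZero q] {J : LaurentSeries k} (hJ : J.order = -1)
    {y : LaurentSeries k} (hy : y ≠ 0) (b : ℕ) :
    (qExpand k q y * J ^ b).order = (q : ℤ) * y.order - b := by
  have hJ0 := ne_zero_of_order_eq_neg_one hJ
  have h1 : qExpand k q y ≠ 0 := by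
    rwa [Ne, Fermat.Agent.S28.qExpand_eq_zero_iff]
  rw [HahnSeries.order_mul h1 (pow_ne_zero b hJ0), HahnSeries.order_pow,
    Fermat.Agent.S28.qExpand_order, hJ]
  simp
  ring

theorem term_ne_zero (q : ℕ) [NeZero q] {J : LaurentSeries k} (hJ : J.order = -1)
    {y : LaurentSeries k} (hy : y ≠ 0) (b : ℕ) : qExpand k q y * J ^ b ≠ 0 := by
  have hJ0 := ne_zero_of_order_eq_neg_one hJ
  have h1 : qExpand k q y ≠ 0 := by
    rwa [Ne, Fermat.Agent.S28.qExpand_eq_zero_iff]
  exact mul_ne_zero h1 (pow_ne_zero b hJ0)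

/-- **Independence of `1, J, …, J^(q-1)` over the range of `qExpand q`.** -/
theorem eq_zero_of_sum_qExpand_mul_pow (q : ℕ) [NeZero q] (J : LaurentSeries k)
    (hJ : J.order = -1) (y : Fin q → LaurentSeries k)
    (h : ∑ b : Fin q, qExpand k q (y b) * J ^ (b : ℕ) = 0) : ∀ b, y b = 0 := by
  classical
  by_contra hcon
  rw [not_forall] at hcon
  set S : Finset (Fin q) := Finset.univ.filter fun b => y b ≠ 0 with hS
  have hSne : S.Nonempty := by
    obtain ⟨b, hb⟩ := hcon
    exact ⟨b, Finset.mem_filter.mpr ⟨Finset.mem_univ _, hb⟩⟩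
  let t : Fin q → LaurentSeries k := fun b => qExpand k q (y b) * J ^ (b : ℕ)
  obtain ⟨b₀, hb₀S, hmin⟩ := Finset.exists_min_image S (fun b => (t b).order) hSne
  have hyb₀ : y b₀ ≠ 0 := (Finset.mem_filter.mp hb₀S).2
  have ht₀ : t b₀ ≠ 0 := term_ne_zero q hJ hyb₀ _
  have hcoeff := congrArg (fun f : LaurentSeries k => f.coeff (t b₀).order) h
  simp only [HahnSeries.coeff_sum, HahnSeries.coeff_zero] at hcoeff
  have hq : (0 : ℤ) < q := by exact_mod_cast Nat.pos_of_ne_zero (NeZero.ne q)
  have hsingle : ∑ b : Fin q, (t b).coeff (t b₀).order = (t b₀).coeff (t b₀).order := by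
    refine Finset.sum_eq_single b₀ (fun b _ hb => ?_) (fun h => absurd (Finset.mem_univ _) h)
    by_cases hyb : y b = 0
    · simp only [t, hyb, map_zero, zero_mul, HahnSeries.coeff_zero]
    · have hbS : b ∈ S := Finset.mem_filter.mpr ⟨Finset.mem_univ _, hyb⟩
      have hle := hmin b hbS
      have hne : (t b₀).order ≠ (t b).order := by
        intro heq
        simp only [t] at heq
        rw [order_term q hJ hyb₀, order_term q hJ hyb] at heq
        -- `q * (ord y b₀ - ord y b) = b₀ - b` with `|b₀ - b| < q`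
        have hb₀lt : ((b₀ : ℕ) : ℤ) < q := by exact_mod_cast b₀.2
        have hblt : ((b : ℕ) : ℤ) < q := by exact_mod_cast b.2
        have hb₀0 : (0 : ℤ) ≤ ((b₀ : ℕ) : ℤ) := by positivity
        have hb0 : (0 : ℤ) ≤ ((b : ℕ) : ℤ) := by positivity
        have hdiv : (q : ℤ) ∣ ((b₀ : ℕ) : ℤ) - ((b : ℕ) : ℤ) :=
          ⟨(y b₀).order - (y b).order, by linarith⟩
        have hzero : ((b₀ : ℕ) : ℤ) - ((b : ℕ) : ℤ) = 0 := by
          apply Int.eq_zero_of_abs_lt_dvd hdiv
          rw [abs_lt]
          constructor <;> linarith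
        apply hb
        apply Fin.ext
        have : ((b : ℕ) : ℤ) = ((b₀ : ℕ) : ℤ) := by linarith
        exact_mod_cast this
      exact HahnSeries.coeff_eq_zero_of_lt_order (lt_of_le_of_ne hle hne)
  rw [hsingle] at hcoeff
  exact ht₀ (HahnSeries.coeff_order_eq_zero.mp hcoeff)

end Fermat.Agent.S34x.TwoVal.OrderIndep
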