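/-
helper10 (P-S34, WP2(c)): residue fields, `e = 1` and Galois compatibility of the TWO Gauss
valuation rings of the function field of `X₀(Mq)` in residue characteristic `q` (`q ∤ M`).

Semi-abstract, SYMMETRIC setting: `F` a field over `L`, `a b : F_M →ₐ[L] F` two embeddings of the
level-`M` function field with `[F : a F_M] ≤ q + 1`, and two embeddings `ι₁ ι₂ : F → L((t))` with
`ι₁ (a v) = v`, `ι₁ (b v) = v(t^q)`, `ι₂ (a v) = v(t^q)`, `ι₂ (b v) = v`.
Instances: `(a, b, ι₁, ι₂) = (heckeAlphaBar, heckeBetaBar, coercion, iota0)` and the swapped one.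
`Vᵢ := (gaussRing A π).comap ιᵢ`, assumed to be valuation rings (helper60, `TwoVal/ValRing`).

Results: both residue fields are `Fk k M = modularFunctionFieldFullC k M`, both value groups are
that of `A` (normalisation), packaged as `C0.RedSetup`s for the consumers (WP6 `C0two`).
-/
import Fermat.Agent.S34x.TwoVal.FundEq
import Fermat.Agent.S34x.TwoVal.OrderIndep
import Fermat.Agent.Gateway.C0.GaussSetup
import Fermat.Agent.Gateway.ESC.Kronecker
import Fermat.Agent.Gateway.ES.CoeffAut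
import Fermat.Agent.Gateway.GoodRed.GaussRing

set_option autoImplicit false
set_option linter.unusedSectionVars false
set_option linter.style.haveILetI false

noncomputable section

namespace Fermat.Agent.S34x.TwoVal.Residue

open ModularCurve Fermat.Agent.Gateway.Red Fermat.Agent.Gateway.GoodRed Fermat.Agent.S28
  Fermat.Agent.S28.Tower

/-! ### The Gauss ring pulled back along an embedding into `L((t))` -/

section Comap

variable {L : Type*} [Field L] (A : ValuationSubring L) {k : Type*} [Field k] (π : A →+* k)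
variable {F : Type*} [Field F] (ι : F →+* LaurentSeries L)

/-- the Gauss ring of `F` for the embedding `ι` -/
def gSub : Subring F := (gaussRing A π).comap ι

theorem mem_gSub_iff {f : F} : f ∈ gSub A π ι ↔ ι f ∈ gaussRing A π := Iff.rfl

/-- the reduction map of the Gauss ring of `F` for the embedding `ι` -/
def gRed : gSub A π ι →+* LaurentSeries k :=
  (gaussRed A π).comp (ι.restrict (gSub A π ι) (gaussRing A π) fun _ h => h)

theorem gRed_apply (f : gSub A π ι) : gRed A π ι f = gaussRed A π ⟨ι f, f.2⟩ := rfl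

theorem gRed_mk {f : F} (hf : ι f ∈ gaussRing A π) :
    gRed A π ι ⟨f, hf⟩ = gaussRed A π ⟨ι f, hf⟩ := rfl

theorem gaussRed_congr' {y y' : LaurentSeries L} (h : y = y') (hy : y ∈ gaussRing A π) :
    gaussRed A π ⟨y, hy⟩ = gaussRed A π ⟨y', h ▸ hy⟩ := by
  subst h; rfl

theorem inv_mem_gSub {f : F} (hf : f ∈ gSub A π ι) (hred : gRed A π ι ⟨f, hf⟩ ≠ 0) :
    f⁻¹ ∈ gSub A π ι := by
  rw [mem_gSub_iff, map_inv₀]
  exact inv_mem_gaussRing A π hf hred

variable (hval : ∀ f : F, f ∈ gSub A π ι ∨ f⁻¹ ∈ gSub A π ι)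

/-- the Gauss ring as a valuation subring, given the dichotomy -/
def gVal : ValuationSubring F :=
  { gSub A π ι with mem_or_inv_mem' := hval }

theorem mem_gVal_iff {f : F} : f ∈ gVal A π ι hval ↔ ι f ∈ gaussRing A π := Iff.rfl

/-- the maximal ideal of the Gauss valuation ring is the kernel of the reduction -/
theorem gVal_valuation_lt_one_iff (f : F) :
    (gVal A π ι hval).valuation f < 1 ↔
      ∃ hf : ι f ∈ gaussRing A π, gaussRed A π ⟨ι f, hf⟩ = 0 := by
  constructor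
  · intro hlt
    have hf : ι f ∈ gaussRing A π :=
      (mem_gVal_iff A π ι hval).mp ((ValuationSubring.valuation_le_one_iff _ _).mp hlt.le)
    refine ⟨hf, ?_⟩
    by_contra hne
    have hinv : f⁻¹ ∈ gVal A π ι hval := inv_mem_gSub A π ι hf hne
    have h1 := (ValuationSubring.valuation_le_one_iff _ _).mpr hinv
    have hf0 : f ≠ 0 := by
      rintro rfl
      apply hne
      have : (⟨ι 0, hf⟩ : gaussRing A π) = 0 := Subtype.ext (map_zero ι)
      rw [this, map_zero]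
    rw [map_inv₀, inv_le_one₀ (zero_lt_iff.mpr ((Valuation.ne_zero_iff _).mpr hf0))] at h1
    exact absurd hlt (not_lt.mpr h1)
  · rintro ⟨hf, hred⟩
    have hle : (gVal A π ι hval).valuation f ≤ 1 :=
      (ValuationSubring.valuation_le_one_iff _ _).mpr hf
    rcases lt_or_eq_of_le hle with h | h
    · exact h
    exfalso
    have hf0 : f ≠ 0 := by
      rintro rfl
      rw [map_zero] at h
      exact zero_ne_one h
    have hinv : f⁻¹ ∈ gVal A π ι hval := by
      rw [← ValuationSubring.valuation_le_one_iff, map_inv₀, h, inv_one]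
    have hmul : (⟨ι f, hf⟩ : gaussRing A π) * ⟨ι f⁻¹, hinv⟩ = 1 := by
      apply Subtype.ext
      show ι f * ι f⁻¹ = 1
      rw [← map_mul, mul_inv_cancel₀ hf0, map_one]
    have := congrArg (gaussRed A π) hmul
    rw [map_mul, hred, zero_mul, map_one] at this
    exact zero_ne_one this

theorem gVal_valuation_eq_one_iff (f : F) :
    (gVal A π ι hval).valuation f = 1 ↔
      ∃ hf : ι f ∈ gaussRing A π, gaussRed A π ⟨ι f, hf⟩ ≠ 0 := by
  constructor
  · intro h
    have hf : ι f ∈ gaussRing A π :=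
      (mem_gVal_iff A π ι hval).mp ((ValuationSubring.valuation_le_one_iff _ _).mp h.le)
    refine ⟨hf, fun h0 => ?_⟩
    have := (gVal_valuation_lt_one_iff A π ι hval f).mpr ⟨hf, h0⟩
    rw [h] at this
    exact lt_irrefl _ this
  · rintro ⟨hf, hne⟩
    have hle : (gVal A π ι hval).valuation f ≤ 1 :=
      (ValuationSubring.valuation_le_one_iff _ _).mpr hf
    rcases lt_or_eq_of_le hle with h | h
    · obtain ⟨hf', h0⟩ := (gVal_valuation_lt_one_iff A π ι hval f).mp h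
      exact absurd h0 hne
    · exact h

end Comap

/-! ### Kronecker's congruence `j(t^q) ≡ j(t)^q mod q` over `ℤ` -/

section KroneckerInt

variable (q : ℕ) [Fact q.Prime]

/-- an integral Laurent series which vanishes mod `q` is divisible by `q` -/
theorem exists_eq_C_mul_of_coeffMap_eq_zero (D : LaurentSeries ℤ)
    (h : coeffMap (Int.castRingHom (ZMod q)) D = 0) :
    ∃ W : LaurentSeries ℤ, D = HahnSeries.C (q : ℤ) * W := by
  have hdvd : ∀ n, (q : ℤ) ∣ D.coeff n := by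
    intro n
    have := congrArg (fun s => HahnSeries.coeff s n) h
    simp only [coeffMap_coeff, HahnSeries.coeff_zero, eq_intCast] at this
    exact (ZMod.intCast_zmod_eq_zero_iff_dvd _ _).mp this
  refine ⟨D.map (⟨fun z => z / (q : ℤ), by simp⟩ : ZeroHom ℤ ℤ), ?_⟩
  ext n
  rw [HahnSeries.C_mul_eq_smul, HahnSeries.coeff_smul, HahnSeries.map_coeff, smul_eq_mul]
  exact (Int.mul_ediv_cancel' (hdvd n)).symm

theorem coeffMap_C' {R S : Type*} [CommRing R] [CommRing S] (f : R →+* S) (r : R) :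
    coeffMap f (HahnSeries.C r) = HahnSeries.C (f r) := coeffMap_single f 0 r

/-- **Kronecker**: `j(t^q) - j(t)^q = q * W` with `W` integral. -/
theorem exists_kronecker_int :
    ∃ W : LaurentSeries ℤ,
      qExpand ℤ q (jqModC ℤ) - (jqModC ℤ) ^ q = HahnSeries.C (q : ℤ) * W := by
  apply exists_eq_C_mul_of_coeffMap_eq_zero
  rw [map_sub, map_pow, coeffMap_qExpand, coeffMap_jqModC,
    Fermat.Agent.Gateway.ESC.pow_char_eq_qExpand q (jqModC (ZMod q)), coeffMap_jqModC, sub_self]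

/-- Kronecker's congruence over any commutative ring -/
theorem exists_kronecker (R : Type*) [CommRing R] :
    ∃ W : LaurentSeries R,
      qExpand R q (jqModC R) - (jqModC R) ^ q = HahnSeries.C (q : R) * W := by
  obtain ⟨W, hW⟩ := exists_kronecker_int q
  refine ⟨coeffMap (Int.castRingHom R) W, ?_⟩
  have := congrArg (coeffMap (Int.castRingHom R)) hW
  rw [map_sub, map_pow, coeffMap_qExpand, coeffMap_jqModC, map_mul, coeffMap_C'] at this
  rw [this]
  simp

end KroneckerInt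

/-! ### The level-`M` Gauss valuation ring in the `gVal` language -/

section LevelM

variable {L : Type*} [Field L] [Algebra ℚ L] (A : ValuationSubring L)
  {k : Type} [Field k] (π : A →+* k) [IsAlgClosed k] (q : ℕ) [Fact q.Prime] [CharP k q]
  (M : ℕ) [NeZero M] (hπ : Function.Surjective π) (hqM : ¬ q ∣ M)

theorem OvVal_eq_gVal :
    OvVal A π M q hπ hqM = gVal A π (algebraMap (FBar L M) (LaurentSeries L))
      (fun f => mem_Ov_or_inv_mem_Ov A π M q hπ hqM f) := rfl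

theorem OvVal_valuation_lt_one_iff (e : FBar L M) :
    (OvVal A π M q hπ hqM).valuation e < 1 ↔
      ∃ he : e ∈ Ov A π (FBar L M), redV A π (FBar L M) ⟨e, he⟩ = 0 := by
  rw [OvVal_eq_gVal]
  exact gVal_valuation_lt_one_iff A π _ _ e

theorem OvVal_valuation_eq_one_iff (e : FBar L M) :
    (OvVal A π M q hπ hqM).valuation e = 1 ↔
      ∃ he : e ∈ Ov A π (FBar L M), redV A π (FBar L M) ⟨e, he⟩ ≠ 0 := by
  rw [OvVal_eq_gVal]
  exact gVal_valuation_eq_one_iff A π _ _ e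

/-- `q` as an element of `A` -/
theorem natCast_mem_A (n : ℕ) : (n : L) ∈ A := natCast_mem A n

theorem pi_q_eq_zero : π ⟨(q : L), natCast_mem_A A q⟩ = 0 := by
  have h : (⟨(q : L), natCast_mem_A A q⟩ : A) = ((q : ℕ) : A) := Subtype.ext (by simp)
  rw [h, map_natCast, CharP.cast_eq_zero]

include hπ in
theorem q_mem_maximalIdeal :
    (⟨(q : L), natCast_mem_A A q⟩ : A) ∈ IsLocalRing.maximalIdeal A :=
  (GaussRing.pi_eq_zero_iff hπ _).mp (pi_q_eq_zero A π q)

include q hπ in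
/-- `A` has rank one (it lies over `q` and `L / ℚ` is algebraic) -/
theorem rank_one_A [Algebra.IsAlgebraic ℚ L] :
    ∀ x ∈ IsLocalRing.maximalIdeal A, ∀ c : A, c ≠ 0 → ∃ j : ℕ, c ∣ x ^ j := by
  have hA : A.LiesOverPrime q := by
    rw [ValuationSubring.LiesOverPrime, ValuationSubring.mem_nonunits_iff]
    exact (A.valuation_lt_one_iff ⟨(q : L), natCast_mem_A A q⟩).mp
      (q_mem_maximalIdeal A π q hπ)
  exact Fermat.Agent.Gateway.C0.rank_one_of_isAlgebraic A (Fact.out : q.Prime) hA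

/-- the constant `q` of the level-`M` function field -/
def ϖM : FBar L M := algebraMap L (FBar L M) (q : L)

theorem ϖM_ne_zero : ϖM (L := L) q M ≠ 0 := by
  haveI : CharZero L := algebraRat.charZero L
  rw [ϖM, Ne, map_eq_zero_iff _ (algebraMap L (FBar L M)).injective]
  exact Nat.cast_ne_zero.mpr (Fact.out : q.Prime).ne_zero

theorem ϖM_valuation_lt_one : (OvVal A π M q hπ hqM).valuation (ϖM (L := L) q M) < 1 := by
  rw [OvVal_valuation_lt_one_iff]
  have hmem : ϖM (L := L) q M ∈ Ov A π (FBar L M) :=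
    (algebraMap_mem_Ov_iff A π M hπ (q : L)).mpr (natCast_mem_A A q)
  refine ⟨hmem, ?_⟩
  have := redV_algebraMap A π M ⟨(q : L), natCast_mem_A A q⟩ hmem
  show redV A π (FBar L M) ⟨algebraMap L (FBar L M) (q : L), hmem⟩ = 0
  rw [this, pi_q_eq_zero, map_zero]

/-- rank one of the level-`M` Gauss valuation, relative to `q` -/
theorem exists_pow_ϖM_mul_mem
    (hrk : ∀ x ∈ IsLocalRing.maximalIdeal A, ∀ c : A, c ≠ 0 → ∃ j : ℕ, c ∣ x ^ j)
    (e : FBar L M) : ∃ n : ℕ, ϖM (L := L) q M ^ n * e ∈ OvVal A π M q hπ hqM := by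
  by_cases he : e = 0
  · exact ⟨0, by rw [he, mul_zero]; exact zero_mem _⟩
  obtain ⟨c, u, hc, -, -, hfu⟩ := exists_const_mul_unit_F A π M q hqM e he
  -- `q ^ n * c ∈ A`
  have hex : ∃ n : ℕ, (q : L) ^ n * c ∈ A := by
    rcases A.mem_or_inv_mem c with hcA | hcA
    · exact ⟨0, by rwa [pow_zero, one_mul]⟩
    · have hc0 : (⟨c⁻¹, hcA⟩ : A) ≠ 0 := fun h => inv_ne_zero hc (congrArg Subtype.val h)
      obtain ⟨j, d, hd⟩ := hrk _ (q_mem_maximalIdeal A π q hπ) ⟨c⁻¹, hcA⟩ hc0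
      refine ⟨j, ?_⟩
      have h1 : (q : L) ^ j = c⁻¹ * (d : L) := by
        have := congrArg Subtype.val hd
        simpa using this
      rw [h1, mul_comm c⁻¹, mul_assoc, inv_mul_cancel₀ hc, mul_one]
      exact d.2
  obtain ⟨n, hn⟩ := hex
  refine ⟨n, ?_⟩
  have h1 : ϖM (L := L) q M ^ n * e = algebraMap L (FBar L M) ((q : L) ^ n * c) * (u : FBar L M) := by
    rw [hfu, map_mul, map_pow, mul_assoc]
    rfl
  rw [h1]
  exact mul_mem ((algebraMap_mem_Ov_iff A π M hπ _).mpr hn) u.2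

/-- the modular function `j` at level `M` -/
def jM : FBar L M := ⟨jS L 1 1, jS_mem_FBar one_ne_zero (one_dvd M)⟩

theorem coe_jM : ((jM (L := L) M : FBar L M) : LaurentSeries L) = jqModC L := by
  show jS L 1 1 = jqModC L
  rw [jS_eq_qExpand, qExpand_one_apply]

theorem jqModC_mem_gaussRing : jqModC L ∈ gaussRing A π := by
  rw [← embA_jqModC A]
  exact embA_mem_gaussRing A π _

theorem gaussRed_jqModC :
    gaussRed A π ⟨jqModC L, jqModC_mem_gaussRing A π⟩ = jqModC k := by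
  rw [gaussRed_of_eq_embA A π _ (a := jqModC A) (embA_jqModC A).symm, redA_jqModC]

end LevelM

/-! ### The symmetric two-embedding setting -/

section Setting

variable {L : Type*} [Field L] [Algebra ℚ L] (A : ValuationSubring L)
  {k : Type} [Field k] (π : A →+* k) [IsAlgClosed k] (q : ℕ) [Fact q.Prime] [CharP k q]
  (M : ℕ) [NeZero M]
variable {F : Type*} [Field F] [Algebra L F] (a b : FBar L M →ₐ[L] F)
  (ι₁ ι₂ : F →+* LaurentSeries L)

/-- the two embeddings `a, b` of the level-`M` field and the two expansions `ι₁, ι₂` -/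
structure TwoEmb : Prop where
  ι₁a : ∀ v : FBar L M, ι₁ (a v) = (v : LaurentSeries L)
  ι₁b : ∀ v : FBar L M, ι₁ (b v) = qExpand L q (v : LaurentSeries L)
  ι₂a : ∀ v : FBar L M, ι₂ (a v) = qExpand L q (v : LaurentSeries L)
  ι₂b : ∀ v : FBar L M, ι₂ (b v) = (v : LaurentSeries L)
  finite : letI := a.toRingHom.toAlgebra; FiniteDimensional (FBar L M) F
  finrank_le : letI := a.toRingHom.toAlgebra; Module.finrank (FBar L M) F ≤ q + 1
  refl : ∀ c : FBar L M, qExpand L q (c : LaurentSeries L) ∈ gaussRing A π →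
    c ∈ Ov A π (FBar L M)

variable {A π q M a b ι₁ ι₂}

namespace TwoEmb

variable (T : TwoEmb A π q M a b ι₁ ι₂)
include T

/-! #### membership and reduction of `a v`, `b v` -/

theorem ι₁a_mem {v : FBar L M} (hv : v ∈ Ov A π (FBar L M)) : ι₁ (a v) ∈ gaussRing A π := by
  rw [T.ι₁a]; exact hv

theorem ι₂b_mem {v : FBar L M} (hv : v ∈ Ov A π (FBar L M)) : ι₂ (b v) ∈ gaussRing A π := by
  rw [T.ι₂b]; exact hv

theorem ι₁b_mem {v : FBar L M} (hv : v ∈ Ov A π (FBar L M)) : ι₁ (b v) ∈ gaussRing A π := by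
  rw [T.ι₁b]; exact GaussRing.qExpand_mem_gaussRing A π q hv

theorem ι₂a_mem {v : FBar L M} (hv : v ∈ Ov A π (FBar L M)) : ι₂ (a v) ∈ gaussRing A π := by
  rw [T.ι₂a]; exact GaussRing.qExpand_mem_gaussRing A π q hv

theorem red_ι₁a {v : FBar L M} (hv : v ∈ Ov A π (FBar L M)) :
    gaussRed A π ⟨ι₁ (a v), T.ι₁a_mem hv⟩ = redV A π (FBar L M) ⟨v, hv⟩ :=
  gaussRed_congr' A π (T.ι₁a v) _

theorem red_ι₂b {v : FBar L M} (hv : v ∈ Ov A π (FBar L M)) :
    gaussRed A π ⟨ι₂ (b v), T.ι₂b_mem hv⟩ = redV A π (FBar L M) ⟨v, hv⟩ :=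
  gaussRed_congr' A π (T.ι₂b v) _

theorem red_ι₁b {v : FBar L M} (hv : v ∈ Ov A π (FBar L M)) :
    gaussRed A π ⟨ι₁ (b v), T.ι₁b_mem hv⟩ = qExpand k q (redV A π (FBar L M) ⟨v, hv⟩) := by
  rw [gaussRed_congr' A π (T.ι₁b v) _]
  exact GaussRing.gaussRed_qExpand A π q hv

theorem red_ι₂a {v : FBar L M} (hv : v ∈ Ov A π (FBar L M)) :
    gaussRed A π ⟨ι₂ (a v), T.ι₂a_mem hv⟩ = qExpand k q (redV A π (FBar L M) ⟨v, hv⟩) := by
  rw [gaussRed_congr' A π (T.ι₂a v) _]
  exact GaussRing.gaussRed_qExpand A π q hv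

theorem ι₁_algebraMap (c : L) : ι₁ (algebraMap L F c) = HahnSeries.C c := by
  rw [← a.commutes c, T.ι₁a, coe_algebraMap_FBar]

theorem ι₂_algebraMap (c : L) : ι₂ (algebraMap L F c) = HahnSeries.C c := by
  rw [← b.commutes c, T.ι₂b, coe_algebraMap_FBar]

end TwoEmb

/-! #### the Kronecker series and the separating element -/

section Kronecker

variable (L q)

/-- `K₁ = j(t^q) - j(t)^q` -/
def K₁ : LaurentSeries L := qExpand L q (jqModC L) - (jqModC L) ^ q

/-- `K₂ = j(t) - j(t^q)^q` -/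
def K₂ : LaurentSeries L := jqModC L - (qExpand L q (jqModC L)) ^ q

variable {L} (A π)

theorem exists_K₁_eq : ∃ W : LaurentSeries A, K₁ L q = HahnSeries.C (q : L) * embA A W := by
  obtain ⟨W, hW⟩ := exists_kronecker q A
  refine ⟨W, ?_⟩
  have := congrArg (embA A) hW
  rw [map_sub, map_pow, GaussRing.embA_qExpand, embA_jqModC, map_mul, embA_C] at this
  rw [K₁, this]
  congr 2

theorem K₁_mem : K₁ L q ∈ gaussRing A π := by
  obtain ⟨W, hW⟩ := exists_K₁_eq A q
  rw [hW]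
  exact mul_mem (GaussRing.C_mem_gaussRing_of_mem A π (natCast_mem_A A q))
    (embA_mem_gaussRing A π W)

theorem red_K₁ : gaussRed A π ⟨K₁ L q, K₁_mem A π q⟩ = 0 := by
  obtain ⟨W, hW⟩ := exists_kronecker q A
  have h1 : K₁ L q = embA A (HahnSeries.C ((q : ℕ) : A) * W) := by
    rw [← hW, map_sub, map_pow, GaussRing.embA_qExpand, embA_jqModC, K₁]
  rw [gaussRed_of_eq_embA A π _ h1, map_mul, redA_C, map_natCast, CharP.cast_eq_zero, map_zero,
    zero_mul]

theorem K₂_eq_embA :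
    K₂ L q = embA A (jqModC A - (qExpand A q (jqModC A)) ^ q) := by
  rw [map_sub, map_pow, GaussRing.embA_qExpand, embA_jqModC, K₂]

theorem K₂_mem : K₂ L q ∈ gaussRing A π := by
  rw [K₂_eq_embA A q]
  exact embA_mem_gaussRing A π _

theorem red_K₂ : gaussRed A π ⟨K₂ L q, K₂_mem A π q⟩ =
    jqModC k - (qExpand k q (jqModC k)) ^ q := by
  rw [gaussRed_of_eq_embA A π _ (K₂_eq_embA A q), map_sub, map_pow, GaussRing.redA_qExpand,
    redA_jqModC]

omit [IsAlgClosed k] [CharP k q] in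
theorem red_K₂_ne_zero : jqModC k - (qExpand k q (jqModC k)) ^ q ≠ 0 := by
  intro h
  have h1 : jqModC k = (qExpand k q (jqModC k)) ^ q := sub_eq_zero.mp h
  have h2 := congrArg HahnSeries.order h1
  rw [HahnSeries.order_pow, qExpand_order, jqModC_order] at h2
  have hq : 2 ≤ q := (Fact.out : q.Prime).two_le
  have h3 : (q : ℤ) * (q : ℤ) = 1 := by
    rw [nsmul_eq_mul] at h2
    linarith
  have h4 : (2 : ℤ) ≤ q := by exact_mod_cast hq
  nlinarith

theorem K₁_add_K₂_mem : K₁ L q + K₂ L q ∈ gaussRing A π :=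
  add_mem (K₁_mem A π q) (K₂_mem A π q)

theorem red_K₁_add_K₂_ne_zero :
    gaussRed A π ⟨K₁ L q + K₂ L q, K₁_add_K₂_mem A π q⟩ ≠ 0 := by
  have h : (⟨K₁ L q + K₂ L q, K₁_add_K₂_mem A π q⟩ : gaussRing A π) =
      ⟨K₁ L q, K₁_mem A π q⟩ + ⟨K₂ L q, K₂_mem A π q⟩ := rfl
  rw [h, map_add, red_K₁, zero_add, red_K₂]
  exact red_K₂_ne_zero q

include A π in
theorem K₁_add_K₂_ne_zero : K₁ L q + K₂ L q ≠ 0 := by
  intro h
  apply red_K₁_add_K₂_ne_zero A π q
  have : (⟨K₁ L q + K₂ L q, K₁_add_K₂_mem A π q⟩ : gaussRing A π) = 0 := Subtype.ext h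
  rw [this, map_zero]

/-- the key membership: `(K₁ / q) / (K₁ + K₂)` lies in the Gauss ring -/
theorem K₁_div_mem :
    K₁ L q / (K₁ L q + K₂ L q) * (HahnSeries.C (q : L))⁻¹ ∈ gaussRing A π := by
  haveI : CharZero L := algebraRat.charZero L
  obtain ⟨W, hW⟩ := exists_K₁_eq A q
  have hC : (HahnSeries.C (q : L) : LaurentSeries L) ≠ 0 := by
    rw [Ne, map_eq_zero_iff _ HahnSeries.C_injective]
    exact Nat.cast_ne_zero.mpr (Fact.out : q.Prime).ne_zero
  have h1 : ∀ D : LaurentSeries L,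
      K₁ L q / D * (HahnSeries.C (q : L))⁻¹ = embA A W * D⁻¹ := by
    intro D
    rw [hW, div_eq_mul_inv, mul_comm (HahnSeries.C (q : L)) (embA A W), mul_assoc, mul_assoc,
      mul_comm D⁻¹, ← mul_assoc (HahnSeries.C (q : L)), mul_inv_cancel₀ hC, one_mul]
  rw [h1]
  exact mul_mem (embA_mem_gaussRing A π W)
    (inv_mem_gaussRing A π (K₁_add_K₂_mem A π q) (red_K₁_add_K₂_ne_zero A π q))

end Kronecker

/-- `w = b j - (a j)^q` -/
def wElt (q : ℕ) (a b : FBar L M →ₐ[L] F) : F := b (jM M) - a (jM M) ^ q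

/-- the separating element `s = w / (w + w')` -/
def sElt (q : ℕ) (a b : FBar L M →ₐ[L] F) : F := wElt q a b / (wElt q a b + wElt q b a)

namespace TwoEmb

variable (T : TwoEmb A π q M a b ι₁ ι₂)
include T

theorem ι₁_wElt : ι₁ (wElt q a b) = K₁ L q := by
  rw [wElt, map_sub, map_pow, T.ι₁b, T.ι₁a, coe_jM, K₁]

theorem ι₁_wElt' : ι₁ (wElt q b a) = K₂ L q := by
  rw [wElt, map_sub, map_pow, T.ι₁b, T.ι₁a, coe_jM, K₂]

theorem ι₂_wElt : ι₂ (wElt q a b) = K₂ L q := by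
  rw [wElt, map_sub, map_pow, T.ι₂b, T.ι₂a, coe_jM, K₂]

theorem ι₂_wElt' : ι₂ (wElt q b a) = K₁ L q := by
  rw [wElt, map_sub, map_pow, T.ι₂b, T.ι₂a, coe_jM, K₁]

theorem wElt_add_ne_zero : wElt q a b + wElt q b a ≠ 0 := by
  intro h
  have := congrArg ι₁ h
  rw [map_add, T.ι₁_wElt, T.ι₁_wElt', map_zero] at this
  exact K₁_add_K₂_ne_zero A π q this

theorem one_sub_sElt : 1 - sElt q a b = wElt q b a / (wElt q a b + wElt q b a) := by
  have h := T.wElt_add_ne_zero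
  rw [sElt]
  field_simp
  ring

theorem sElt_mem₁ : ι₁ (sElt q a b * (algebraMap L F (q : L))⁻¹) ∈ gaussRing A π := by
  rw [map_mul, map_inv₀, T.ι₁_algebraMap, sElt, map_div₀, map_add, T.ι₁_wElt, T.ι₁_wElt']
  exact K₁_div_mem A π q

theorem sElt_mem₂ : ι₂ ((1 - sElt q a b) * (algebraMap L F (q : L))⁻¹) ∈ gaussRing A π := by
  rw [T.one_sub_sElt, map_mul, map_inv₀, T.ι₂_algebraMap, map_div₀, map_add, T.ι₂_wElt,
    T.ι₂_wElt', add_comm]
  exact K₁_div_mem A π q

end TwoEmb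

/-! #### the `FundEq` hypotheses -/

theorem jM_mem_Ov : jM (L := L) M ∈ Ov A π (FBar L M) := jS_mem_Ov A π M one_ne_zero (one_dvd M)

theorem redV_jM : redV A π (FBar L M) ⟨jM M, jM_mem_Ov⟩ = jqModC k := by
  have h := redV_jS A π M one_ne_zero (one_dvd M)
  have h2 : jS k 1 1 = jqModC k := by rw [jS_eq_qExpand, qExpand_one_apply]
  rw [h2] at h
  exact h

namespace TwoEmb

variable (T : TwoEmb A π q M a b ι₁ ι₂) (hπ : Function.Surjective π) (hqM : ¬ q ∣ M)
  (hval₁ : ∀ f : F, f ∈ gSub A π ι₁ ∨ f⁻¹ ∈ gSub A π ι₁)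
  (hval₂ : ∀ f : F, f ∈ gSub A π ι₂ ∨ f⁻¹ ∈ gSub A π ι₂)
  (hrk : ∀ x ∈ IsLocalRing.maximalIdeal A, ∀ c : A, c ≠ 0 → ∃ j : ℕ, c ∣ x ^ j)
include T

theorem liesOver₁ : letI := a.toRingHom.toAlgebra
    FundEq.LiesOver (OvVal A π M q hπ hqM) (gVal A π ι₁ hval₁) := by
  letI := a.toRingHom.toAlgebra
  intro e
  show ι₁ (a e) ∈ gaussRing A π ↔ (e : LaurentSeries L) ∈ gaussRing A π
  rw [T.ι₁a]

theorem liesOver₂ : letI := a.toRingHom.toAlgebra
    FundEq.LiesOver (OvVal A π M q hπ hqM) (gVal A π ι₂ hval₂) := by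
  letI := a.toRingHom.toAlgebra
  intro e
  show ι₂ (a e) ∈ gaussRing A π ↔ (e : LaurentSeries L) ∈ gaussRing A π
  rw [T.ι₂a]
  exact ⟨T.refl e, GaussRing.qExpand_mem_gaussRing A π q⟩

include hrk in
/-- **the standing hypotheses of `FundEq`** for `(O', V₁, V₂)` over `a`, with `ϖ = q` and
`s = w / (w + w')` -/
theorem fundHyp : letI := a.toRingHom.toAlgebra
    FundEq.Hyp (OvVal A π M q hπ hqM) (gVal A π ι₁ hval₁) (gVal A π ι₂ hval₂)
      (ϖM (L := L) q M) (sElt q a b) := by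
  letI := a.toRingHom.toAlgebra
  have hϖ : a (ϖM (L := L) q M) = algebraMap L F (q : L) := a.commutes _
  refine ⟨T.liesOver₁ hπ hqM hval₁, T.liesOver₂ hπ hqM hval₂, ϖM_ne_zero q M,
    ϖM_valuation_lt_one A π q M hπ hqM, exists_pow_ϖM_mul_mem A π q M hπ hqM hrk, ?_, ?_⟩
  · show ι₁ (sElt q a b * (a (ϖM (L := L) q M))⁻¹) ∈ gaussRing A π
    rw [hϖ]
    exact T.sElt_mem₁
  · show ι₂ ((1 - sElt q a b) * (a (ϖM (L := L) q M))⁻¹) ∈ gaussRing A π
    rw [hϖ]
    exact T.sElt_mem₂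

/-- residue degree `≥ 1` at `V₁` -/
theorem resIndep₁ : letI := a.toRingHom.toAlgebra
    FundEq.ResIndep (OvVal A π M q hπ hqM) (gVal A π ι₁ hval₁) (fun _ : Fin 1 => (1 : F)) := by
  letI := a.toRingHom.toAlgebra
  refine ⟨fun _ => one_mem _, fun c _ hlt i => ?_⟩
  rw [Fin.sum_univ_one, mul_one] at hlt
  rw [Fin.fin_one_eq_zero i]
  exact ((T.liesOver₁ hπ hqM hval₁).lt_one_iff (c 0)).mp hlt

/-- the family `(b j)^i`, `i < q` -/
def yFam (q : ℕ) (b : FBar L M →ₐ[L] F) : Fin q → F := fun i => b (jM M) ^ (i : ℕ)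

omit T in
theorem sum_mem_gaussRing_aux {n : ℕ} (C : Fin n → gaussRing A π) (J : gaussRing A π) :
    ((∑ i, C i * J ^ (i : ℕ) : gaussRing A π) : LaurentSeries L) =
      ∑ i, (C i : LaurentSeries L) * (J : LaurentSeries L) ^ (i : ℕ) := by
  rw [AddSubmonoidClass.coe_finsetSum]
  rfl

theorem ι₂_sum_eq (c : Fin q → FBar L M) :
    ι₂ (∑ i, a (c i) * yFam q b i) =
      ∑ i, ι₂ (a (c i)) * ι₂ (b (jM M)) ^ (i : ℕ) := by
  rw [map_sum]
  refine Finset.sum_congr rfl fun i _ => ?_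
  rw [map_mul, yFam, map_pow]

/-- the reduction at `V₂` of an `O'`-combination of the `(b j)^i` -/
theorem red_ι₂_sum (c : Fin q → FBar L M) (hc : ∀ i, c i ∈ Ov A π (FBar L M))
    (hf : ι₂ (∑ i, a (c i) * yFam q b i) ∈ gaussRing A π) :
    gaussRed A π ⟨ι₂ (∑ i, a (c i) * yFam q b i), hf⟩ =
      ∑ i, qExpand k q (redV A π (FBar L M) ⟨c i, hc i⟩) * (jqModC k) ^ (i : ℕ) := by
  have hsum : (⟨ι₂ (∑ i, a (c i) * yFam q b i), hf⟩ : gaussRing A π) =
      ∑ i, (⟨ι₂ (a (c i)), T.ι₂a_mem (hc i)⟩ : gaussRing A π) *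
        (⟨ι₂ (b (jM M)), T.ι₂b_mem jM_mem_Ov⟩ : gaussRing A π) ^ (i : ℕ) := by
    apply Subtype.ext
    rw [sum_mem_gaussRing_aux]
    exact T.ι₂_sum_eq c
  rw [hsum, map_sum]
  refine Finset.sum_congr rfl fun i _ => ?_
  rw [map_mul, map_pow, T.red_ι₂a (hc i), T.red_ι₂b jM_mem_Ov, redV_jM]

/-- residue degree `≥ q` at `V₂` -/
theorem resIndep₂ : letI := a.toRingHom.toAlgebra
    FundEq.ResIndep (OvVal A π M q hπ hqM) (gVal A π ι₂ hval₂) (yFam q b) := by
  letI := a.toRingHom.toAlgebra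
  refine ⟨fun i => ?_, fun c hc hlt i => ?_⟩
  · show ι₂ (b (jM M) ^ (i : ℕ)) ∈ gaussRing A π
    rw [map_pow]
    exact pow_mem (T.ι₂b_mem jM_mem_Ov) _
  · obtain ⟨hf, hred⟩ := (gVal_valuation_lt_one_iff A π ι₂ hval₂ _).mp hlt
    have hred' : gaussRed A π ⟨ι₂ (∑ i, a (c i) * yFam q b i), hf⟩ = 0 := hred
    rw [T.red_ι₂_sum c hc hf] at hred'
    have h0 := OrderIndep.eq_zero_of_sum_qExpand_mul_pow q (jqModC k) (jqModC_order k)
      (fun i => redV A π (FBar L M) ⟨c i, hc i⟩) hred' i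
    exact (OvVal_valuation_lt_one_iff A π q M hπ hqM (c i)).mpr ⟨hc i, h0⟩

theorem card_le : letI := a.toRingHom.toAlgebra
    Module.finrank (FBar L M) F ≤ Fintype.card (Fin 1) + Fintype.card (Fin q) := by
  have := T.finrank_le
  rw [Fintype.card_fin, Fintype.card_fin, add_comm]
  exact this

/-! #### (R1), (R2): the residue fields are `Fk k M` -/

include hπ hqM hval₁ hval₂ hrk in
/-- **(R1)** the reduction at `V₁` takes values in `Fk k M` -/
theorem gaussRed_mem_Fk₁ {f : F} (hf : ι₁ f ∈ gaussRing A π) :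
    gaussRed A π ⟨ι₁ f, hf⟩ ∈ modularFunctionFieldFullC k M := by
  letI := a.toRingHom.toAlgebra
  haveI := T.finite
  obtain ⟨c, hc, hlt⟩ := (T.fundHyp hπ hqM hval₁ hval₂ hrk).residue_spanning
    (T.resIndep₁ hπ hqM hval₁) (T.resIndep₂ hπ hqM hval₂) T.card_le
    (z := f) ((mem_gVal_iff A π ι₁ hval₁).mpr hf)
  rw [Fin.sum_univ_one, mul_one] at hlt
  obtain ⟨h', hred⟩ := (gVal_valuation_lt_one_iff A π ι₁ hval₁ _).mp hlt
  have hc0 : c 0 ∈ Ov A π (FBar L M) := hc 0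
  have hsplit : (⟨ι₁ f, hf⟩ : gaussRing A π) =
      ⟨ι₁ (f - a (c 0)), h'⟩ + ⟨ι₁ (a (c 0)), T.ι₁a_mem hc0⟩ := by
    apply Subtype.ext
    show ι₁ f = ι₁ (f - a (c 0)) + ι₁ (a (c 0))
    rw [← map_add, sub_add_cancel]
  have hred' : gaussRed A π ⟨ι₁ (f - a (c 0)), h'⟩ = 0 := hred
  rw [hsplit, map_add, hred', zero_add, T.red_ι₁a hc0]
  exact redV_mem_Fk A π M q hπ hqM _

include hπ hqM hval₁ hval₂ hrk in
/-- **(R2)** the reduction at `V₂` takes values in `Fk k M` -/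
theorem gaussRed_mem_Fk₂ {f : F} (hf : ι₂ f ∈ gaussRing A π) :
    gaussRed A π ⟨ι₂ f, hf⟩ ∈ modularFunctionFieldFullC k M := by
  letI := a.toRingHom.toAlgebra
  haveI := T.finite
  obtain ⟨c, hc, hlt⟩ := (T.fundHyp hπ hqM hval₁ hval₂ hrk).residue_spanning'
    (T.resIndep₁ hπ hqM hval₁) (T.resIndep₂ hπ hqM hval₂) T.card_le
    (z := f) ((mem_gVal_iff A π ι₂ hval₂).mpr hf)
  obtain ⟨h', hred⟩ := (gVal_valuation_lt_one_iff A π ι₂ hval₂ _).mp hlt
  have hc' : ∀ i, c i ∈ Ov A π (FBar L M) := hc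
  have hsum_mem : ι₂ (∑ i, a (c i) * yFam q b i) ∈ gaussRing A π := by
    rw [T.ι₂_sum_eq]
    exact sum_mem fun i _ => mul_mem (T.ι₂a_mem (hc' i)) (pow_mem (T.ι₂b_mem jM_mem_Ov) _)
  have hsplit : (⟨ι₂ f, hf⟩ : gaussRing A π) =
      ⟨ι₂ (f - ∑ i, a (c i) * yFam q b i), h'⟩ + ⟨ι₂ (∑ i, a (c i) * yFam q b i), hsum_mem⟩ := by
    apply Subtype.ext
    show ι₂ f = ι₂ (f - ∑ i, a (c i) * yFam q b i) + ι₂ (∑ i, a (c i) * yFam q b i)
    rw [← map_add, sub_add_cancel]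
  have hred' : gaussRed A π ⟨ι₂ (f - ∑ i, a (c i) * yFam q b i), h'⟩ = 0 := hred
  rw [hsplit, map_add, hred', zero_add, T.red_ι₂_sum c hc' hsum_mem]
  refine sum_mem fun i _ => mul_mem ?_ (pow_mem (jqModC_mem_full k M) _)
  exact Fermat.Agent.Gateway.ES.qExpand_mem_fullC k M q
    ⟨redV A π (FBar L M) ⟨c i, hc' i⟩, redV_mem_Fk A π M q hπ hqM _⟩

/-! #### (R3): the value groups are that of `A` -/

include hπ hqM hval₁ hval₂ hrk in
/-- **(R3)** at `V₁`: every nonzero `f` has a constant multiple which is a unit of `V₁` -/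
theorem exists_scal₁ {f : F} (hf : f ≠ 0) :
    ∃ c : L, c ≠ 0 ∧ (gVal A π ι₁ hval₁).valuation (c • f) = 1 := by
  letI := a.toRingHom.toAlgebra
  haveI := T.finite
  obtain ⟨e, he, hve⟩ := (T.fundHyp hπ hqM hval₁ hval₂ hrk).exists_valuation_eq
    (T.resIndep₁ hπ hqM hval₁) (T.resIndep₂ hπ hqM hval₂) T.card_le hf
  obtain ⟨c₀, u, hc₀, hu0, -, hfu⟩ := exists_const_mul_unit_F A π M q hqM e he
  have hae : a e = algebraMap L F c₀ * a (u : FBar L M) := by
    rw [hfu, map_mul, a.commutes]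
  have hvu : (gVal A π ι₁ hval₁).valuation (a (u : FBar L M)) = 1 :=
    (gVal_valuation_eq_one_iff A π ι₁ hval₁ _).mpr
      ⟨T.ι₁a_mem u.2, by rw [T.red_ι₁a u.2]; exact hu0⟩
  have hve' : (gVal A π ι₁ hval₁).valuation f =
      (gVal A π ι₁ hval₁).valuation (algebraMap L F c₀) := by
    have h1 : (gVal A π ι₁ hval₁).valuation f = (gVal A π ι₁ hval₁).valuation (a e) := hve
    rw [h1, hae, map_mul, hvu, mul_one]
  have hc₀F : algebraMap L F c₀ ≠ 0 := by
    rwa [Ne, map_eq_zero_iff _ (algebraMap L F).injective]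
  refine ⟨c₀⁻¹, inv_ne_zero hc₀, ?_⟩
  rw [Algebra.smul_def, map_mul, hve', map_inv₀, map_inv₀,
    inv_mul_cancel₀ ((Valuation.ne_zero_iff _).mpr hc₀F)]

include hπ hqM hval₁ hval₂ hrk in
/-- **(R3)** at `V₂` -/
theorem exists_scal₂ {f : F} (hf : f ≠ 0) :
    ∃ c : L, c ≠ 0 ∧ (gVal A π ι₂ hval₂).valuation (c • f) = 1 := by
  letI := a.toRingHom.toAlgebra
  haveI := T.finite
  obtain ⟨e, he, hve⟩ := (T.fundHyp hπ hqM hval₁ hval₂ hrk).exists_valuation_eq'
    (T.resIndep₁ hπ hqM hval₁) (T.resIndep₂ hπ hqM hval₂) T.card_le hf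
  obtain ⟨c₀, u, hc₀, hu0, -, hfu⟩ := exists_const_mul_unit_F A π M q hqM e he
  have hae : a e = algebraMap L F c₀ * a (u : FBar L M) := by
    rw [hfu, map_mul, a.commutes]
  have hvu : (gVal A π ι₂ hval₂).valuation (a (u : FBar L M)) = 1 :=
    (gVal_valuation_eq_one_iff A π ι₂ hval₂ _).mpr
      ⟨T.ι₂a_mem u.2, by rw [T.red_ι₂a u.2, Ne, qExpand_eq_zero_iff]; exact hu0⟩
  have hve' : (gVal A π ι₂ hval₂).valuation f =
      (gVal A π ι₂ hval₂).valuation (algebraMap L F c₀) := by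
    have h1 : (gVal A π ι₂ hval₂).valuation f = (gVal A π ι₂ hval₂).valuation (a e) := hve
    rw [h1, hae, map_mul, hvu, mul_one]
  have hc₀F : algebraMap L F c₀ ≠ 0 := by
    rwa [Ne, map_eq_zero_iff _ (algebraMap L F).injective]
  refine ⟨c₀⁻¹, inv_ne_zero hc₀, ?_⟩
  rw [Algebra.smul_def, map_mul, hve', map_inv₀, map_inv₀,
    inv_mul_cancel₀ ((Valuation.ne_zero_iff _).mpr hc₀F)]

end TwoEmb

/-! #### the `C0.RedSetup`s -/

section RedSetup

open Fermat.Agent.Gateway.C0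

variable {κ : IntermediateField k (LaurentSeries k)} (ι : F →+* LaurentSeries L)
  (hval : ∀ f : F, f ∈ gSub A π ι ∨ f⁻¹ ∈ gSub A π ι)

/-- the identity map `gVal → gSub` -/
def gValToSub : gVal A π ι hval →+* gSub A π ι where
  toFun f := ⟨(f : F), f.2⟩
  map_one' := rfl
  map_mul' _ _ := rfl
  map_zero' := rfl
  map_add' _ _ := rfl

/-- the residue map of a Gauss valuation ring whose reductions lie in `κ` -/
def gRes (hκ : ∀ (f : F) (hf : ι f ∈ gaussRing A π), gaussRed A π ⟨ι f, hf⟩ ∈ κ) :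
    gVal A π ι hval →+* κ :=
  ((gRed A π ι).comp (gValToSub ι hval)).codRestrict κ fun f => hκ f f.2

theorem coe_gRes (hκ : ∀ (f : F) (hf : ι f ∈ gaussRing A π), gaussRed A π ⟨ι f, hf⟩ ∈ κ)
    (f : gVal A π ι hval) :
    ((gRes ι hval hκ f : κ) : LaurentSeries k) = gaussRed A π ⟨ι f, f.2⟩ := rfl

/-- **the `RedSetup` of a Gauss valuation ring** with residue field inside `κ`, value group that
of `A` and constants embedded compatibly -/
def redSetupOf [Algebra.IsAlgebraic ℚ L]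
    (hκ : ∀ (f : F) (hf : ι f ∈ gaussRing A π), gaussRed A π ⟨ι f, hf⟩ ∈ κ)
    (hπ : Function.Surjective π)
    (hC : ∀ c : L, ι (algebraMap L F c) = HahnSeries.C c)
    (hscal : ∀ f : F, f ≠ 0 → ∃ c : L, c ≠ 0 ∧ (gVal A π ι hval).valuation (c • f) = 1) :
    RedSetup A (gVal A π ι hval) k κ where
  π := π
  π_surj := hπ
  res := gRes ι hval hκ
  res_ker x := by
    rw [gVal_valuation_lt_one_iff]
    constructor
    · intro h
      exact ⟨x.2, congrArg Subtype.val h⟩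
    · rintro ⟨_, h⟩
      exact Subtype.ext h
  algebraMap_mem c := by
    show ι (algebraMap L F (c : L)) ∈ gaussRing A π
    rw [hC]
    exact GaussRing.C_mem_gaussRing_of_mem A π c.2
  res_algebraMap c := by
    apply Subtype.ext
    rw [coe_gRes]
    have h1 : ((algebraMap k κ (π c) : κ) : LaurentSeries k) = HahnSeries.C (π c) := by
      show algebraMap k (LaurentSeries k) (π c) = HahnSeries.C (π c)
      rw [algebraMap_laurentSeries_eq_single]
      rfl
    rw [h1, ← GaussRing.gaussRed_C A π c]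
    exact gaussRed_congr' A π (hC (c : L)) _
  scal := hscal
  rank_one := rank_one_A A π q hπ
  exists_ne_zero := by
    have : CharZero L := algebraRat.charZero L
    refine ⟨⟨(q : L), natCast_mem_A A q⟩, q_mem_maximalIdeal A π q hπ, ?_⟩
    intro h
    have := congrArg Subtype.val h
    simp only [ZeroMemClass.coe_zero, Nat.cast_eq_zero] at this
    exact (Fact.out : q.Prime).ne_zero this

end RedSetup

namespace TwoEmb

open Fermat.Agent.Gateway.C0

variable [Algebra.IsAlgebraic ℚ L] (T : TwoEmb A π q M a b ι₁ ι₂) (hπ : Function.Surjective π)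
  (hqM : ¬ q ∣ M)
  (hval₁ : ∀ f : F, f ∈ gSub A π ι₁ ∨ f⁻¹ ∈ gSub A π ι₁)
  (hval₂ : ∀ f : F, f ∈ gSub A π ι₂ ∨ f⁻¹ ∈ gSub A π ι₂)

/-- **the `RedSetup` of `V₁`**: residue field `Fk k M`, value group of `A` -/
def redSetup₁ : RedSetup A (gVal A π ι₁ hval₁) k (modularFunctionFieldFullC k M) :=
  redSetupOf (q := q) ι₁ hval₁
    (fun _ hf => T.gaussRed_mem_Fk₁ hπ hqM hval₁ hval₂ (rank_one_A A π q hπ) hf) hπ
    T.ι₁_algebraMap
    (fun _ hf => T.exists_scal₁ hπ hqM hval₁ hval₂ (rank_one_A A π q hπ) hf)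

/-- **the `RedSetup` of `V₂`**: residue field `Fk k M`, value group of `A` -/
def redSetup₂ : RedSetup A (gVal A π ι₂ hval₂) k (modularFunctionFieldFullC k M) :=
  redSetupOf (q := q) ι₂ hval₂
    (fun _ hf => T.gaussRed_mem_Fk₂ hπ hqM hval₁ hval₂ (rank_one_A A π q hπ) hf) hπ
    T.ι₂_algebraMap
    (fun _ hf => T.exists_scal₂ hπ hqM hval₁ hval₂ (rank_one_A A π q hπ) hf)

@[simp] theorem redSetup₁_π : (T.redSetup₁ hπ hqM hval₁ hval₂).π = π := rfl

@[simp] theorem redSetup₂_π : (T.redSetup₂ hπ hqM hval₁ hval₂).π = π := rfl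

theorem coe_redSetup₁_res (f : gVal A π ι₁ hval₁) :
    (((T.redSetup₁ hπ hqM hval₁ hval₂).res f : modularFunctionFieldFullC k M) :
      LaurentSeries k) = gaussRed A π ⟨ι₁ f, f.2⟩ := rfl

theorem coe_redSetup₂_res (f : gVal A π ι₂ hval₂) :
    (((T.redSetup₂ hπ hqM hval₁ hval₂).res f : modularFunctionFieldFullC k M) :
      LaurentSeries k) = gaussRed A π ⟨ι₂ f, f.2⟩ := rfl

/-- the residue map of `V₁` is onto `Fk k M` -/
theorem redSetup₁_res_surjective :
    Function.Surjective (T.redSetup₁ hπ hqM hval₁ hval₂).res := by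
  intro z
  obtain ⟨v, hv⟩ := redV_surjective_Fk A π M q hπ hqM z.2
  refine ⟨⟨a (v : FBar L M), T.ι₁a_mem v.2⟩, Subtype.ext ?_⟩
  rw [coe_redSetup₁_res]
  exact (T.red_ι₁a v.2).trans hv

/-- the residue map of `V₂` is onto `Fk k M` -/
theorem redSetup₂_res_surjective :
    Function.Surjective (T.redSetup₂ hπ hqM hval₁ hval₂).res := by
  intro z
  obtain ⟨v, hv⟩ := redV_surjective_Fk A π M q hπ hqM z.2
  refine ⟨⟨b (v : FBar L M), T.ι₂b_mem v.2⟩, Subtype.ext ?_⟩
  rw [coe_redSetup₂_res]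
  exact (T.red_ι₂b v.2).trans hv

end TwoEmb

end Setting

end Fermat.Agent.S34x.TwoVal.Residue
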