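/-
helper21 (P-S34, WP3-inst): the two reductions of `F_{Mq}` are ONTO `Fk k M`
(independent of helper10's `TwoVal/Residue`): `red_∞ (α h) = h̄`, `red_0 (β h) = h̄` and
`redV : Ov (F_M) → Fk k M` is onto (`GoodRed.redV_surjective_Fk`).

* `redV_surjective`, `red0_surjective` : element form;
* `resInfty_surjective`, `resZero_surjective` : for the residue maps of `Inst/RedSetupInst`;
* `redSetupInfty_res_surjective`, `redSetupZero_res_surjective` : the `hs₁`, `hs₂` inputs of
  `Inst/GaussInstTwo`.
-/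
import Fermat.Agent.S34x.Inst.RedSetupInst

set_option autoImplicit false
set_option linter.style.haveILetI false
set_option linter.unusedSectionVars false

noncomputable section

namespace Fermat.Agent.S34x.TwoVal.ResidueInst

open Polynomial ModularCurve AlgebraicCurve IntermediateField IsLocalRing
open Fermat.Agent.S28 Fermat.Agent.S28.Tower Fermat.Agent.Gateway.Hecke
open Fermat.Agent.Gateway.Red Fermat.Agent.Gateway.GoodRed Fermat.Agent.Gateway.ESC
open Fermat.Agent.S34x.TwoVal Fermat.Agent.S34x.Inst.RedSetupInst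

variable {L : Type} [Field L] [Algebra ℚ L] [IsAlgClosed L] (A : ValuationSubring L)
  {k : Type} [Field k] (π : A →+* k) [IsAlgClosed k]
variable (M q : ℕ) [NeZero M] [Fact q.Prime] [CharP k q]
variable (hdeg : finrankAlong L (heckeAlphaBar L M q) = q + 1) (hq : q.Prime) (hqM : ¬ q ∣ M)

/-! ### Surjectivity of the two reductions onto `Fk k M` (element form) -/

omit [IsAlgClosed L] in
/-- **`red_∞` is onto `Fk k M`**: every `z ∈ Fk k M` is `red_∞ (α h)`. -/
theorem redV_surjective (hπ : Function.Surjective π) (hqM : ¬ q ∣ M)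
    (z : modularFunctionFieldFullC k M) :
    ∃ (f : FL L (M * q)) (hf : f ∈ Ov A π (FL L (M * q))),
      redV A π (FL L (M * q)) ⟨f, hf⟩ = (z : LaurentSeries k) := by
  obtain ⟨h, hh⟩ := redV_surjective_Fk A π M q hπ hqM z.2
  refine ⟨heckeAlphaBar L M q (h : FL L M), (alpha_mem_Ov_iff A π M q (h : FL L M)).mpr h.2, ?_⟩
  rw [← hh]
  exact redV_alpha A π M q (h : FL L M) h.2

/-- **`red_0` is onto `Fk k M`**: every `z ∈ Fk k M` is `red_0 (β h)`. -/
theorem red0_surjective (hπ : Function.Surjective π) (z : modularFunctionFieldFullC k M) :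
    ∃ (f : FL L (M * q)) (hf : f ∈ Ov0 A π M q hdeg hq hqM),
      red0 A π M q hdeg hq hqM ⟨f, hf⟩ = (z : LaurentSeries k) := by
  obtain ⟨h, hh⟩ := redV_surjective_Fk A π M q hπ hqM z.2
  refine ⟨heckeBetaBar L M q (h : FL L M),
    (beta_mem_Ov0_iff A π M q hdeg hq hqM (h : FL L M)).mpr h.2, ?_⟩
  rw [← hh]
  exact red0_beta A π M q hdeg hq hqM (h : FL L M) h.2

/-! ### Surjectivity of the residue maps of `Inst/RedSetupInst` -/

variable {A π M q hdeg hq hqM}
variable {hrk : ∀ x ∈ maximalIdeal A, ∀ c : A, c ≠ 0 → ∃ j : ℕ, c ∣ x ^ j}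
  {hπ : Function.Surjective π}

theorem resInfty_surjective (H : ResidueFacts A π M q hdeg hq hqM hrk hπ) :
    Function.Surjective (resInfty H) := by
  intro z
  obtain ⟨f, hf, hfz⟩ := redV_surjective A π M q hπ hqM z
  exact ⟨⟨f, hf⟩, Subtype.ext hfz⟩

theorem resZero_surjective (H : ResidueFacts A π M q hdeg hq hqM hrk hπ) :
    Function.Surjective (resZero H) := by
  intro z
  obtain ⟨f, hf, hfz⟩ := red0_surjective A π M q hdeg hq hqM hπ z
  exact ⟨⟨f, hf⟩, Subtype.ext hfz⟩

/-- `hs₁` of `Inst/GaussInstTwo`. -/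
theorem redSetupInfty_res_surjective (H : ResidueFacts A π M q hdeg hq hqM hrk hπ)
    (hA : A.LiesOverPrime q) : Function.Surjective (redSetupInfty H hA).res :=
  resInfty_surjective H

/-- `hs₂` of `Inst/GaussInstTwo`. -/
theorem redSetupZero_res_surjective (H : ResidueFacts A π M q hdeg hq hqM hrk hπ)
    (hA : A.LiesOverPrime q) : Function.Surjective (redSetupZero H hA).res :=
  resZero_surjective H

end Fermat.Agent.S34x.TwoVal.ResidueInst
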