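/-
helper21 (P-S34, WP3-inst): the THIN instantiation of helper10's semi-abstract `TwoVal/Residue`
at level `M q`:
`(a, b, ι₁, ι₂) := (heckeAlphaBar L M q, heckeBetaBar L M q, coercion, iota0 L M q hdeg hq hqM)`.

* `twoEmb` : the `Residue.TwoEmb` structure for these data;
* `hvalInfty`, `hvalZero` : the two dichotomies (helper60, `TwoVal/ValZero`);
* `gVal_infty_eq`, `gVal_zero_eq` : `Residue.gVal` at `ι₁`, `ι₂` are `valInfty`, `valZero`;
* `residueFacts` : **`Inst.RedSetupInst.ResidueFacts A π M q hdeg hq hqM hrk hπ`**, the hypothesis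
  structure of helper45's `Inst/RedSetupInst` ((R1)-(R3): both residue fields are `Fk k M`, both
  value groups are that of `A`).  UNCONDITIONAL.
* `hrk_of_isAlgebraic`, `liesOverPrime`, `residueFacts'` : the same with `hrk` discharged from
  `Algebra.IsAlgebraic ℚ L`, and `A.LiesOverPrime q`.
-/
import Fermat.Agent.S34x.TwoVal.Residue
import Fermat.Agent.S34x.TwoVal.ResidueSurj

set_option autoImplicit false
set_option linter.style.haveILetI false
set_option linter.unusedSectionVars false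

noncomputable section

namespace Fermat.Agent.S34x.TwoVal.ResidueInst

open Polynomial ModularCurve AlgebraicCurve IntermediateField IsLocalRing
open Fermat.Agent.S28 Fermat.Agent.S28.Tower Fermat.Agent.Gateway.Hecke
open Fermat.Agent.Gateway.Red Fermat.Agent.Gateway.GoodRed Fermat.Agent.Gateway.ESC
open Fermat.Agent.S34x.TwoVal Fermat.Agent.S34x.Inst.RedSetupInst

variable {L : Type} [Field L] [Algebra ℚ L] [IsAlgClosed L] (A : ValuationSubring L)
  {k : Type} [Field k] (π : A →+* k) [IsAlgClosed k]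
variable (M q : ℕ) [NeZero M] [Fact q.Prime] [CharP k q]
variable (hdeg : finrankAlong L (heckeAlphaBar L M q) = q + 1) (hq : q.Prime) (hqM : ¬ q ∣ M)

/-! ### The fields of `TwoEmb` -/

omit [IsAlgClosed L] in
theorem emb_ι₁a (v : FBar L M) :
    algebraMap (FL L (M * q)) (LaurentSeries L) (heckeAlphaBar L M q v) = (v : LaurentSeries L) :=
  coe_heckeAlphaBar M q v

omit [IsAlgClosed L] in
theorem emb_ι₁b (v : FBar L M) :
    algebraMap (FL L (M * q)) (LaurentSeries L) (heckeBetaBar L M q v) =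
      qExpand L q (v : LaurentSeries L) :=
  coe_heckeBetaBar M q v

theorem emb_ι₂a (v : FBar L M) :
    iota0 L M q hdeg hq hqM (heckeAlphaBar L M q v) = qExpand L q (v : LaurentSeries L) :=
  iota0_alpha hdeg hq hqM v

theorem emb_ι₂b (v : FBar L M) :
    iota0 L M q hdeg hq hqM (heckeBetaBar L M q v) = (v : LaurentSeries L) :=
  iota0_beta hdeg hq hqM v

omit [IsAlgClosed L] in
theorem emb_finite : letI := (heckeAlphaBar L M q).toRingHom.toAlgebra
    FiniteDimensional (FBar L M) (FL L (M * q)) := finiteAlong_alpha L M q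

omit [IsAlgClosed L] in
include hdeg in
theorem emb_finrank_le : letI := (heckeAlphaBar L M q).toRingHom.toAlgebra
    Module.finrank (FBar L M) (FL L (M * q)) ≤ q + 1 := le_of_eq hdeg

omit [IsAlgClosed L] in
theorem emb_refl (hπ : Function.Surjective π) (hqM : ¬ q ∣ M) (c : FBar L M)
    (hc : qExpand L q (c : LaurentSeries L) ∈ gaussRing A π) : c ∈ Ov A π (FBar L M) :=
  mem_Ov_of_qExpand_mem A π q M hπ hqM q c hc

/-- **the `TwoEmb` structure at level `M q`**:
`(a, b, ι₁, ι₂) = (α, β, tautological embedding, ι₀)`. -/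
theorem twoEmb (hπ : Function.Surjective π) :
    Residue.TwoEmb A π q M (heckeAlphaBar L M q) (heckeBetaBar L M q)
      (algebraMap (FL L (M * q)) (LaurentSeries L)) (iota0 L M q hdeg hq hqM) := by
  refine ⟨?_, ?_, ?_, ?_, ?_, ?_, ?_⟩
  · exact emb_ι₁a M q
  · exact emb_ι₁b M q
  · exact emb_ι₂a M q hdeg hq hqM
  · exact emb_ι₂b M q hdeg hq hqM
  · exact emb_finite M q
  · exact emb_finrank_le M q hdeg
  · exact emb_refl A π M q hπ hqM

/-! ### The two dichotomies and the comparison of valuation rings -/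

omit [IsAlgClosed L] in
/-- the dichotomy for the tautological embedding -/
theorem hvalInfty (hrk : ∀ x ∈ maximalIdeal A, ∀ c : A, c ≠ 0 → ∃ j : ℕ, c ∣ x ^ j)
    (hπ : Function.Surjective π) (hqM : ¬ q ∣ M) (f : FL L (M * q)) :
    f ∈ Residue.gSub A π (algebraMap (FL L (M * q)) (LaurentSeries L)) ∨
      f⁻¹ ∈ Residue.gSub A π (algebraMap (FL L (M * q)) (LaurentSeries L)) :=
  Ov_mem_or_inv_mem A π M q hrk hπ hqM f

/-- the dichotomy for the second embedding -/
theorem hvalZero (hrk : ∀ x ∈ maximalIdeal A, ∀ c : A, c ≠ 0 → ∃ j : ℕ, c ∣ x ^ j)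
    (hπ : Function.Surjective π) (f : FL L (M * q)) :
    f ∈ Residue.gSub A π (iota0 L M q hdeg hq hqM) ∨
      f⁻¹ ∈ Residue.gSub A π (iota0 L M q hdeg hq hqM) :=
  Ov0_mem_or_inv_mem A π M q hdeg hq hqM hrk hπ f

omit [IsAlgClosed L] in
/-- `Residue.gVal` at the tautological embedding is `valInfty`. -/
theorem gVal_infty_eq (hrk : ∀ x ∈ maximalIdeal A, ∀ c : A, c ≠ 0 → ∃ j : ℕ, c ∣ x ^ j)
    (hπ : Function.Surjective π) (hqM : ¬ q ∣ M) :
    Residue.gVal A π (algebraMap (FL L (M * q)) (LaurentSeries L))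
      (hvalInfty A π M q hrk hπ hqM) = valInfty A π M q hrk hπ hqM :=
  ValuationSubring.ext _ _ fun _ => Iff.rfl

/-- `Residue.gVal` at the second embedding is `valZero`. -/
theorem gVal_zero_eq (hrk : ∀ x ∈ maximalIdeal A, ∀ c : A, c ≠ 0 → ∃ j : ℕ, c ∣ x ^ j)
    (hπ : Function.Surjective π) :
    Residue.gVal A π (iota0 L M q hdeg hq hqM) (hvalZero A π M q hdeg hq hqM hrk hπ) =
      valZero A π M q hdeg hq hqM hrk hπ :=
  ValuationSubring.ext _ _ fun _ => Iff.rfl

/-! ### `ResidueFacts` -/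

/-- **(R1)-(R3) at level `M q`**: the hypothesis structure of `Inst/RedSetupInst`. -/
theorem residueFacts (hrk : ∀ x ∈ maximalIdeal A, ∀ c : A, c ≠ 0 → ∃ j : ℕ, c ∣ x ^ j)
    (hπ : Function.Surjective π) :
    ResidueFacts A π M q hdeg hq hqM hrk hπ where
  redV_mem f hf :=
    (twoEmb A π M q hdeg hq hqM hπ).gaussRed_mem_Fk₁ hπ hqM (hvalInfty A π M q hrk hπ hqM)
      (hvalZero A π M q hdeg hq hqM hrk hπ) hrk hf
  red0_mem f hf :=
    (twoEmb A π M q hdeg hq hqM hπ).gaussRed_mem_Fk₂ hπ hqM (hvalInfty A π M q hrk hπ hqM)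
      (hvalZero A π M q hdeg hq hqM hrk hπ) hrk hf
  scalV f hf := by
    obtain ⟨c, hc, h⟩ := (twoEmb A π M q hdeg hq hqM hπ).exists_scal₁ hπ hqM
      (hvalInfty A π M q hrk hπ hqM) (hvalZero A π M q hdeg hq hqM hrk hπ) hrk hf
    rw [gVal_infty_eq A π M q hrk hπ hqM] at h
    exact ⟨c, hc, h⟩
  scal0 f hf := by
    obtain ⟨c, hc, h⟩ := (twoEmb A π M q hdeg hq hqM hπ).exists_scal₂ hπ hqM
      (hvalInfty A π M q hrk hπ hqM) (hvalZero A π M q hdeg hq hqM hrk hπ) hrk hf
    rw [gVal_zero_eq A π M q hdeg hq hqM hrk hπ] at h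
    exact ⟨c, hc, h⟩

omit [IsAlgClosed L] in
include q in
/-- the rank-one hypothesis for `A` when `L / ℚ` is algebraic (`A` lies over `q` since
`char k = q`). -/
theorem hrk_of_isAlgebraic [Algebra.IsAlgebraic ℚ L] (hπ : Function.Surjective π) :
    ∀ x ∈ maximalIdeal A, ∀ c : A, c ≠ 0 → ∃ j : ℕ, c ∣ x ^ j :=
  Residue.rank_one_A A π q hπ

omit [IsAlgClosed L] in
/-- `A` lies over `q` (`char k = q`, `π` onto). -/
theorem liesOverPrime (hπ : Function.Surjective π) : A.LiesOverPrime q := by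
  rw [ValuationSubring.LiesOverPrime, ValuationSubring.mem_nonunits_iff]
  exact (A.valuation_lt_one_iff ⟨(q : L), Residue.natCast_mem_A A q⟩).mp
    (Residue.q_mem_maximalIdeal A π q hπ)

/-- **(R1)-(R3) at level `M q`** for `L / ℚ` algebraic, rank one discharged. -/
theorem residueFacts' [Algebra.IsAlgebraic ℚ L] (hπ : Function.Surjective π) :
    ResidueFacts A π M q hdeg hq hqM (hrk_of_isAlgebraic A π q hπ) hπ :=
  residueFacts A π M q hdeg hq hqM (hrk_of_isAlgebraic A π q hπ) hπ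

end Fermat.Agent.S34x.TwoVal.ResidueInst
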