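/-
helper44 (P-S34): functions with INTEGER `q`-expansion (e.g. the Hauptmoduln `x4`, `y9 - 3`).

For `z : ℤ((t))` and `h ∈ F_N` with `h = z` (coefficients mapped to `L`):
* `h` lies in the Gauss ring and `h̄ = z̄` (coefficients mapped to `k`);
* `Fc⁻¹ z̄ = z̄`, hence `z̄(t^ℓ) = z̄^ℓ` in characteristic `ℓ`;
* (K1) becomes `red_∞ (α h) = z̄`, `red_∞ (β h) = z̄^ℓ`, `red_0 (β h) = z̄`, `red_0 (α h) = z̄^ℓ`;
* **(Y4)**: for `z̄ ≠ 0` the element `y := (α h)^ℓ / β h` and its inverse lie in `Ov_∞ ∩ Ov0`, with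
  `(red_∞ y, red_0 y) = (1, z̄^(ℓ²-1))`, `(red_∞ y⁻¹, red_0 y⁻¹) = (1, (z̄⁻¹)^(ℓ²-1))`.
-/
import Fermat.Agent.S34x.TwoVal.Gauss0

set_option autoImplicit false
set_option linter.style.haveILetI false
set_option linter.unusedSectionVars false

noncomputable section

namespace Fermat.Agent.S34x.TwoVal

open Polynomial ModularCurve AlgebraicCurve IntermediateField
open Fermat.Agent.Gateway.Hecke Fermat.Agent.Gateway.ESC
open Fermat.Agent.Gateway.Red Fermat.Agent.Gateway.GoodRed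

/-! ### Integer series in the Gauss ring -/

section IntSeries

variable {L : Type*} [Field L] (A : ValuationSubring L) {k : Type*} [Field k] (π : A →+* k)

theorem embA_coeffMap_int (z : LaurentSeries ℤ) :
    embA A (coeffMap (Int.castRingHom A) z) = coeffMap (Int.castRingHom L) z := by
  rw [embA, coeffMap_coeffMap]
  exact coeffMap_congr (RingHom.ext_int _ _) z

theorem redA_coeffMap_int (z : LaurentSeries ℤ) :
    redA A π (coeffMap (Int.castRingHom A) z) = coeffMap (Int.castRingHom k) z := by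
  rw [redA, coeffMap_coeffMap]
  exact coeffMap_congr (RingHom.ext_int _ _) z

theorem coeffMap_int_mem_gaussRing (z : LaurentSeries ℤ) :
    coeffMap (Int.castRingHom L) z ∈ gaussRing A π := by
  rw [← embA_coeffMap_int A]
  exact embA_mem_gaussRing A π _

theorem gaussRed_coeffMap_int (z : LaurentSeries ℤ)
    (h : coeffMap (Int.castRingHom L) z ∈ gaussRing A π) :
    gaussRed A π ⟨coeffMap (Int.castRingHom L) z, h⟩ = coeffMap (Int.castRingHom k) z := by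
  rw [gaussRed_of_eq_embA A π _ (a := coeffMap (Int.castRingHom A) z)
    (embA_coeffMap_int A z).symm, redA_coeffMap_int]

end IntSeries

section FrobInt

variable {k : Type*} [Field k] (ℓ : ℕ) [Fact ℓ.Prime] [CharP k ℓ] [PerfectRing k ℓ]

/-- integer series are fixed by the coefficientwise Frobenius -/
theorem frobInvLS_coeffMap_int (z : LaurentSeries ℤ) :
    frobInvLS ℓ (coeffMap (Int.castRingHom k) z) = coeffMap (Int.castRingHom k) z := by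
  rw [frobInvLS, coeffMap_coeffMap]
  exact coeffMap_congr (RingHom.ext_int _ _) z

/-- `z̄(t^ℓ) = z̄^ℓ` for integer series in characteristic `ℓ` -/
theorem qExpand_coeffMap_int (z : LaurentSeries ℤ) :
    haveI : NeZero ℓ := ⟨(Fact.out : ℓ.Prime).ne_zero⟩
    qExpand k ℓ (coeffMap (Int.castRingHom k) z) = (coeffMap (Int.castRingHom k) z) ^ ℓ := by
  haveI : NeZero ℓ := ⟨(Fact.out : ℓ.Prime).ne_zero⟩
  rw [qExpand_eq_frobInvLS_pow ℓ, frobInvLS_coeffMap_int]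

end FrobInt

/-! ### Inverses in `Ov` -/

section Inv

variable {L : Type*} [Field L] (A : ValuationSubring L) {k : Type*} [Field k] (π : A →+* k)
  (F : IntermediateField L (LaurentSeries L))

theorem redV_inv {x : F} (hx : x ∈ Ov A π F) (hx' : x⁻¹ ∈ Ov A π F) :
    redV A π F ⟨x⁻¹, hx'⟩ = (redV A π F ⟨x, hx⟩)⁻¹ := by
  by_cases hx0 : x = 0
  · subst hx0
    have h0 : (⟨(0 : F)⁻¹, hx'⟩ : Ov A π F) = 0 := Subtype.ext inv_zero
    have h1 : (⟨(0 : F), hx⟩ : Ov A π F) = 0 := rfl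
    rw [h0, h1, map_zero, inv_zero]
  · have h1 : (⟨x⁻¹, hx'⟩ : Ov A π F) * ⟨x, hx⟩ = 1 := Subtype.ext (inv_mul_cancel₀ hx0)
    have h2 := congrArg (redV A π F) h1
    rw [map_mul, map_one] at h2
    exact eq_inv_of_mul_eq_one_left h2

end Inv

/-! ### Functions with integer expansion and the element `y` -/

section Main

variable {L : Type} [Field L] [Algebra ℚ L] [IsAlgClosed L] (A : ValuationSubring L)
  {k : Type} [Field k] (π : A →+* k)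
variable (N ℓ : ℕ) [NeZero N] [NeZero ℓ] [Fact ℓ.Prime] [CharP k ℓ] [PerfectRing k ℓ]
variable (hdeg : finrankAlong L (heckeAlphaBar L N ℓ) = ℓ + 1) (hℓ : ℓ.Prime) (hℓN : ¬ ℓ ∣ N)
variable (h : FL L N) (z : LaurentSeries ℤ)

theorem mem_Ov_of_int (hz : (h : LaurentSeries L) = coeffMap (Int.castRingHom L) z) :
    h ∈ Ov A π (FBar L N) := by
  rw [mem_Ov_iff]
  show (h : LaurentSeries L) ∈ gaussRing A π
  rw [hz]
  exact coeffMap_int_mem_gaussRing A π z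

theorem redV_of_int (hz : (h : LaurentSeries L) = coeffMap (Int.castRingHom L) z) :
    redV A π (FBar L N) ⟨h, mem_Ov_of_int A π N h z hz⟩ = coeffMap (Int.castRingHom k) z := by
  rw [redV_apply]
  refine Eq.trans ?_ (gaussRed_coeffMap_int A π z (coeffMap_int_mem_gaussRing A π z))
  exact gaussRed_congr A π hz _ _

/-- `red_∞ (α h) = z̄` -/
theorem redV_alpha_of_int (hz : (h : LaurentSeries L) = coeffMap (Int.castRingHom L) z) :
    redV A π (FBar L (N * ℓ)) ⟨heckeAlphaBar L N ℓ h,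
      (alpha_mem_Ov_iff A π N ℓ h).mpr (mem_Ov_of_int A π N h z hz)⟩ =
      coeffMap (Int.castRingHom k) z := by
  rw [redV_alpha A π N ℓ h (mem_Ov_of_int A π N h z hz), redV_of_int A π N h z hz]

/-- `red_∞ (β h) = z̄^ℓ` -/
theorem redV_beta_of_int (hz : (h : LaurentSeries L) = coeffMap (Int.castRingHom L) z) :
    redV A π (FBar L (N * ℓ)) ⟨heckeBetaBar L N ℓ h,
      beta_mem_Ov A π N ℓ h (mem_Ov_of_int A π N h z hz)⟩ =
      (coeffMap (Int.castRingHom k) z) ^ ℓ := by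
  rw [redV_beta A π N ℓ h (mem_Ov_of_int A π N h z hz), redV_of_int A π N h z hz,
    qExpand_coeffMap_int ℓ]

/-- `red_0 (β h) = z̄` -/
theorem red0_beta_of_int (hz : (h : LaurentSeries L) = coeffMap (Int.castRingHom L) z) :
    red0 A π N ℓ hdeg hℓ hℓN ⟨heckeBetaBar L N ℓ h,
      (beta_mem_Ov0_iff A π N ℓ hdeg hℓ hℓN h).mpr (mem_Ov_of_int A π N h z hz)⟩ =
      coeffMap (Int.castRingHom k) z := by
  rw [red0_beta A π N ℓ hdeg hℓ hℓN h (mem_Ov_of_int A π N h z hz), redV_of_int A π N h z hz]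

/-- `red_0 (α h) = z̄^ℓ` -/
theorem red0_alpha_of_int (hz : (h : LaurentSeries L) = coeffMap (Int.castRingHom L) z) :
    red0 A π N ℓ hdeg hℓ hℓN ⟨heckeAlphaBar L N ℓ h,
      alpha_mem_Ov0 A π N ℓ hdeg hℓ hℓN h (mem_Ov_of_int A π N h z hz)⟩ =
      (coeffMap (Int.castRingHom k) z) ^ ℓ := by
  rw [red0_alpha A π N ℓ hdeg hℓ hℓN h (mem_Ov_of_int A π N h z hz), redV_of_int A π N h z hz,
    qExpand_coeffMap_int ℓ]

/-- the element `y = (α h)^ℓ / β h` -/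
def elementY : FL L (N * ℓ) := (heckeAlphaBar L N ℓ h) ^ ℓ * (heckeBetaBar L N ℓ h)⁻¹

theorem elementY_inv :
    (elementY N ℓ h)⁻¹ = heckeBetaBar L N ℓ h * ((heckeAlphaBar L N ℓ h)⁻¹) ^ ℓ := by
  rw [elementY, mul_inv, inv_inv, inv_pow]
  exact mul_comm _ _

variable (hz : (h : LaurentSeries L) = coeffMap (Int.castRingHom L) z)
  (hzb : coeffMap (Int.castRingHom k) z ≠ 0)

include hz hzb

theorem beta_inv_mem_Ov : (heckeBetaBar L N ℓ h)⁻¹ ∈ Ov A π (FBar L (N * ℓ)) := by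
  apply inv_mem_Ov A π (FBar L (N * ℓ)) (beta_mem_Ov A π N ℓ h (mem_Ov_of_int A π N h z hz))
  rw [redV_beta_of_int A π N ℓ h z hz]
  exact pow_ne_zero _ hzb

theorem alpha_inv_mem_Ov : (heckeAlphaBar L N ℓ h)⁻¹ ∈ Ov A π (FBar L (N * ℓ)) := by
  apply inv_mem_Ov A π (FBar L (N * ℓ))
    ((alpha_mem_Ov_iff A π N ℓ h).mpr (mem_Ov_of_int A π N h z hz))
  rw [redV_alpha_of_int A π N ℓ h z hz]
  exact hzb

theorem beta_inv_mem_Ov0 : (heckeBetaBar L N ℓ h)⁻¹ ∈ Ov0 A π N ℓ hdeg hℓ hℓN := by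
  apply inv_mem_Ov0 A π N ℓ hdeg hℓ hℓN
    ((beta_mem_Ov0_iff A π N ℓ hdeg hℓ hℓN h).mpr (mem_Ov_of_int A π N h z hz))
  rw [red0_beta_of_int A π N ℓ hdeg hℓ hℓN h z hz]
  exact hzb

theorem alpha_inv_mem_Ov0 : (heckeAlphaBar L N ℓ h)⁻¹ ∈ Ov0 A π N ℓ hdeg hℓ hℓN := by
  apply inv_mem_Ov0 A π N ℓ hdeg hℓ hℓN
    (alpha_mem_Ov0 A π N ℓ hdeg hℓ hℓN h (mem_Ov_of_int A π N h z hz))
  rw [red0_alpha_of_int A π N ℓ hdeg hℓ hℓN h z hz]
  exact pow_ne_zero _ hzb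

theorem elementY_mem_Ov : elementY N ℓ h ∈ Ov A π (FBar L (N * ℓ)) :=
  mul_mem (pow_mem ((alpha_mem_Ov_iff A π N ℓ h).mpr (mem_Ov_of_int A π N h z hz)) ℓ)
    (beta_inv_mem_Ov A π N ℓ h z hz hzb)

theorem elementY_mem_Ov0 : elementY N ℓ h ∈ Ov0 A π N ℓ hdeg hℓ hℓN :=
  mul_mem (pow_mem (alpha_mem_Ov0 A π N ℓ hdeg hℓ hℓN h (mem_Ov_of_int A π N h z hz)) ℓ)
    (beta_inv_mem_Ov0 A π N ℓ hdeg hℓ hℓN h z hz hzb)

theorem elementY_inv_mem_Ov : (elementY N ℓ h)⁻¹ ∈ Ov A π (FBar L (N * ℓ)) := by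
  rw [elementY_inv]
  exact mul_mem (beta_mem_Ov A π N ℓ h (mem_Ov_of_int A π N h z hz))
    (pow_mem (alpha_inv_mem_Ov A π N ℓ h z hz hzb) ℓ)

theorem elementY_inv_mem_Ov0 : (elementY N ℓ h)⁻¹ ∈ Ov0 A π N ℓ hdeg hℓ hℓN := by
  rw [elementY_inv]
  exact mul_mem ((beta_mem_Ov0_iff A π N ℓ hdeg hℓ hℓN h).mpr (mem_Ov_of_int A π N h z hz))
    (pow_mem (alpha_inv_mem_Ov0 A π N ℓ hdeg hℓ hℓN h z hz hzb) ℓ)

/-- **(Y4)**: `red_∞ y = 1` -/
theorem redV_elementY :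
    redV A π (FBar L (N * ℓ)) ⟨elementY N ℓ h, elementY_mem_Ov A π N ℓ h z hz hzb⟩ = 1 := by
  have h1 : (⟨elementY N ℓ h, elementY_mem_Ov A π N ℓ h z hz hzb⟩ : Ov A π (FBar L (N * ℓ))) =
      ⟨heckeAlphaBar L N ℓ h,
        (alpha_mem_Ov_iff A π N ℓ h).mpr (mem_Ov_of_int A π N h z hz)⟩ ^ ℓ *
      ⟨(heckeBetaBar L N ℓ h)⁻¹, beta_inv_mem_Ov A π N ℓ h z hz hzb⟩ := rfl
  rw [h1, map_mul, map_pow, redV_alpha_of_int A π N ℓ h z hz,
    redV_inv A π (FBar L (N * ℓ)) (beta_mem_Ov A π N ℓ h (mem_Ov_of_int A π N h z hz)),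
    redV_beta_of_int A π N ℓ h z hz, mul_inv_cancel₀ (pow_ne_zero _ hzb)]

/-- **(Y4)**: `red_0 y = z̄^(ℓ² - 1)` -/
theorem red0_elementY :
    red0 A π N ℓ hdeg hℓ hℓN
        ⟨elementY N ℓ h, elementY_mem_Ov0 A π N ℓ hdeg hℓ hℓN h z hz hzb⟩ =
      (coeffMap (Int.castRingHom k) z) ^ (ℓ * ℓ - 1) := by
  have h1 : (⟨elementY N ℓ h, elementY_mem_Ov0 A π N ℓ hdeg hℓ hℓN h z hz hzb⟩ :
      Ov0 A π N ℓ hdeg hℓ hℓN) =
      ⟨heckeAlphaBar L N ℓ h,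
        alpha_mem_Ov0 A π N ℓ hdeg hℓ hℓN h (mem_Ov_of_int A π N h z hz)⟩ ^ ℓ *
      ⟨(heckeBetaBar L N ℓ h)⁻¹, beta_inv_mem_Ov0 A π N ℓ hdeg hℓ hℓN h z hz hzb⟩ := rfl
  have hℓ1 : 1 ≤ ℓ * ℓ := Nat.mul_pos hℓ.pos hℓ.pos
  rw [h1, map_mul, map_pow, red0_alpha_of_int A π N ℓ hdeg hℓ hℓN h z hz,
    red0_inv A π N ℓ hdeg hℓ hℓN
      ((beta_mem_Ov0_iff A π N ℓ hdeg hℓ hℓN h).mpr (mem_Ov_of_int A π N h z hz)),
    red0_beta_of_int A π N ℓ hdeg hℓ hℓN h z hz, ← pow_mul, pow_sub₀ _ hzb hℓ1, pow_one]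

/-- **(Y4)**: `red_∞ y⁻¹ = 1` -/
theorem redV_elementY_inv :
    redV A π (FBar L (N * ℓ)) ⟨(elementY N ℓ h)⁻¹, elementY_inv_mem_Ov A π N ℓ h z hz hzb⟩ =
      1 := by
  rw [redV_inv A π (FBar L (N * ℓ)) (elementY_mem_Ov A π N ℓ h z hz hzb),
    redV_elementY A π N ℓ h z hz hzb, inv_one]

/-- **(Y4)**: `red_0 y⁻¹ = (z̄⁻¹)^(ℓ² - 1)` -/
theorem red0_elementY_inv :
    red0 A π N ℓ hdeg hℓ hℓN
        ⟨(elementY N ℓ h)⁻¹, elementY_inv_mem_Ov0 A π N ℓ hdeg hℓ hℓN h z hz hzb⟩ =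
      ((coeffMap (Int.castRingHom k) z)⁻¹) ^ (ℓ * ℓ - 1) := by
  rw [red0_inv A π N ℓ hdeg hℓ hℓN (elementY_mem_Ov0 A π N ℓ hdeg hℓ hℓN h z hz hzb),
    red0_elementY A π N ℓ hdeg hℓ hℓN h z hz hzb, inv_pow]

end Main

end Fermat.Agent.S34x.TwoVal
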