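/-
helper44 (P-S34, idea (N1) at the Gauss-ring level): the elements
  `F := β h - (α h')^ℓ`,  `G := α h - (β h')^ℓ`   of `F_{Nℓ}`,
for `h, h'` in the Gauss ring of `F_N` with `h̄' = Fc⁻¹ h̄` (`Fc` the coefficientwise Frobenius,
`ℓ` the residue characteristic, `ℓ ∤ N`).  By the Kronecker relations (K1) of `Gauss0`:
  `red_∞ F = 0`,  `red_0 F = h̄ - (Fc⁻² h̄)^(ℓ²)`,
  `red_0 G = 0`,  `red_∞ G = h̄ - (Fc⁻² h̄)^(ℓ²)`.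
Hence in the gluing ring of the two components every element is an `ℓ²`-th power.
Such an `h'` always exists (`exists_frobInv_lift`).
-/
import Fermat.Agent.S34x.TwoVal.Gauss0

set_option autoImplicit false
set_option linter.style.haveILetI false
set_option linter.unusedSectionVars false

noncomputable section

namespace Fermat.Agent.S34x.TwoVal

open Polynomial ModularCurve AlgebraicCurve IntermediateField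
open Fermat.Agent.Gateway.Hecke Fermat.Agent.Gateway.ESC
open Fermat.Agent.Gateway.Red Fermat.Agent.Gateway.GoodRed

section Defs

variable (L : Type) [Field L] [Algebra ℚ L] (N ℓ : ℕ) [NeZero N] [NeZero ℓ]

/-- `F := β h - (α h')^ℓ` -/
def nodeEltInf (h h' : FL L N) : FL L (N * ℓ) :=
  heckeBetaBar L N ℓ h - (heckeAlphaBar L N ℓ h') ^ ℓ

/-- `G := α h - (β h')^ℓ` -/
def nodeEltZero (h h' : FL L N) : FL L (N * ℓ) :=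
  heckeAlphaBar L N ℓ h - (heckeBetaBar L N ℓ h') ^ ℓ

end Defs

section Lift

variable {L : Type} [Field L] [Algebra ℚ L] (A : ValuationSubring L)
  {k : Type} [Field k] (π : A →+* k) [IsAlgClosed k]
variable (N ℓ : ℕ) [NeZero N] [Fact ℓ.Prime] [CharP k ℓ]

/-- every `h` in the Gauss ring of `F_N` has a partner `h'` with `h̄' = Fc⁻¹ h̄` -/
theorem exists_frobInv_lift (hπ : Function.Surjective π) (hℓN : ¬ ℓ ∣ N)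
    (h : FL L N) (hh : h ∈ Ov A π (FBar L N)) :
    ∃ (h' : FL L N) (hh' : h' ∈ Ov A π (FBar L N)),
      redV A π (FBar L N) ⟨h', hh'⟩ = frobInvLS ℓ (redV A π (FBar L N) ⟨h, hh⟩) := by
  have h1 := redV_mem_Fk A π N ℓ hπ hℓN ⟨h, hh⟩
  have h2 := frobInvLS_eq_frobC_inv ℓ N
    (⟨redV A π (FBar L N) ⟨h, hh⟩, h1⟩ : modularFunctionFieldFullC k N)
  have h3 : frobInvLS ℓ (redV A π (FBar L N) ⟨h, hh⟩) ∈ modularFunctionFieldFullC k N := by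
    rw [h2]
    exact SetLike.coe_mem _
  obtain ⟨f, hf⟩ := redV_surjective_Fk A π N ℓ hπ hℓN h3
  exact ⟨(f : FBar L N), f.2, hf⟩

end Lift

section Main

variable {L : Type} [Field L] [Algebra ℚ L] [IsAlgClosed L] (A : ValuationSubring L)
  {k : Type} [Field k] (π : A →+* k)
variable (N ℓ : ℕ) [NeZero N] [NeZero ℓ]
variable (hdeg : finrankAlong L (heckeAlphaBar L N ℓ) = ℓ + 1) (hℓ : ℓ.Prime) (hℓN : ¬ ℓ ∣ N)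
variable (h h' : FL L N)

theorem nodeEltInf_mem_Ov (hh : h ∈ Ov A π (FBar L N)) (hh' : h' ∈ Ov A π (FBar L N)) :
    nodeEltInf L N ℓ h h' ∈ Ov A π (FBar L (N * ℓ)) :=
  sub_mem (beta_mem_Ov A π N ℓ h hh) (pow_mem ((alpha_mem_Ov_iff A π N ℓ h').mpr hh') ℓ)

theorem nodeEltZero_mem_Ov (hh : h ∈ Ov A π (FBar L N)) (hh' : h' ∈ Ov A π (FBar L N)) :
    nodeEltZero L N ℓ h h' ∈ Ov A π (FBar L (N * ℓ)) :=
  sub_mem ((alpha_mem_Ov_iff A π N ℓ h).mpr hh) (pow_mem (beta_mem_Ov A π N ℓ h' hh') ℓ)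

theorem nodeEltInf_mem_Ov0 (hh : h ∈ Ov A π (FBar L N)) (hh' : h' ∈ Ov A π (FBar L N)) :
    nodeEltInf L N ℓ h h' ∈ Ov0 A π N ℓ hdeg hℓ hℓN :=
  sub_mem ((beta_mem_Ov0_iff A π N ℓ hdeg hℓ hℓN h).mpr hh)
    (pow_mem (alpha_mem_Ov0 A π N ℓ hdeg hℓ hℓN h' hh') ℓ)

theorem nodeEltZero_mem_Ov0 (hh : h ∈ Ov A π (FBar L N)) (hh' : h' ∈ Ov A π (FBar L N)) :
    nodeEltZero L N ℓ h h' ∈ Ov0 A π N ℓ hdeg hℓ hℓN :=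
  sub_mem (alpha_mem_Ov0 A π N ℓ hdeg hℓ hℓN h hh)
    (pow_mem ((beta_mem_Ov0_iff A π N ℓ hdeg hℓ hℓN h').mpr hh') ℓ)

/-- `red_∞ (β h - (α h')^ℓ) = h̄(t^ℓ) - h̄'^ℓ` -/
theorem redV_nodeEltInf (hh : h ∈ Ov A π (FBar L N)) (hh' : h' ∈ Ov A π (FBar L N)) :
    redV A π (FBar L (N * ℓ)) ⟨nodeEltInf L N ℓ h h', nodeEltInf_mem_Ov A π N ℓ h h' hh hh'⟩ =
      qExpand k ℓ (redV A π (FBar L N) ⟨h, hh⟩) - (redV A π (FBar L N) ⟨h', hh'⟩) ^ ℓ := by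
  have h1 : (⟨nodeEltInf L N ℓ h h', nodeEltInf_mem_Ov A π N ℓ h h' hh hh'⟩ :
      Ov A π (FBar L (N * ℓ))) =
      ⟨heckeBetaBar L N ℓ h, beta_mem_Ov A π N ℓ h hh⟩ -
        ⟨heckeAlphaBar L N ℓ h', (alpha_mem_Ov_iff A π N ℓ h').mpr hh'⟩ ^ ℓ := rfl
  rw [h1, map_sub, map_pow, redV_beta, redV_alpha]

/-- `red_∞ (α h - (β h')^ℓ) = h̄ - h̄'(t^ℓ)^ℓ` -/
theorem redV_nodeEltZero (hh : h ∈ Ov A π (FBar L N)) (hh' : h' ∈ Ov A π (FBar L N)) :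
    redV A π (FBar L (N * ℓ)) ⟨nodeEltZero L N ℓ h h', nodeEltZero_mem_Ov A π N ℓ h h' hh hh'⟩ =
      redV A π (FBar L N) ⟨h, hh⟩ - (qExpand k ℓ (redV A π (FBar L N) ⟨h', hh'⟩)) ^ ℓ := by
  have h1 : (⟨nodeEltZero L N ℓ h h', nodeEltZero_mem_Ov A π N ℓ h h' hh hh'⟩ :
      Ov A π (FBar L (N * ℓ))) =
      ⟨heckeAlphaBar L N ℓ h, (alpha_mem_Ov_iff A π N ℓ h).mpr hh⟩ -
        ⟨heckeBetaBar L N ℓ h', beta_mem_Ov A π N ℓ h' hh'⟩ ^ ℓ := rfl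
  rw [h1, map_sub, map_pow, redV_beta, redV_alpha]

/-- `red_0 (β h - (α h')^ℓ) = h̄ - h̄'(s^ℓ)^ℓ` -/
theorem red0_nodeEltInf (hh : h ∈ Ov A π (FBar L N)) (hh' : h' ∈ Ov A π (FBar L N)) :
    red0 A π N ℓ hdeg hℓ hℓN
        ⟨nodeEltInf L N ℓ h h', nodeEltInf_mem_Ov0 A π N ℓ hdeg hℓ hℓN h h' hh hh'⟩ =
      redV A π (FBar L N) ⟨h, hh⟩ - (qExpand k ℓ (redV A π (FBar L N) ⟨h', hh'⟩)) ^ ℓ := by
  have h1 : (⟨nodeEltInf L N ℓ h h', nodeEltInf_mem_Ov0 A π N ℓ hdeg hℓ hℓN h h' hh hh'⟩ :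
      Ov0 A π N ℓ hdeg hℓ hℓN) =
      ⟨heckeBetaBar L N ℓ h, (beta_mem_Ov0_iff A π N ℓ hdeg hℓ hℓN h).mpr hh⟩ -
        ⟨heckeAlphaBar L N ℓ h', alpha_mem_Ov0 A π N ℓ hdeg hℓ hℓN h' hh'⟩ ^ ℓ := rfl
  rw [h1, map_sub, map_pow, red0_beta, red0_alpha]

/-- `red_0 (α h - (β h')^ℓ) = h̄(s^ℓ) - h̄'^ℓ` -/
theorem red0_nodeEltZero (hh : h ∈ Ov A π (FBar L N)) (hh' : h' ∈ Ov A π (FBar L N)) :
    red0 A π N ℓ hdeg hℓ hℓN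
        ⟨nodeEltZero L N ℓ h h', nodeEltZero_mem_Ov0 A π N ℓ hdeg hℓ hℓN h h' hh hh'⟩ =
      qExpand k ℓ (redV A π (FBar L N) ⟨h, hh⟩) - (redV A π (FBar L N) ⟨h', hh'⟩) ^ ℓ := by
  have h1 : (⟨nodeEltZero L N ℓ h h', nodeEltZero_mem_Ov0 A π N ℓ hdeg hℓ hℓN h h' hh hh'⟩ :
      Ov0 A π N ℓ hdeg hℓ hℓN) =
      ⟨heckeAlphaBar L N ℓ h, alpha_mem_Ov0 A π N ℓ hdeg hℓ hℓN h hh⟩ -
        ⟨heckeBetaBar L N ℓ h', (beta_mem_Ov0_iff A π N ℓ hdeg hℓ hℓN h').mpr hh'⟩ ^ ℓ := rfl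
  rw [h1, map_sub, map_pow, red0_beta, red0_alpha]

end Main

section Char

variable {L : Type} [Field L] [Algebra ℚ L] [IsAlgClosed L] (A : ValuationSubring L)
  {k : Type} [Field k] (π : A →+* k)
variable (N ℓ : ℕ) [NeZero N] [NeZero ℓ] [Fact ℓ.Prime] [CharP k ℓ] [PerfectRing k ℓ]
variable (hdeg : finrankAlong L (heckeAlphaBar L N ℓ) = ℓ + 1) (hℓ : ℓ.Prime) (hℓN : ¬ ℓ ∣ N)
variable (h h' : FL L N)

/-- **(N1)**: `red_∞ (β h - (α h')^ℓ) = 0` when `h̄' = Fc⁻¹ h̄` -/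
theorem redV_nodeEltInf_eq_zero (hh : h ∈ Ov A π (FBar L N)) (hh' : h' ∈ Ov A π (FBar L N))
    (hrel : redV A π (FBar L N) ⟨h', hh'⟩ = frobInvLS ℓ (redV A π (FBar L N) ⟨h, hh⟩)) :
    redV A π (FBar L (N * ℓ)) ⟨nodeEltInf L N ℓ h h', nodeEltInf_mem_Ov A π N ℓ h h' hh hh'⟩ =
      0 := by
  rw [redV_nodeEltInf A π N ℓ h h' hh hh', hrel, qExpand_eq_frobInvLS_pow ℓ, sub_self]

/-- **(N1)**: `red_0 (α h - (β h')^ℓ) = 0` when `h̄' = Fc⁻¹ h̄` -/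
theorem red0_nodeEltZero_eq_zero (hh : h ∈ Ov A π (FBar L N)) (hh' : h' ∈ Ov A π (FBar L N))
    (hrel : redV A π (FBar L N) ⟨h', hh'⟩ = frobInvLS ℓ (redV A π (FBar L N) ⟨h, hh⟩)) :
    red0 A π N ℓ hdeg hℓ hℓN
        ⟨nodeEltZero L N ℓ h h', nodeEltZero_mem_Ov0 A π N ℓ hdeg hℓ hℓN h h' hh hh'⟩ = 0 := by
  rw [red0_nodeEltZero A π N ℓ hdeg hℓ hℓN h h' hh hh', hrel, qExpand_eq_frobInvLS_pow ℓ, sub_self]

/-- **(N1)**: `red_0 (β h - (α h')^ℓ) = h̄ - (Fc⁻² h̄)^(ℓ²)` when `h̄' = Fc⁻¹ h̄` -/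
theorem red0_nodeEltInf_eq (hh : h ∈ Ov A π (FBar L N)) (hh' : h' ∈ Ov A π (FBar L N))
    (hrel : redV A π (FBar L N) ⟨h', hh'⟩ = frobInvLS ℓ (redV A π (FBar L N) ⟨h, hh⟩)) :
    red0 A π N ℓ hdeg hℓ hℓN
        ⟨nodeEltInf L N ℓ h h', nodeEltInf_mem_Ov0 A π N ℓ hdeg hℓ hℓN h h' hh hh'⟩ =
      redV A π (FBar L N) ⟨h, hh⟩ -
        (frobInvLS ℓ (frobInvLS ℓ (redV A π (FBar L N) ⟨h, hh⟩))) ^ (ℓ * ℓ) := by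
  rw [red0_nodeEltInf A π N ℓ hdeg hℓ hℓN h h' hh hh', hrel, qExpand_eq_frobInvLS_pow ℓ, ← pow_mul]

/-- **(N1)**: `red_∞ (α h - (β h')^ℓ) = h̄ - (Fc⁻² h̄)^(ℓ²)` when `h̄' = Fc⁻¹ h̄` -/
theorem redV_nodeEltZero_eq (hh : h ∈ Ov A π (FBar L N)) (hh' : h' ∈ Ov A π (FBar L N))
    (hrel : redV A π (FBar L N) ⟨h', hh'⟩ = frobInvLS ℓ (redV A π (FBar L N) ⟨h, hh⟩)) :
    redV A π (FBar L (N * ℓ)) ⟨nodeEltZero L N ℓ h h', nodeEltZero_mem_Ov A π N ℓ h h' hh hh'⟩ =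
      redV A π (FBar L N) ⟨h, hh⟩ -
        (frobInvLS ℓ (frobInvLS ℓ (redV A π (FBar L N) ⟨h, hh⟩))) ^ (ℓ * ℓ) := by
  rw [redV_nodeEltZero A π N ℓ h h' hh hh', hrel, qExpand_eq_frobInvLS_pow ℓ, ← pow_mul]

end Char

end Fermat.Agent.S34x.TwoVal
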