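/-
helper60 (P-S34, WP2 TwoVal): a saturation principle on top of helper10's `FundEq`.

Setting of `FundEq.Hyp`: `F / E` finite, `O ⊆ E` a valuation ring, `V`, `W` two valuation rings of
`F` over `O`, separating element `s`, residually independent families `x` (at `V`) and `y`
(at `W`) with `[F : E] ≤ |x| + |y|`.

**Theorem** (`Hyp.le_of_saturated`).  Let `R` be a subring of `F` which is *saturated at `V`*
(`r ∈ R`, `v r = 1` ⟹ `r⁻¹ ∈ R`) and contains `O`, `s`, the `x a` and the `y b`.  Then `V ⊆ R`.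

Application (`NormInfty.lean`): `R` := quotients `y₁ / y₂` of elements of `F` with `A`-integral
expansions, `ȳ₂ ≠ 0`; this gives the `RedRel`-form of Gauss normalisability at the bad level.
-/
import Fermat.Agent.S34x.TwoVal.FundEq

set_option autoImplicit false

namespace Fermat.Agent.S34x.TwoVal.FundEq

variable {E F : Type*} [Field E] [Field F] [Algebra E F]
variable {O : ValuationSubring E} {V W : ValuationSubring F} {ϖ : E} {s : F}

/-- the two explicit approximants `t₁ = u^N / (u^N + s^N)`, `t₂ = s^N / (u^N + s^N)`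
(`u = 1 - s`, `N = n + 1`) lie in every subring `R ∋ s` saturated at `V`. -/
theorem Hyp.exists_approx_pair (H : Hyp O V W ϖ s) (R : Subring F)
    (hsat : ∀ r ∈ R, V.valuation r = 1 → r⁻¹ ∈ R) (hs : s ∈ R) (n : ℕ) :
    ∃ t₁ ∈ R, ∃ t₂ ∈ R, t₁ + t₂ = 1 ∧
      V.valuation t₂ ≤ V.valuation (algebraMap E F ϖ) ^ (n + 1) ∧
      W.valuation t₁ ≤ W.valuation (algebraMap E F ϖ) ^ (n + 1) := by
  have hV := H.liesOver₁
  have hW := H.liesOver₂
  set ϖF := algebraMap E F ϖ with hϖF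
  have hϖF0 : ϖF ≠ 0 := by
    rw [hϖF, Ne, map_eq_zero_iff _ (algebraMap E F).injective]; exact H.ϖ_ne
  have hvϖ : V.valuation ϖF < 1 := (hV.lt_one_iff ϖ).mpr H.ϖ_lt
  have hwϖ : W.valuation ϖF < 1 := (hW.lt_one_iff ϖ).mpr H.ϖ_lt
  have hvϖ0 : V.valuation ϖF ≠ 0 := (Valuation.ne_zero_iff _).mpr hϖF0
  have hwϖ0 : W.valuation ϖF ≠ 0 := (Valuation.ne_zero_iff _).mpr hϖF0
  have hvs : V.valuation s ≤ V.valuation ϖF := by
    have := (ValuationSubring.valuation_le_one_iff _ _).mpr H.s_mem₁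
    rwa [map_mul, map_inv₀, mul_inv_le_iff₀ (zero_lt_iff.mpr hvϖ0), one_mul] at this
  have hwu : W.valuation (1 - s) ≤ W.valuation ϖF := by
    have := (ValuationSubring.valuation_le_one_iff _ _).mpr H.s_mem₂
    rwa [map_mul, map_inv₀, mul_inv_le_iff₀ (zero_lt_iff.mpr hwϖ0), one_mul] at this
  have hvs1 : V.valuation s < 1 := lt_of_le_of_lt hvs hvϖ
  have hwu1 : W.valuation (1 - s) < 1 := lt_of_le_of_lt hwu hwϖ
  have hvu : V.valuation (1 - s) = 1 := Valuation.map_one_sub_of_lt _ hvs1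
  have hws : W.valuation s = 1 := by
    have := Valuation.map_one_sub_of_lt _ hwu1
    rwa [sub_sub_cancel] at this
  set N := n + 1 with hN
  set u := 1 - s with hu
  have huR : u ∈ R := R.sub_mem R.one_mem hs
  have hvsN : V.valuation (s ^ N) ≤ V.valuation ϖF ^ N := by
    rw [map_pow]; exact pow_le_pow_left₀ zero_le hvs N
  have hvsN1 : V.valuation (s ^ N) < 1 :=
    lt_of_le_of_lt hvsN (pow_lt_one₀ zero_le hvϖ (by omega))
  have hwuN : W.valuation (u ^ N) ≤ W.valuation ϖF ^ N := by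
    rw [map_pow]; exact pow_le_pow_left₀ zero_le hwu N
  have hwuN1 : W.valuation (u ^ N) < 1 :=
    lt_of_le_of_lt hwuN (pow_lt_one₀ zero_le hwϖ (by omega))
  have hvden : V.valuation (u ^ N + s ^ N) = 1 := by
    have h1 : V.valuation (u ^ N) = 1 := by rw [map_pow, hvu, one_pow]
    rw [Valuation.map_add_eq_of_lt_left _ (by rw [h1]; exact hvsN1), h1]
  have hwden : W.valuation (u ^ N + s ^ N) = 1 := by
    have h1 : W.valuation (s ^ N) = 1 := by rw [map_pow, hws, one_pow]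
    rw [Valuation.map_add_eq_of_lt_right _ (by rw [h1]; exact hwuN1), h1]
  have hden0 : u ^ N + s ^ N ≠ 0 := by
    intro h0
    rw [h0, map_zero] at hvden
    exact zero_ne_one hvden
  have hdenR : u ^ N + s ^ N ∈ R := R.add_mem (R.pow_mem huR N) (R.pow_mem hs N)
  have hinvR : (u ^ N + s ^ N)⁻¹ ∈ R := hsat _ hdenR hvden
  refine ⟨u ^ N / (u ^ N + s ^ N), ?_, s ^ N / (u ^ N + s ^ N), ?_, ?_, ?_, ?_⟩
  · rw [div_eq_mul_inv]; exact R.mul_mem (R.pow_mem huR N) hinvR
  · rw [div_eq_mul_inv]; exact R.mul_mem (R.pow_mem hs N) hinvR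
  · rw [← add_div, div_self hden0]
  · rw [map_div₀, hvden, div_one]; exact hvsN
  · rw [map_div₀, hwden, div_one]; exact hwuN

/-- strong approximation inside `R`: `t₁ + t₂ = 1`, `t₂` small at `V`, `t₁` small at `W`, and
prescribed finitely many products small. -/
theorem Hyp.exists_approx_mem (H : Hyp O V W ϖ s) [Algebra.IsAlgebraic E F] (R : Subring F)
    (hsat : ∀ r ∈ R, V.valuation r = 1 → r⁻¹ ∈ R) (hs : s ∈ R) (gs₁ gs₂ : Finset F) :
    ∃ t₁ ∈ R, ∃ t₂ ∈ R, t₁ + t₂ = 1 ∧ V.valuation t₂ < 1 ∧ W.valuation t₁ < 1 ∧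
      (∀ g ∈ gs₁, W.valuation (t₁ * g) < 1) ∧ (∀ g ∈ gs₂, V.valuation (t₂ * g) < 1) := by
  have hV := H.liesOver₁
  have hW := H.liesOver₂
  obtain ⟨n₁, hn₁⟩ := hW.exists_pow_mul_mem_finset H.ϖ_lt H.arch gs₁
  obtain ⟨n₂, hn₂⟩ := hV.exists_pow_mul_mem_finset H.ϖ_lt H.arch gs₂
  obtain ⟨t₁, ht₁R, t₂, ht₂R, hsum, hv, hw⟩ := H.exists_approx_pair R hsat hs (max n₁ n₂)
  have hvϖ : V.valuation (algebraMap E F ϖ) < 1 := (hV.lt_one_iff ϖ).mpr H.ϖ_lt
  have hwϖ : W.valuation (algebraMap E F ϖ) < 1 := (hW.lt_one_iff ϖ).mpr H.ϖ_lt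
  -- generic estimate
  have key : ∀ (U : ValuationSubring F) (t g : F) (n : ℕ),
      U.valuation (algebraMap E F ϖ) < 1 →
      U.valuation t ≤ U.valuation (algebraMap E F ϖ) ^ (n + 1) →
      algebraMap E F ϖ ^ n * g ∈ U → U.valuation (t * g) < 1 := by
    intro U t g n hUϖ ht hg
    have h1 : U.valuation (algebraMap E F ϖ ^ n * g) ≤ 1 :=
      (ValuationSubring.valuation_le_one_iff _ _).mpr hg
    rw [map_mul, map_pow] at h1
    calc U.valuation (t * g) = U.valuation t * U.valuation g := map_mul _ _ _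
      _ ≤ U.valuation (algebraMap E F ϖ) ^ (n + 1) * U.valuation g := mul_le_mul_left ht _
      _ = U.valuation (algebraMap E F ϖ) *
            (U.valuation (algebraMap E F ϖ) ^ n * U.valuation g) := by
          rw [pow_succ, mul_comm (U.valuation (algebraMap E F ϖ) ^ n), mul_assoc]
      _ ≤ U.valuation (algebraMap E F ϖ) * 1 := mul_le_mul_right h1 _
      _ < 1 := by rw [mul_one]; exact hUϖ
  refine ⟨t₁, ht₁R, t₂, ht₂R, hsum, ?_, ?_, fun g hg => ?_, fun g hg => ?_⟩
  · exact lt_of_le_of_lt hv (pow_lt_one₀ zero_le hvϖ (by omega))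
  · exact lt_of_le_of_lt hw (pow_lt_one₀ zero_le hwϖ (by omega))
  · exact key W t₁ g (max n₁ n₂) hwϖ hw
      (hW.pow_mul_mem_of_le H.ϖ_lt (le_max_left n₁ n₂) (hn₁ g hg))
  · exact key V t₂ g (max n₁ n₂) hvϖ hv
      (hV.pow_mul_mem_of_le H.ϖ_lt (le_max_right n₁ n₂) (hn₂ g hg))

variable {ι κ : Type*} [Fintype ι] [Fintype κ] {x : ι → F} {y : κ → F}

/-- an adapted pair of families inside `R` -/
theorem Hyp.exists_adapted_mem (H : Hyp O V W ϖ s) [Algebra.IsAlgebraic E F] (R : Subring F)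
    (hsat : ∀ r ∈ R, V.valuation r = 1 → r⁻¹ ∈ R) (hs : s ∈ R)
    (hx : ResIndep O V x) (hy : ResIndep O W y) (hxR : ∀ a, x a ∈ R) (hyR : ∀ b, y b ∈ R) :
    ∃ (p : ι → F) (q : κ → F), (∀ a, p a ∈ R) ∧ (∀ b, q b ∈ R) ∧ Adapted O V W p q := by
  classical
  obtain ⟨t₁, ht₁R, t₂, ht₂R, hsum, hv, hw, h1, h2⟩ :=
    H.exists_approx_mem R hsat hs (Finset.univ.image x) (Finset.univ.image y)
  have e₁ : 1 - t₁ = t₂ := by rw [← hsum]; ring
  have e₂ : 1 - t₂ = t₁ := by rw [← hsum]; ring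
  refine ⟨fun a => x a * t₁, fun b => y b * t₂, fun a => R.mul_mem (hxR a) ht₁R,
    fun b => R.mul_mem (hyR b) ht₂R,
    hx.mul_right H.liesOver₁ (by rw [e₁]; exact hv), fun a => ?_,
    hy.mul_right H.liesOver₂ (by rw [e₂]; exact hw), fun b => ?_⟩
  · rw [mul_comm]
    exact h1 _ (Finset.mem_image_of_mem x (Finset.mem_univ a))
  · rw [mul_comm]
    exact h2 _ (Finset.mem_image_of_mem y (Finset.mem_univ b))

/-- **Saturation principle**: a subring of `F`, saturated at `V`, containing `O`, the separating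
element and the two residually independent families, contains `V`. -/
theorem Hyp.le_of_saturated (H : Hyp O V W ϖ s) [FiniteDimensional E F] (R : Subring F)
    (hsat : ∀ r ∈ R, V.valuation r = 1 → r⁻¹ ∈ R) (hO : ∀ e ∈ O, algebraMap E F e ∈ R)
    (hs : s ∈ R) (hx : ResIndep O V x) (hy : ResIndep O W y)
    (hxR : ∀ a, x a ∈ R) (hyR : ∀ b, y b ∈ R)
    (hcard : Module.finrank E F ≤ Fintype.card ι + Fintype.card κ) {z : F} (hz : z ∈ V) :
    z ∈ R := by
  classical
  have hV := H.liesOver₁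
  have hW := H.liesOver₂
  by_cases hz0 : z = 0
  · rw [hz0]; exact R.zero_mem
  obtain ⟨p, q, hpR, hqR, had⟩ := H.exists_adapted_mem R hsat hs hx hy hxR hyR
  -- a lower bound `e₀` for `v z`
  obtain ⟨e₀, he₀, -, he₀z⟩ := hV.exists_mul_mem z⁻¹
  have he₀F : algebraMap E F e₀ ≠ 0 := by rwa [Ne, map_eq_zero_iff _ (algebraMap E F).injective]
  have hvz0 : V.valuation z ≠ 0 := (Valuation.ne_zero_iff _).mpr hz0
  have hlow : V.valuation (algebraMap E F e₀) ≤ V.valuation z := by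
    have := (ValuationSubring.valuation_le_one_iff _ _).mpr he₀z
    rwa [map_mul, map_inv₀, mul_inv_le_iff₀ (zero_lt_iff.mpr hvz0), one_mul] at this
  obtain ⟨t, htR, t₂, -, hsum, hv2, -, ht2, -⟩ :=
    H.exists_approx_mem R hsat hs {z * (algebraMap E F e₀)⁻¹} ∅
  have ht1 : V.valuation (1 - t) < 1 := by
    have : 1 - t = t₂ := by rw [← hsum]; ring
    rw [this]; exact hv2
  have ht2' := ht2 _ (Finset.mem_singleton_self _)
  have hvt : V.valuation t = 1 := valuation_eq_one_of_sub_lt ht1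
  have ht0 : t ≠ 0 := by
    rintro rfl
    rw [map_zero] at hvt
    exact zero_ne_one hvt
  have hz'0 : t * z ≠ 0 := mul_ne_zero ht0 hz0
  have hvz' : V.valuation (t * z) = V.valuation z := by rw [map_mul, hvt, one_mul]
  have hwz' : W.valuation (t * z) < W.valuation (algebraMap E F e₀) := by
    have hw0 : W.valuation (algebraMap E F e₀) ≠ 0 := (Valuation.ne_zero_iff _).mpr he₀F
    have := ht2'
    rwa [← mul_assoc, map_mul, map_inv₀, mul_inv_lt_iff₀ (zero_lt_iff.mpr hw0), one_mul] at this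
  obtain ⟨e, c, d, he, hc, hd, hrepr, hle1, hle2, hor⟩ :=
    had.exists_normalised hV hW hcard hz'0
  have hve : V.valuation (t * z) = V.valuation (algebraMap E F e) := by
    rcases hor with h1 | h2
    · exact h1
    · exfalso
      rw [h2] at hwz'
      have h3 : O.valuation e < O.valuation e₀ := (hW.lt_iff e e₀).mp hwz'
      have h4 : V.valuation (algebraMap E F e) < V.valuation (algebraMap E F e₀) :=
        (hV.lt_iff e e₀).mpr h3
      have h5 : V.valuation (algebraMap E F e₀) ≤ V.valuation (algebraMap E F e) := by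
        calc V.valuation (algebraMap E F e₀) ≤ V.valuation z := hlow
          _ = V.valuation (t * z) := hvz'.symm
          _ ≤ V.valuation (algebraMap E F e) := hle1
      exact absurd h4 (not_lt.mpr h5)
  -- `e ∈ O`
  have heO : e ∈ O := by
    rw [← ValuationSubring.valuation_le_one_iff, ← hV.le_one_iff, ← hve, hvz']
    exact (ValuationSubring.valuation_le_one_iff _ _).mpr hz
  have hz'R : ∑ a, algebraMap E F (c a) * p a + ∑ b, algebraMap E F (d b) * q b ∈ R :=
    R.add_mem (R.sum_mem fun a _ => R.mul_mem (hO _ (hc a)) (hpR a))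
      (R.sum_mem fun b _ => R.mul_mem (hO _ (hd b)) (hqR b))
  have htzR : t * z ∈ R := by
    rw [hrepr]
    exact R.mul_mem (hO e heO) hz'R
  have htiR : t⁻¹ ∈ R := hsat t htR hvt
  have : z = t⁻¹ * (t * z) := by rw [← mul_assoc, inv_mul_cancel₀ ht0, one_mul]
  rw [this]
  exact R.mul_mem htiR htzR

end Fermat.Agent.S34x.TwoVal.FundEq
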