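/-
helper60 (P-S34, WP2 TwoVal): two Laurent-series lemmas for the fundamental equality at level `Nℓ`.

* `eq_zero_of_sum_qExpand_mul_pow_eq_zero`: if `g` has order `-1` then `1, g, …, g^(ℓ-1)` are
  linearly independent over the image of `qExpand ℓ` (orders are distinct modulo `ℓ`).
* `exists_kronecker_int`: the Kronecker congruence `j(q^ℓ) ≡ j(q)^ℓ (mod ℓ)` for the integral
  `q`-expansion of `j`, in the quantitative form `j(q^ℓ) - j(q)^ℓ = ℓ • D'`, `D' ∈ ℤ((q))`.
-/
import Fermat.Agent.Gateway.ES.FrobLaurent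
import Fermat.Agent.Gateway.Kummer.RedRel
import Fermat.Agent.S28.Laurent

set_option autoImplicit false
set_option linter.style.haveILetI false

noncomputable section

namespace Fermat.Agent.S34x.TwoVal

open ModularCurve HahnSeries

section Orders

variable {k : Type*} [Field k]

theorem laurent_order_mul {x y : LaurentSeries k} (hx : x ≠ 0) (hy : y ≠ 0) :
    (x * y).order = x.order + y.order :=
  HahnSeries.order_mul_of_ne_zero
    (mul_ne_zero (HahnSeries.leadingCoeff_ne_zero.mpr hx) (HahnSeries.leadingCoeff_ne_zero.mpr hy))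

theorem laurent_order_pow {x : LaurentSeries k} (hx : x ≠ 0) (n : ℕ) :
    (x ^ n).order = n * x.order := by
  induction n with
  | zero => simp
  | succ n ih =>
    rw [pow_succ, laurent_order_mul (pow_ne_zero n hx) hx, ih]
    push_cast
    ring

variable (ℓ : ℕ) [NeZero ℓ]

/-- **independence of `1, g, …, g^(ℓ-1)` over `k((s^ℓ))`** for `g` of order `-1`. -/
theorem eq_zero_of_sum_qExpand_mul_pow_eq_zero (g : LaurentSeries k) (hg : g.order = -1)
    (a : Fin ℓ → LaurentSeries k)
    (h : ∑ b : Fin ℓ, qExpand k ℓ (a b) * g ^ (b : ℕ) = 0) : ∀ b, a b = 0 := by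
  classical
  have hg0 : g ≠ 0 := by
    rintro rfl
    rw [HahnSeries.order_zero] at hg
    omega
  by_contra hne
  push Not at hne
  set T : Fin ℓ → LaurentSeries k := fun b => qExpand k ℓ (a b) * g ^ (b : ℕ) with hT
  have hT0 : ∀ b, a b ≠ 0 → T b ≠ 0 := fun b hb =>
    mul_ne_zero (by rwa [Ne, Fermat.Agent.S28.qExpand_eq_zero_iff]) (pow_ne_zero _ hg0)
  have hTord : ∀ b, a b ≠ 0 → (T b).order = (ℓ : ℤ) * (a b).order - (b : ℕ) := by
    intro b hb
    rw [hT]
    simp only
    rw [laurent_order_mul (by rwa [Ne, Fermat.Agent.S28.qExpand_eq_zero_iff]) (pow_ne_zero _ hg0),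
      Fermat.Agent.S28.qExpand_order, laurent_order_pow hg0, hg]
    ring
  set S : Finset (Fin ℓ) := Finset.univ.filter fun b => a b ≠ 0 with hS
  have hSne : S.Nonempty := by
    obtain ⟨b, hb⟩ := hne
    exact ⟨b, by rw [hS, Finset.mem_filter]; exact ⟨Finset.mem_univ _, hb⟩⟩
  obtain ⟨b₀, hb₀S, hmin⟩ := S.exists_min_image (fun b => (T b).order) hSne
  have hb₀ : a b₀ ≠ 0 := (Finset.mem_filter.mp hb₀S).2
  -- all other nonzero terms have strictly larger order
  have hlt : ∀ b, b ≠ b₀ → (T b).coeff (T b₀).order = 0 := by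
    intro b hbb
    by_cases hb : a b = 0
    · rw [hT]
      simp only
      rw [hb, map_zero, zero_mul, HahnSeries.coeff_zero]
    · have hbS : b ∈ S := by rw [hS, Finset.mem_filter]; exact ⟨Finset.mem_univ _, hb⟩
      have hle := hmin b hbS
      have hneq : (T b).order ≠ (T b₀).order := by
        rw [hTord b hb, hTord b₀ hb₀]
        intro heq
        -- reduce modulo `ℓ`
        have hdvd : (ℓ : ℤ) ∣ ((b : ℕ) : ℤ) - ((b₀ : ℕ) : ℤ) :=
          ⟨(a b).order - (a b₀).order, by linarith⟩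
        have hb1 := b.2
        have hb2 := b₀.2
        have hℓpos : (0 : ℤ) < ℓ := by exact_mod_cast Nat.pos_of_ne_zero (NeZero.ne ℓ)
        have habs : |((b : ℕ) : ℤ) - ((b₀ : ℕ) : ℤ)| < (ℓ : ℤ) := by
          rw [abs_lt]
          constructor <;> omega
        have hzero := Int.eq_zero_of_abs_lt_dvd hdvd habs
        apply hbb
        apply Fin.ext
        omega
      exact HahnSeries.coeff_eq_zero_of_lt_order (lt_of_le_of_ne hle (Ne.symm hneq))
  have hcoeff := congrArg (fun x : LaurentSeries k => x.coeff (T b₀).order) h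
  simp only [HahnSeries.coeff_sum, HahnSeries.coeff_zero] at hcoeff
  rw [Finset.sum_eq_single b₀ (fun b _ hb => hlt b hb)
    (fun hb => absurd (Finset.mem_univ _) hb)] at hcoeff
  exact hT0 b₀ hb₀ (HahnSeries.coeff_order_eq_zero.mp hcoeff)

end Orders

section Kronecker

variable (ℓ : ℕ) [hℓ : Fact ℓ.Prime]

/-- **Kronecker congruence**, integral quantitative form. -/
theorem exists_kronecker_int :
    haveI : NeZero ℓ := ⟨hℓ.out.ne_zero⟩
    ∃ D' : LaurentSeries ℤ,
      qExpand ℤ ℓ (jqModC ℤ) - jqModC ℤ ^ ℓ = HahnSeries.C (ℓ : ℤ) * D' := by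
  haveI : NeZero ℓ := ⟨hℓ.out.ne_zero⟩
  set D : LaurentSeries ℤ := qExpand ℤ ℓ (jqModC ℤ) - jqModC ℤ ^ ℓ with hD
  have hred : coeffMap (Int.castRingHom (ZMod ℓ)) D = 0 := by
    rw [hD, map_sub, map_pow, Fermat.Agent.Gateway.Kummer.coeffMap_qExpand, coeffMap_jqModC,
      Fermat.Agent.Gateway.ES.pow_char_eq_qExpand_coeffMap_frobenius ℓ (jqModC (ZMod ℓ)),
      coeffMap_jqModC, sub_self]
  have hdvd : ∀ n, (ℓ : ℤ) ∣ D.coeff n := by
    intro n
    have := congrArg (fun x : LaurentSeries (ZMod ℓ) => x.coeff n) hred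
    simp only [coeffMap_coeff, HahnSeries.coeff_zero] at this
    exact (ZMod.intCast_zmod_eq_zero_iff_dvd _ _).mp this
  refine ⟨⟨fun n => D.coeff n / (ℓ : ℤ), D.isPWO_support.mono ?_⟩, ?_⟩
  · intro n hn
    simp only [Function.mem_support, ne_eq] at hn ⊢
    intro h0
    apply hn
    rw [h0, Int.zero_ediv]
  · ext n
    rw [HahnSeries.C_mul_eq_smul, HahnSeries.coeff_smul]
    show D.coeff n = (ℓ : ℤ) • (D.coeff n / (ℓ : ℤ))
    rw [smul_eq_mul, Int.mul_ediv_cancel' (hdvd n)]

end Kronecker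

end Fermat.Agent.S34x.TwoVal
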