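/-
helper60 (P-S34, WP2 TwoVal): the instance of helper10's `FundEq.Hyp` at level `N ℓ`.

`E := F_N → F := F_{Nℓ}` via `α`; `O' := OvVal` (Gauss ring of `F_N`, good level), `V := valInfty`,
`W := valZero`; `ϖ := ℓ`; separating element `s := w / (w + w')`, `w := β j - (α j)^ℓ`,
`w' := α j - (β j)^ℓ` (Kronecker: `ι_∞ w`, `ι_0 w' ∈ ℓ ℤ((t))`); residually independent families
`![1]` at `V` and `(β j)^b`, `b < ℓ`, at `W` (orders modulo `ℓ`).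
-/
import Fermat.Agent.S34x.TwoVal.FundEqSat
import Fermat.Agent.S34x.TwoVal.KroneckerInt
import Fermat.Agent.S34x.TwoVal.ValZero
import Fermat.Agent.S34x.TwoVal.NodeElt
import Fermat.Agent.S34x.TwoVal.Separating

set_option autoImplicit false
set_option linter.style.haveILetI false
set_option linter.unusedSectionVars false

noncomputable section

namespace Fermat.Agent.S34x.TwoVal

open Polynomial ModularCurve AlgebraicCurve IntermediateField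
open Fermat.Agent.S28 Fermat.Agent.S28.Tower Fermat.Agent.Gateway.Hecke
open Fermat.Agent.Gateway.Red Fermat.Agent.Gateway.GoodRed Fermat.Agent.Gateway.ESC

/-! ### Valuation versus reduction -/

section ValRed

variable {F : Type*} [Field F] (V : ValuationSubring F) {D : Type*} [Zero D]

/-- for a valuation ring with a reduction map whose kernel is the set of non-units:
`v x < 1 ↔ x ∈ V` with zero reduction -/
theorem valuation_lt_one_iff_red (red : V → D) (hred : ∀ x : V, red x = 0 ↔ ¬ IsUnit x)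
    (x : F) : V.valuation x < 1 ↔ ∃ hx : x ∈ V, red ⟨x, hx⟩ = 0 := by
  constructor
  · intro h
    have hx : x ∈ V := (V.valuation_le_one_iff x).mp h.le
    refine ⟨hx, (hred ⟨x, hx⟩).mpr ?_⟩
    have : (⟨x, hx⟩ : V) ∈ IsLocalRing.maximalIdeal V := (V.valuation_lt_one_iff ⟨x, hx⟩).mpr h
    exact (IsLocalRing.mem_maximalIdeal _).mp this
  · rintro ⟨hx, h⟩
    have h1 : ¬ IsUnit (⟨x, hx⟩ : V) := (hred ⟨x, hx⟩).mp h
    exact (V.valuation_lt_one_iff ⟨x, hx⟩).mp ((IsLocalRing.mem_maximalIdeal _).mpr h1)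

theorem valuation_eq_one_iff_red (red : V → D) (hred : ∀ x : V, red x = 0 ↔ ¬ IsUnit x)
    (x : F) : V.valuation x = 1 ↔ ∃ hx : x ∈ V, red ⟨x, hx⟩ ≠ 0 := by
  constructor
  · intro h
    have hx : x ∈ V := (V.valuation_le_one_iff x).mp h.le
    refine ⟨hx, fun h0 => ?_⟩
    have := (valuation_lt_one_iff_red V red hred x).mpr ⟨hx, h0⟩
    rw [h] at this
    exact lt_irrefl _ this
  · rintro ⟨hx, h⟩
    rcases lt_or_eq_of_le ((V.valuation_le_one_iff x).mpr hx) with h1 | h1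
    · obtain ⟨hx', h0⟩ := (valuation_lt_one_iff_red V red hred x).mp h1
      exact absurd h0 h
    · exact h1

end ValRed

/-! ### The level fields -/

section Level

variable {L : Type} [Field L] [Algebra ℚ L] [IsAlgClosed L] (A : ValuationSubring L)
  {k : Type} [Field k] (π : A →+* k) [IsAlgClosed k]
variable (N ℓ : ℕ) [NeZero N] [Fact ℓ.Prime] [CharP k ℓ]
variable (hdeg : finrankAlong L (heckeAlphaBar L N ℓ) = ℓ + 1) (hℓ : ℓ.Prime) (hℓN : ¬ ℓ ∣ N)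
variable (hrk : ∀ x ∈ IsLocalRing.maximalIdeal A, ∀ c : A, c ≠ 0 → ∃ j : ℕ, c ∣ x ^ j)
  (hπ : Function.Surjective π)

theorem OvVal_lt_one_iff (x : FL L N) :
    (OvVal A π N ℓ hπ hℓN).valuation x < 1 ↔
      ∃ hx : x ∈ Ov A π (FBar L N), redV A π (FBar L N) ⟨x, hx⟩ = 0 := by
  refine valuation_lt_one_iff_red (OvVal A π N ℓ hπ hℓN)
    (fun y => redV A π (FBar L N) ⟨(y : FBar L N), y.2⟩) (fun y => ?_) x
  rw [← resFk_eq_zero_iff A π N ℓ hπ hℓN y]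
  constructor
  · intro h
    exact Subtype.ext h
  · intro h
    exact congrArg Subtype.val h

theorem OvVal_eq_one_iff (x : FL L N) :
    (OvVal A π N ℓ hπ hℓN).valuation x = 1 ↔
      ∃ hx : x ∈ Ov A π (FBar L N), redV A π (FBar L N) ⟨x, hx⟩ ≠ 0 := by
  refine valuation_eq_one_iff_red (OvVal A π N ℓ hπ hℓN)
    (fun y => redV A π (FBar L N) ⟨(y : FBar L N), y.2⟩) (fun y => ?_) x
  rw [← resFk_eq_zero_iff A π N ℓ hπ hℓN y]
  constructor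
  · intro h
    exact Subtype.ext h
  · intro h
    exact congrArg Subtype.val h

theorem valInfty_lt_one_iff (x : FL L (N * ℓ)) :
    (valInfty A π N ℓ hrk hπ hℓN).valuation x < 1 ↔
      ∃ hx : x ∈ Ov A π (FL L (N * ℓ)), redV A π (FL L (N * ℓ)) ⟨x, hx⟩ = 0 :=
  valuation_lt_one_iff_red (valInfty A π N ℓ hrk hπ hℓN)
    (fun y => redV A π (FL L (N * ℓ)) ⟨(y : FL L (N * ℓ)), y.2⟩)
    (fun y => redV_eq_zero_iff A π N ℓ hrk hπ hℓN y) x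

theorem valInfty_eq_one_iff (x : FL L (N * ℓ)) :
    (valInfty A π N ℓ hrk hπ hℓN).valuation x = 1 ↔
      ∃ hx : x ∈ Ov A π (FL L (N * ℓ)), redV A π (FL L (N * ℓ)) ⟨x, hx⟩ ≠ 0 :=
  valuation_eq_one_iff_red (valInfty A π N ℓ hrk hπ hℓN)
    (fun y => redV A π (FL L (N * ℓ)) ⟨(y : FL L (N * ℓ)), y.2⟩)
    (fun y => redV_eq_zero_iff A π N ℓ hrk hπ hℓN y) x

theorem valZero_lt_one_iff (x : FL L (N * ℓ)) :
    (valZero A π N ℓ hdeg hℓ hℓN hrk hπ).valuation x < 1 ↔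
      ∃ hx : x ∈ Ov0 A π N ℓ hdeg hℓ hℓN, red0 A π N ℓ hdeg hℓ hℓN ⟨x, hx⟩ = 0 :=
  valuation_lt_one_iff_red (valZero A π N ℓ hdeg hℓ hℓN hrk hπ)
    (fun y => red0 A π N ℓ hdeg hℓ hℓN ⟨(y : FL L (N * ℓ)), y.2⟩)
    (fun y => red0_eq_zero_iff A π N ℓ hdeg hℓ hℓN hrk hπ y) x

theorem valZero_eq_one_iff (x : FL L (N * ℓ)) :
    (valZero A π N ℓ hdeg hℓ hℓN hrk hπ).valuation x = 1 ↔
      ∃ hx : x ∈ Ov0 A π N ℓ hdeg hℓ hℓN, red0 A π N ℓ hdeg hℓ hℓN ⟨x, hx⟩ ≠ 0 :=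
  valuation_eq_one_iff_red (valZero A π N ℓ hdeg hℓ hℓN hrk hπ)
    (fun y => red0 A π N ℓ hdeg hℓ hℓN ⟨(y : FL L (N * ℓ)), y.2⟩)
    (fun y => red0_eq_zero_iff A π N ℓ hdeg hℓ hℓN hrk hπ y) x

end Level

/-! ### The elements `j`, `w`, `w'` and the Kronecker congruence -/

section Elements

variable (L : Type) [Field L] [Algebra ℚ L] (N ℓ : ℕ) [NeZero N] [NeZero ℓ]

/-- the generator `j` of `F_N` -/
def jN : FL L N := ⟨jS L 1 1, jS_mem_FBar one_ne_zero (one_dvd N)⟩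

theorem coe_jN : ((jN L N : FL L N) : LaurentSeries L) = jqModC L := jS_one_one

/-- `w := β j - (α j)^ℓ` -/
def wInf : FL L (N * ℓ) := nodeEltInf L N ℓ (jN L N) (jN L N)

/-- `w' := α j - (β j)^ℓ` -/
def wZero : FL L (N * ℓ) := nodeEltZero L N ℓ (jN L N) (jN L N)

theorem coe_wInf :
    ((wInf L N ℓ : FL L (N * ℓ)) : LaurentSeries L) = qExpand L ℓ (jqModC L) - jqModC L ^ ℓ := by
  show ((heckeBetaBar L N ℓ (jN L N) - (heckeAlphaBar L N ℓ (jN L N)) ^ ℓ : FL L (N * ℓ)) :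
    LaurentSeries L) = _
  rw [AddSubgroupClass.coe_sub, SubmonoidClass.coe_pow, coe_heckeBetaBar, coe_heckeAlphaBar,
    coe_jN]

theorem coe_wZero :
    ((wZero L N ℓ : FL L (N * ℓ)) : LaurentSeries L) =
      jqModC L - (qExpand L ℓ (jqModC L)) ^ ℓ := by
  show ((heckeAlphaBar L N ℓ (jN L N) - (heckeBetaBar L N ℓ (jN L N)) ^ ℓ : FL L (N * ℓ)) :
    LaurentSeries L) = _
  rw [AddSubgroupClass.coe_sub, SubmonoidClass.coe_pow, coe_heckeBetaBar, coe_heckeAlphaBar,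
    coe_jN]

/-- `w + w'` -/
def wSum : FL L (N * ℓ) := wInf L N ℓ + wZero L N ℓ

end Elements

section Kronecker

variable {L : Type} [Field L] [Algebra ℚ L] (A : ValuationSubring L)
variable (ℓ : ℕ) [hℓF : Fact ℓ.Prime]

/-- the Kronecker congruence over `L`: `j(t^ℓ) - j(t)^ℓ = ℓ • D''` with `D''` `A`-integral. -/
theorem exists_kronecker_L :
    ∃ D'' : LaurentSeries L, D'' ∈ intLS A ∧
      qExpand L ℓ (jqModC L) - jqModC L ^ ℓ = HahnSeries.C (ℓ : L) * D'' := by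
  obtain ⟨D', hD'⟩ := exists_kronecker_int ℓ
  refine ⟨coeffMap (Int.castRingHom L) D', ?_, ?_⟩
  · rw [mem_intLS_iff_coeff]
    intro n
    rw [coeffMap_coeff]
    exact intCast_mem A _
  · have h := congrArg (coeffMap (Int.castRingHom L)) hD'
    rw [map_sub, map_pow, Fermat.Agent.Gateway.Kummer.coeffMap_qExpand, coeffMap_jqModC, map_mul]
      at h
    rw [h]
    congr 1
    show coeffMap (Int.castRingHom L) (HahnSeries.single 0 (ℓ : ℤ)) = HahnSeries.single 0 (ℓ : L)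
    rw [coeffMap_single]
    simp

end Kronecker

/-! ### Reductions of `w`, `w'` and the separating element -/

section Main

variable {L : Type} [Field L] [Algebra ℚ L] [IsAlgClosed L] (A : ValuationSubring L)
  {k : Type} [Field k] (π : A →+* k) [IsAlgClosed k]
variable (N ℓ : ℕ) [NeZero N] [Fact ℓ.Prime] [CharP k ℓ]
variable (hdeg : finrankAlong L (heckeAlphaBar L N ℓ) = ℓ + 1) (hℓ : ℓ.Prime) (hℓN : ¬ ℓ ∣ N)
variable (hrk : ∀ x ∈ IsLocalRing.maximalIdeal A, ∀ c : A, c ≠ 0 → ∃ j : ℕ, c ∣ x ^ j)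
  (hπ : Function.Surjective π)

theorem jN_mem_Ov : jN L N ∈ Ov A π (FBar L N) := jS_mem_Ov A π N one_ne_zero (one_dvd N)

theorem redV_jN : redV A π (FBar L N) ⟨jN L N, jN_mem_Ov A π N⟩ = jqModC k := by
  rw [← jS_one_one (R := k)]
  exact redV_jS A π N one_ne_zero (one_dvd N)

theorem redV_jN_rel :
    redV A π (FBar L N) ⟨jN L N, jN_mem_Ov A π N⟩ =
      frobInvLS ℓ (redV A π (FBar L N) ⟨jN L N, jN_mem_Ov A π N⟩) := by
  rw [redV_jN, frobInvLS_jqModC]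

/-- `ḡ := j̄ - j̄^(ℓ²) ≠ 0` -/
theorem gk_ne_zero : jqModC k - jqModC k ^ (ℓ * ℓ) ≠ 0 := by
  have hℓ2 : 2 ≤ ℓ * ℓ := by
    have := (Fact.out : ℓ.Prime).two_le
    nlinarith
  exact jqModC_sub_pow_ne_zero k hℓ2

theorem wInf_mem_Ov : wInf L N ℓ ∈ Ov A π (FBar L (N * ℓ)) :=
  nodeEltInf_mem_Ov A π N ℓ _ _ (jN_mem_Ov A π N) (jN_mem_Ov A π N)

theorem wZero_mem_Ov : wZero L N ℓ ∈ Ov A π (FBar L (N * ℓ)) :=
  nodeEltZero_mem_Ov A π N ℓ _ _ (jN_mem_Ov A π N) (jN_mem_Ov A π N)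

theorem wInf_mem_Ov0 : wInf L N ℓ ∈ Ov0 A π N ℓ hdeg hℓ hℓN :=
  nodeEltInf_mem_Ov0 A π N ℓ hdeg hℓ hℓN _ _ (jN_mem_Ov A π N) (jN_mem_Ov A π N)

theorem wZero_mem_Ov0 : wZero L N ℓ ∈ Ov0 A π N ℓ hdeg hℓ hℓN :=
  nodeEltZero_mem_Ov0 A π N ℓ hdeg hℓ hℓN _ _ (jN_mem_Ov A π N) (jN_mem_Ov A π N)

theorem redV_wInf : redV A π (FBar L (N * ℓ)) ⟨wInf L N ℓ, wInf_mem_Ov A π N ℓ⟩ = 0 :=
  redV_nodeEltInf_eq_zero A π N ℓ _ _ (jN_mem_Ov A π N) (jN_mem_Ov A π N) (redV_jN_rel A π N ℓ)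

theorem redV_wZero :
    redV A π (FBar L (N * ℓ)) ⟨wZero L N ℓ, wZero_mem_Ov A π N ℓ⟩ =
      jqModC k - jqModC k ^ (ℓ * ℓ) := by
  have h := redV_nodeEltZero_eq A π N ℓ _ _ (jN_mem_Ov A π N) (jN_mem_Ov A π N)
    (redV_jN_rel A π N ℓ)
  rw [redV_jN, frobInvLS_jqModC, frobInvLS_jqModC] at h
  exact h

theorem red0_wZero :
    red0 A π N ℓ hdeg hℓ hℓN ⟨wZero L N ℓ, wZero_mem_Ov0 A π N ℓ hdeg hℓ hℓN⟩ = 0 :=
  red0_nodeEltZero_eq_zero A π N ℓ hdeg hℓ hℓN _ _ (jN_mem_Ov A π N) (jN_mem_Ov A π N)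
    (redV_jN_rel A π N ℓ)

theorem red0_wInf :
    red0 A π N ℓ hdeg hℓ hℓN ⟨wInf L N ℓ, wInf_mem_Ov0 A π N ℓ hdeg hℓ hℓN⟩ =
      jqModC k - jqModC k ^ (ℓ * ℓ) := by
  have h := red0_nodeEltInf_eq A π N ℓ hdeg hℓ hℓN _ _ (jN_mem_Ov A π N) (jN_mem_Ov A π N)
    (redV_jN_rel A π N ℓ)
  rw [redV_jN, frobInvLS_jqModC, frobInvLS_jqModC] at h
  exact h

theorem wSum_mem_Ov : wSum L N ℓ ∈ Ov A π (FBar L (N * ℓ)) :=
  add_mem (wInf_mem_Ov A π N ℓ) (wZero_mem_Ov A π N ℓ)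

theorem wSum_mem_Ov0 : wSum L N ℓ ∈ Ov0 A π N ℓ hdeg hℓ hℓN :=
  add_mem (wInf_mem_Ov0 A π N ℓ hdeg hℓ hℓN) (wZero_mem_Ov0 A π N ℓ hdeg hℓ hℓN)

theorem redV_wSum :
    redV A π (FBar L (N * ℓ)) ⟨wSum L N ℓ, wSum_mem_Ov A π N ℓ⟩ =
      jqModC k - jqModC k ^ (ℓ * ℓ) := by
  have h1 : (⟨wSum L N ℓ, wSum_mem_Ov A π N ℓ⟩ : Ov A π (FBar L (N * ℓ))) =
      ⟨wInf L N ℓ, wInf_mem_Ov A π N ℓ⟩ + ⟨wZero L N ℓ, wZero_mem_Ov A π N ℓ⟩ := rfl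
  rw [h1, map_add, redV_wInf, redV_wZero, zero_add]

theorem red0_wSum :
    red0 A π N ℓ hdeg hℓ hℓN ⟨wSum L N ℓ, wSum_mem_Ov0 A π N ℓ hdeg hℓ hℓN⟩ =
      jqModC k - jqModC k ^ (ℓ * ℓ) := by
  have h1 : (⟨wSum L N ℓ, wSum_mem_Ov0 A π N ℓ hdeg hℓ hℓN⟩ : Ov0 A π N ℓ hdeg hℓ hℓN) =
      ⟨wInf L N ℓ, wInf_mem_Ov0 A π N ℓ hdeg hℓ hℓN⟩ +
        ⟨wZero L N ℓ, wZero_mem_Ov0 A π N ℓ hdeg hℓ hℓN⟩ := rfl
  rw [h1, map_add, red0_wInf, red0_wZero, add_zero]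

theorem wSum_inv_mem_Ov : (wSum L N ℓ)⁻¹ ∈ Ov A π (FBar L (N * ℓ)) :=
  inv_mem_Ov A π (FBar L (N * ℓ)) (wSum_mem_Ov A π N ℓ)
    (by rw [redV_wSum]; exact gk_ne_zero ℓ)

theorem wSum_inv_mem_Ov0 : (wSum L N ℓ)⁻¹ ∈ Ov0 A π N ℓ hdeg hℓ hℓN :=
  inv_mem_Ov0 A π N ℓ hdeg hℓ hℓN (wSum_mem_Ov0 A π N ℓ hdeg hℓ hℓN)
    (by rw [red0_wSum]; exact gk_ne_zero ℓ)

include A π in
theorem wSum_ne_zero : wSum L N ℓ ≠ 0 := by
  intro h
  have h1 := redV_wSum A π N ℓ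
  have h2 : (⟨wSum L N ℓ, wSum_mem_Ov A π N ℓ⟩ : Ov A π (FBar L (N * ℓ))) = 0 := Subtype.ext h
  rw [h2, map_zero] at h1
  exact gk_ne_zero (k := k) ℓ h1.symm

end Main

end Fermat.Agent.S34x.TwoVal
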