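/-
helper60 (P-S34, WP2 TwoVal): the CONCRETE instance of helper10's `FundEq.Hyp` at level `N ℓ`
(`ℓ ∤ N` the residue characteristic), for `O' = OvVal` (Gauss ring of `F_N`), `V = valInfty`,
`W = valZero`, `F_{Nℓ} / F_N` via `α`, `ϖ = ℓ`, `s = w / (w + w')`; and the two residually
independent families `1` (at `V`) and `(β j)^b`, `b < ℓ` (at `W`).
-/
import Fermat.Agent.S34x.TwoVal.FundInst

set_option autoImplicit false
set_option linter.style.haveILetI false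
set_option linter.unusedSectionVars false

noncomputable section

namespace Fermat.Agent.S34x.TwoVal

open Polynomial ModularCurve AlgebraicCurve IntermediateField
open Fermat.Agent.S28 Fermat.Agent.S28.Tower Fermat.Agent.Gateway.Hecke
open Fermat.Agent.Gateway.Red Fermat.Agent.Gateway.GoodRed Fermat.Agent.Gateway.ESC

section Defs

variable (L : Type) [Field L] [Algebra ℚ L] (N ℓ : ℕ) [NeZero N] [NeZero ℓ]

/-- the separating element `s := w / (w + w')` -/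
def sepElt : FL L (N * ℓ) := wInf L N ℓ / wSum L N ℓ

end Defs

section Small

variable {L : Type} [Field L] [Algebra ℚ L] [IsAlgClosed L] (A : ValuationSubring L)
  {k : Type} [Field k] (π : A →+* k) [IsAlgClosed k]
variable (N ℓ : ℕ) [NeZero N] [Fact ℓ.Prime] [CharP k ℓ]
variable (hdeg : finrankAlong L (heckeAlphaBar L N ℓ) = ℓ + 1) (hℓ : ℓ.Prime) (hℓN : ¬ ℓ ∣ N)
variable (hrk : ∀ x ∈ IsLocalRing.maximalIdeal A, ∀ c : A, c ≠ 0 → ∃ j : ℕ, c ∣ x ^ j)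
  (hπ : Function.Surjective π)

theorem hahnC_natCast_ne_zero : (HahnSeries.C ((ℓ : ℕ) : L) : LaurentSeries L) ≠ 0 := by
  haveI : CharZero L := algebraRat.charZero L
  intro h
  have h1 := congrArg (fun s : LaurentSeries L => s.coeff 0) h
  simp only [HahnSeries.coeff_zero] at h1
  rw [HahnSeries.C_apply, HahnSeries.coeff_single_same] at h1
  exact (Nat.cast_ne_zero.mpr (Fact.out : ℓ.Prime).ne_zero) h1

/-- `w / ℓ ∈ Ov_∞` (Kronecker) -/
theorem wInf_div_mem_Ov :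
    wInf L N ℓ * ((ℓ : ℕ) : FL L (N * ℓ))⁻¹ ∈ Ov A π (FL L (N * ℓ)) := by
  obtain ⟨D'', hD, hrel⟩ := exists_kronecker_L (L := L) A ℓ
  rw [mem_Ov_iff]
  have h1 : ((wInf L N ℓ * ((ℓ : ℕ) : FL L (N * ℓ))⁻¹ : FL L (N * ℓ)) : LaurentSeries L) =
      (wInf L N ℓ : LaurentSeries L) * (HahnSeries.C ((ℓ : ℕ) : L))⁻¹ := by
    have := map_mul (algebraMap (FL L (N * ℓ)) (LaurentSeries L)) (wInf L N ℓ)
      (((ℓ : ℕ) : FL L (N * ℓ))⁻¹)
    rw [map_inv₀, map_natCast] at this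
    rw [map_natCast]
    exact this
  rw [h1, coe_wInf, hrel, mul_comm (HahnSeries.C ((ℓ : ℕ) : L)), mul_assoc,
    mul_inv_cancel₀ (hahnC_natCast_ne_zero (L := L) ℓ), mul_one]
  exact intLS_le_gaussRing A π hD

theorem iota0_wZero :
    iota0 L N ℓ hdeg hℓ hℓN (wZero L N ℓ) = qExpand L ℓ (jqModC L) - jqModC L ^ ℓ := by
  show iota0 L N ℓ hdeg hℓ hℓN
    (heckeAlphaBar L N ℓ (jN L N) - (heckeBetaBar L N ℓ (jN L N)) ^ ℓ) = _
  rw [map_sub, map_pow, iota0_alpha, iota0_beta, coe_jN]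

/-- `w' / ℓ ∈ Ov0` (Kronecker) -/
theorem wZero_div_mem_Ov0 :
    wZero L N ℓ * ((ℓ : ℕ) : FL L (N * ℓ))⁻¹ ∈ Ov0 A π N ℓ hdeg hℓ hℓN := by
  obtain ⟨D'', hD, hrel⟩ := exists_kronecker_L (L := L) A ℓ
  rw [mem_Ov0_iff, map_mul, map_inv₀, map_natCast, iota0_wZero, hrel, ← map_natCast
    (HahnSeries.C : L →+* LaurentSeries L), mul_comm (HahnSeries.C ((ℓ : ℕ) : L)), mul_assoc,
    mul_inv_cancel₀ (hahnC_natCast_ne_zero (L := L) ℓ), mul_one]
  exact intLS_le_gaussRing A π hD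

end Small

section Hyp

variable {L : Type} [Field L] [Algebra ℚ L] [IsAlgClosed L] (A : ValuationSubring L)
  {k : Type} [Field k] (π : A →+* k) [IsAlgClosed k]
variable (N ℓ : ℕ) [NeZero N] [Fact ℓ.Prime] [CharP k ℓ]
variable (hdeg : finrankAlong L (heckeAlphaBar L N ℓ) = ℓ + 1) (hℓ : ℓ.Prime) (hℓN : ¬ ℓ ∣ N)
variable (hrk : ∀ x ∈ IsLocalRing.maximalIdeal A, ∀ c : A, c ≠ 0 → ∃ j : ℕ, c ∣ x ^ j)
  (hπ : Function.Surjective π)

include hπ in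
theorem natCast_mem_maximalIdeal : ((ℓ : ℕ) : A) ∈ IsLocalRing.maximalIdeal A := by
  rw [← GaussRing.pi_eq_zero_iff hπ, map_natCast]
  exact CharP.cast_eq_zero k ℓ

include hrk in
/-- rank one at level `N`: every element of `F_N` is `ℓ`-power bounded. -/
theorem exists_pow_mul_mem_OvVal (a : FL L N) :
    ∃ n : ℕ, ((ℓ : ℕ) : FL L N) ^ n * a ∈ OvVal A π N ℓ hπ hℓN := by
  by_cases ha : a = 0
  · exact ⟨0, by rw [ha, mul_zero]; exact zero_mem _⟩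
  obtain ⟨c, u, hc, hu0, huk, hfu⟩ := exists_const_mul_unit_F A π N ℓ hℓN a ha
  by_cases hcA : c ∈ A
  · refine ⟨0, ?_⟩
    rw [pow_zero, one_mul, hfu]
    exact mul_mem ((algebraMap_mem_Ov_iff A π N hπ c).mpr hcA) u.2
  · have hci : c⁻¹ ∈ A := (A.mem_or_inv_mem c).resolve_left hcA
    have hci0 : (⟨c⁻¹, hci⟩ : A) ≠ 0 := by
      intro h
      exact inv_ne_zero hc (congrArg Subtype.val h)
    obtain ⟨j, d, hd⟩ := hrk _ (natCast_mem_maximalIdeal A π ℓ hπ) ⟨c⁻¹, hci⟩ hci0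
    refine ⟨j, ?_⟩
    have hd' : ((ℓ : ℕ) : L) ^ j * c = (d : L) := by
      have h1 : ((ℓ : ℕ) : L) ^ j = c⁻¹ * (d : L) := by
        have := congrArg A.subtype hd
        rw [map_pow, map_natCast, map_mul] at this
        exact this
      rw [h1]
      field_simp
    have hrew : ((ℓ : ℕ) : FL L N) ^ j * a = algebraMap L (FBar L N) (d : L) * (u : FBar L N) := by
      have hnat : ((ℓ : ℕ) : FL L N) = algebraMap L (FBar L N) ((ℓ : ℕ) : L) :=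
        (map_natCast _ _).symm
      rw [hfu, hnat, ← map_pow, ← mul_assoc, ← map_mul, hd']
    rw [hrew]
    exact mul_mem ((algebraMap_mem_Ov_iff A π N hπ (d : L)).mpr d.2) u.2

/-- **the instance of `FundEq.Hyp` at level `N ℓ`.** -/
theorem fundHyp :
    letI := algebraAlong (heckeAlphaBar L N ℓ)
    FundEq.Hyp (OvVal A π N ℓ hπ hℓN) (valInfty A π N ℓ hrk hπ hℓN)
      (valZero A π N ℓ hdeg hℓ hℓN hrk hπ) ((ℓ : ℕ) : FL L N) (sepElt L N ℓ) := by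
  letI := algebraAlong (heckeAlphaBar L N ℓ)
  haveI : CharZero L := algebraRat.charZero L
  have hmap : algebraMap (FL L N) (FL L (N * ℓ)) ((ℓ : ℕ) : FL L N) =
      ((ℓ : ℕ) : FL L (N * ℓ)) := map_natCast _ _
  have hne := wSum_ne_zero A π N ℓ
  refine ⟨fun e => alpha_mem_valInfty_iff A π N ℓ hrk hπ hℓN e,
    fun e => alpha_mem_valZero_iff A π N ℓ hdeg hℓ hℓN hrk hπ e, ?_, ?_, ?_, ?_, ?_⟩
  · haveI : CharZero (FL L N) :=
      charZero_of_injective_algebraMap (algebraMap L (FL L N)).injective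
    exact Nat.cast_ne_zero.mpr (Fact.out : ℓ.Prime).ne_zero
  · rw [OvVal_lt_one_iff A π N ℓ hℓN hπ]
    have e1 : ((ℓ : ℕ) : FL L N) = algebraMap L (FBar L N) ((((ℓ : ℕ) : A) : A) : L) := by
      rw [show ((((ℓ : ℕ) : A) : A) : L) = ((ℓ : ℕ) : L) from map_natCast A.subtype ℓ,
        map_natCast]
    have hmem : algebraMap L (FBar L N) ((((ℓ : ℕ) : A) : A) : L) ∈ Ov A π (FBar L N) :=
      (algebraMap_mem_Ov_iff A π N hπ _).mpr (SetLike.coe_mem _)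
    have hred : redV A π (FBar L N)
        ⟨algebraMap L (FBar L N) ((((ℓ : ℕ) : A) : A) : L), hmem⟩ = 0 := by
      rw [redV_algebraMap A π N ((ℓ : ℕ) : A) hmem, map_natCast π, CharP.cast_eq_zero, map_zero]
    rw [e1]
    exact ⟨hmem, hred⟩
  · intro a
    exact exists_pow_mul_mem_OvVal A π N ℓ hℓN hrk hπ a
  · rw [hmap]
    have h1 : sepElt L N ℓ * ((ℓ : ℕ) : FL L (N * ℓ))⁻¹ =
        (wInf L N ℓ * ((ℓ : ℕ) : FL L (N * ℓ))⁻¹) * (wSum L N ℓ)⁻¹ := by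
      rw [sepElt, div_eq_mul_inv]
      ring
    rw [h1]
    exact mul_mem (wInf_div_mem_Ov A π N ℓ) (wSum_inv_mem_Ov A π N ℓ)
  · rw [hmap]
    have h0 : 1 - sepElt L N ℓ = wZero L N ℓ / wSum L N ℓ := by
      rw [sepElt, eq_div_iff hne, sub_mul, one_mul, div_mul_cancel₀ _ hne, wSum]
      ring
    have h1 : (1 - sepElt L N ℓ) * ((ℓ : ℕ) : FL L (N * ℓ))⁻¹ =
        (wZero L N ℓ * ((ℓ : ℕ) : FL L (N * ℓ))⁻¹) * (wSum L N ℓ)⁻¹ := by
      rw [h0, div_eq_mul_inv]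
      ring
    rw [h1]
    exact mul_mem (wZero_div_mem_Ov0 A π N ℓ hdeg hℓ hℓN)
      (wSum_inv_mem_Ov0 A π N ℓ hdeg hℓ hℓN)

/-- `1` is residually independent at `V_∞` (`f_∞ ≥ 1`). -/
theorem resIndep₁ :
    letI := algebraAlong (heckeAlphaBar L N ℓ)
    FundEq.ResIndep (OvVal A π N ℓ hπ hℓN) (valInfty A π N ℓ hrk hπ hℓN)
      (fun _ : Unit => (1 : FL L (N * ℓ))) := by
  letI := algebraAlong (heckeAlphaBar L N ℓ)
  have hV : FundEq.LiesOver (OvVal A π N ℓ hπ hℓN) (valInfty A π N ℓ hrk hπ hℓN) :=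
    fun e => alpha_mem_valInfty_iff A π N ℓ hrk hπ hℓN e
  refine ⟨fun _ => one_mem _, fun c hc hlt a => ?_⟩
  rw [Fintype.sum_unique, mul_one] at hlt
  cases a
  exact (hV.lt_one_iff _).mp hlt

/-- `(β j)^b`, `b < ℓ`, are residually independent at `V_0` (`f_0 ≥ ℓ`). -/
theorem resIndep₂ :
    letI := algebraAlong (heckeAlphaBar L N ℓ)
    FundEq.ResIndep (OvVal A π N ℓ hπ hℓN) (valZero A π N ℓ hdeg hℓ hℓN hrk hπ)
      (fun b : Fin ℓ => (heckeBetaBar L N ℓ (jN L N)) ^ (b : ℕ)) := by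
  letI := algebraAlong (heckeAlphaBar L N ℓ)
  have hβ : heckeBetaBar L N ℓ (jN L N) ∈ Ov0 A π N ℓ hdeg hℓ hℓN :=
    (beta_mem_Ov0_iff A π N ℓ hdeg hℓ hℓN (jN L N)).mpr (jN_mem_Ov A π N)
  refine ⟨fun b => pow_mem hβ _, fun c hc hlt b => ?_⟩
  rw [valZero_lt_one_iff A π N ℓ hdeg hℓ hℓN hrk hπ] at hlt
  obtain ⟨hx, hred⟩ := hlt
  have hc' : ∀ b, c b ∈ Ov A π (FBar L N) := hc
  -- the sum as an element of `Ov0`
  set Z : Ov0 A π N ℓ hdeg hℓ hℓN :=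
    ∑ b : Fin ℓ, (⟨heckeAlphaBar L N ℓ (c b), alpha_mem_Ov0 A π N ℓ hdeg hℓ hℓN (c b) (hc' b)⟩ :
      Ov0 A π N ℓ hdeg hℓ hℓN) * (⟨heckeBetaBar L N ℓ (jN L N), hβ⟩ : Ov0 A π N ℓ hdeg hℓ hℓN) ^
        (b : ℕ) with hZ
  have hZcoe : (Z : FL L (N * ℓ)) =
      ∑ b : Fin ℓ, algebraMap (FL L N) (FL L (N * ℓ)) (c b) *
        (heckeBetaBar L N ℓ (jN L N)) ^ (b : ℕ) := by
    rw [hZ, AddSubmonoidClass.coe_finsetSum]
    rfl
  have hZeq : (⟨_, hx⟩ : Ov0 A π N ℓ hdeg hℓ hℓN) = Z := Subtype.ext hZcoe.symm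
  rw [hZeq, hZ, map_sum] at hred
  have hred' : ∑ b : Fin ℓ, qExpand k ℓ (redV A π (FBar L N) ⟨c b, hc' b⟩) *
      jqModC k ^ (b : ℕ) = 0 := by
    rw [← hred]
    refine Finset.sum_congr rfl fun b _ => ?_
    rw [map_mul, map_pow, red0_alpha A π N ℓ hdeg hℓ hℓN (c b) (hc' b),
      red0_beta A π N ℓ hdeg hℓ hℓN (jN L N) (jN_mem_Ov A π N), redV_jN]
  have hzero := eq_zero_of_sum_qExpand_mul_pow_eq_zero ℓ (jqModC k) (jqModC_order k)
    (fun b => redV A π (FBar L N) ⟨c b, hc' b⟩) hred'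
  exact (OvVal_lt_one_iff A π N ℓ hℓN hπ (c b)).mpr ⟨hc' b, hzero b⟩

include hdeg in
theorem finrank_le_card :
    letI := algebraAlong (heckeAlphaBar L N ℓ)
    Module.finrank (FL L N) (FL L (N * ℓ)) ≤ Fintype.card Unit + Fintype.card (Fin ℓ) := by
  letI := algebraAlong (heckeAlphaBar L N ℓ)
  have h : Module.finrank (FL L N) (FL L (N * ℓ)) = ℓ + 1 := hdeg
  rw [h, Fintype.card_unit, Fintype.card_fin]
  omega

theorem finiteDimensional_alpha :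
    letI := algebraAlong (heckeAlphaBar L N ℓ)
    FiniteDimensional (FL L N) (FL L (N * ℓ)) :=
  finiteAlong_alpha L N ℓ

end Hyp

end Fermat.Agent.S34x.TwoVal
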