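/-
helper60 (P-S34, WP2 TwoVal): **(R3) normalisation at the bad level `N ℓ`** (`ℓ ∤ N` the residue
characteristic): both Gauss valuations `valInfty`, `valZero` of `F_{Nℓ}` have the value group of
`A`, i.e. every nonzero `u ∈ F_{Nℓ}` has a constant multiple `c u` which is a unit
(`c u ∈ Ov`, nonzero reduction).  From the fundamental equality (`FundEq.Hyp.exists_valuation_eq`,
helper10) at the instance `fundHyp` (`FundHyp.lean`) and the good-level normalisation at level `N`.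
-/
import Fermat.Agent.S34x.TwoVal.FundHyp
import Fermat.Agent.Gateway.C0.RankOne
import Fermat.Agent.Gateway.GoodRed.GaussNorm

set_option autoImplicit false
set_option linter.style.haveILetI false
set_option linter.unusedSectionVars false

noncomputable section

namespace Fermat.Agent.S34x.TwoVal

open Polynomial ModularCurve AlgebraicCurve IntermediateField
open Fermat.Agent.S28 Fermat.Agent.S28.Tower Fermat.Agent.Gateway.Hecke
open Fermat.Agent.Gateway.Red Fermat.Agent.Gateway.GoodRed Fermat.Agent.Gateway.ESC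

section Scal

variable {L : Type} [Field L] [Algebra ℚ L] [IsAlgClosed L] (A : ValuationSubring L)
  {k : Type} [Field k] (π : A →+* k) [IsAlgClosed k]
variable (N ℓ : ℕ) [NeZero N] [Fact ℓ.Prime] [CharP k ℓ]
variable (hdeg : finrankAlong L (heckeAlphaBar L N ℓ) = ℓ + 1) (hℓ : ℓ.Prime) (hℓN : ¬ ℓ ∣ N)
variable (hrk : ∀ x ∈ IsLocalRing.maximalIdeal A, ∀ c : A, c ≠ 0 → ∃ j : ℕ, c ∣ x ^ j)
  (hπ : Function.Surjective π)

/-- `α` of a good-level element `e = c₀ • u₀` (`u₀` a unit of `Ov`) -/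
theorem alpha_const_mul (c₀ : L) (u₀ : FL L N) :
    heckeAlphaBar L N ℓ (algebraMap L (FBar L N) c₀ * u₀) =
      algebraMap L (FL L (N * ℓ)) c₀ * heckeAlphaBar L N ℓ u₀ := by
  rw [map_mul, AlgHom.commutes]

include hdeg hℓ in
/-- **(R3) at `∞`**: `valInfty` has the value group of `A`. -/
theorem exists_scal_infty (u : FL L (N * ℓ)) (hu : u ≠ 0) :
    ∃ c : L, c ≠ 0 ∧
      (valInfty A π N ℓ hrk hπ hℓN).valuation (algebraMap L (FL L (N * ℓ)) c * u) = 1 := by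
  letI := algebraAlong (heckeAlphaBar L N ℓ)
  haveI : FiniteDimensional (FL L N) (FL L (N * ℓ)) := finiteDimensional_alpha N ℓ
  obtain ⟨e, he, hval⟩ := (fundHyp A π N ℓ hdeg hℓ hℓN hrk hπ).exists_valuation_eq
    (resIndep₁ A π N ℓ hℓN hrk hπ) (resIndep₂ A π N ℓ hdeg hℓ hℓN hrk hπ)
    (finrank_le_card N ℓ hdeg) hu
  obtain ⟨c₀, u₀, hc₀, hu₀, -, he_eq⟩ := exists_const_mul_unit_F A π N ℓ hℓN e he
  have hαe : algebraMap (FL L N) (FL L (N * ℓ)) e =
      algebraMap L (FL L (N * ℓ)) c₀ * heckeAlphaBar L N ℓ (u₀ : FBar L N) := by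
    show heckeAlphaBar L N ℓ e = _
    rw [he_eq, alpha_const_mul]
  have hunit : (valInfty A π N ℓ hrk hπ hℓN).valuation (heckeAlphaBar L N ℓ (u₀ : FBar L N)) = 1 := by
    rw [valInfty_eq_one_iff A π N ℓ hℓN hrk hπ]
    refine ⟨(alpha_mem_Ov_iff A π N ℓ (u₀ : FBar L N)).mpr u₀.2, ?_⟩
    rw [redV_alpha A π N ℓ (u₀ : FBar L N) u₀.2]
    exact hu₀
  have hc₀F : algebraMap L (FL L (N * ℓ)) c₀ ≠ 0 := by
    rwa [Ne, map_eq_zero_iff _ (algebraMap L (FL L (N * ℓ))).injective]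
  have hv0 : (valInfty A π N ℓ hrk hπ hℓN).valuation (algebraMap L (FL L (N * ℓ)) c₀) ≠ 0 :=
    (Valuation.ne_zero_iff _).mpr hc₀F
  refine ⟨c₀⁻¹, inv_ne_zero hc₀, ?_⟩
  rw [map_mul, hval, hαe, map_mul, hunit, mul_one, map_inv₀, map_inv₀, inv_mul_cancel₀ hv0]

/-- **(R3) at `0`**: `valZero` has the value group of `A`. -/
theorem exists_scal_zero (u : FL L (N * ℓ)) (hu : u ≠ 0) :
    ∃ c : L, c ≠ 0 ∧
      (valZero A π N ℓ hdeg hℓ hℓN hrk hπ).valuation (algebraMap L (FL L (N * ℓ)) c * u) = 1 := by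
  letI := algebraAlong (heckeAlphaBar L N ℓ)
  haveI : FiniteDimensional (FL L N) (FL L (N * ℓ)) := finiteDimensional_alpha N ℓ
  obtain ⟨e, he, hval⟩ := (fundHyp A π N ℓ hdeg hℓ hℓN hrk hπ).exists_valuation_eq'
    (resIndep₁ A π N ℓ hℓN hrk hπ) (resIndep₂ A π N ℓ hdeg hℓ hℓN hrk hπ)
    (finrank_le_card N ℓ hdeg) hu
  obtain ⟨c₀, u₀, hc₀, hu₀, -, he_eq⟩ := exists_const_mul_unit_F A π N ℓ hℓN e he
  have hαe : algebraMap (FL L N) (FL L (N * ℓ)) e =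
      algebraMap L (FL L (N * ℓ)) c₀ * heckeAlphaBar L N ℓ (u₀ : FBar L N) := by
    show heckeAlphaBar L N ℓ e = _
    rw [he_eq, alpha_const_mul]
  have hunit : (valZero A π N ℓ hdeg hℓ hℓN hrk hπ).valuation
      (heckeAlphaBar L N ℓ (u₀ : FBar L N)) = 1 := by
    rw [valZero_eq_one_iff A π N ℓ hdeg hℓ hℓN hrk hπ]
    refine ⟨alpha_mem_Ov0 A π N ℓ hdeg hℓ hℓN (u₀ : FBar L N) u₀.2, ?_⟩
    rw [red0_alpha A π N ℓ hdeg hℓ hℓN (u₀ : FBar L N) u₀.2, Ne,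
      Fermat.Agent.S28.qExpand_eq_zero_iff]
    exact hu₀
  have hc₀F : algebraMap L (FL L (N * ℓ)) c₀ ≠ 0 := by
    rwa [Ne, map_eq_zero_iff _ (algebraMap L (FL L (N * ℓ))).injective]
  have hv0 : (valZero A π N ℓ hdeg hℓ hℓN hrk hπ).valuation
      (algebraMap L (FL L (N * ℓ)) c₀) ≠ 0 :=
    (Valuation.ne_zero_iff _).mpr hc₀F
  refine ⟨c₀⁻¹, inv_ne_zero hc₀, ?_⟩
  rw [map_mul, hval, hαe, map_mul, hunit, mul_one, map_inv₀, map_inv₀, inv_mul_cancel₀ hv0]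

include hdeg hℓ hℓN hrk hπ in
/-- (R3) at `∞`, Gauss-ring form: a constant multiple lies in `Ov_∞` with nonzero reduction. -/
theorem exists_normalise_infty (u : FL L (N * ℓ)) (hu : u ≠ 0) :
    ∃ c : L, c ≠ 0 ∧ ∃ h : algebraMap L (FL L (N * ℓ)) c * u ∈ Ov A π (FL L (N * ℓ)),
      redV A π (FL L (N * ℓ)) ⟨_, h⟩ ≠ 0 := by
  obtain ⟨c, hc, hval⟩ := exists_scal_infty A π N ℓ hdeg hℓ hℓN hrk hπ u hu
  exact ⟨c, hc, (valInfty_eq_one_iff A π N ℓ hℓN hrk hπ _).mp hval⟩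

include hrk hπ in
/-- (R3) at `0`, Gauss-ring form: a constant multiple lies in `Ov0` with nonzero reduction. -/
theorem exists_normalise_zero (u : FL L (N * ℓ)) (hu : u ≠ 0) :
    ∃ c : L, c ≠ 0 ∧ ∃ h : algebraMap L (FL L (N * ℓ)) c * u ∈ Ov0 A π N ℓ hdeg hℓ hℓN,
      red0 A π N ℓ hdeg hℓ hℓN ⟨_, h⟩ ≠ 0 := by
  obtain ⟨c, hc, hval⟩ := exists_scal_zero A π N ℓ hdeg hℓ hℓN hrk hπ u hu
  exact ⟨c, hc, (valZero_eq_one_iff A π N ℓ hdeg hℓ hℓN hrk hπ _).mp hval⟩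

include hdeg hℓ in
/-- `scalV` of `Inst.RedSetupInst.ResidueFacts` (scalar-multiplication form). -/
theorem exists_smul_valInfty_eq_one (u : FL L (N * ℓ)) (hu : u ≠ 0) :
    ∃ c : L, c ≠ 0 ∧ (valInfty A π N ℓ hrk hπ hℓN).valuation (c • u) = 1 := by
  obtain ⟨c, hc, h⟩ := exists_scal_infty A π N ℓ hdeg hℓ hℓN hrk hπ u hu
  exact ⟨c, hc, by rw [Algebra.smul_def]; exact h⟩

/-- `scal0` of `Inst.RedSetupInst.ResidueFacts` (scalar-multiplication form). -/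
theorem exists_smul_valZero_eq_one (u : FL L (N * ℓ)) (hu : u ≠ 0) :
    ∃ c : L, c ≠ 0 ∧ (valZero A π N ℓ hdeg hℓ hℓN hrk hπ).valuation (c • u) = 1 := by
  obtain ⟨c, hc, h⟩ := exists_scal_zero A π N ℓ hdeg hℓ hℓN hrk hπ u hu
  exact ⟨c, hc, by rw [Algebra.smul_def]; exact h⟩

end Scal

/-! ### The residue map of `A` (`L` algebraic over `ℚ`) -/

section ResidueInst

variable {L : Type} [Field L] [Algebra ℚ L] [IsAlgClosed L] [Algebra.IsAlgebraic ℚ L]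
  (A : ValuationSubring L)
variable (N ℓ : ℕ) [NeZero N] [Fact ℓ.Prime]
variable (hdeg : finrankAlong L (heckeAlphaBar L N ℓ) = ℓ + 1) (hℓ : ℓ.Prime) (hℓN : ¬ ℓ ∣ N)
  (hA : A.LiesOverPrime ℓ)

include hdeg hℓ hℓN hA in
/-- **(R3) at `∞` for the residue map of `A`** (`A` over `ℓ`, `ℓ ∤ N`): Gauss normalisability of
`F_{Nℓ}` in the `Ov`-form. -/
theorem exists_normalise_infty_residue (u : FL L (N * ℓ)) (hu : u ≠ 0) :
    ∃ c : L, c ≠ 0 ∧
      ∃ h : algebraMap L (FL L (N * ℓ)) c * u ∈ Ov A (IsLocalRing.residue A) (FL L (N * ℓ)),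
        redV A (IsLocalRing.residue A) (FL L (N * ℓ)) ⟨_, h⟩ ≠ 0 := by
  haveI : CharP (IsLocalRing.ResidueField A) ℓ :=
    Fermat.Agent.Gateway.Kummer.charP_residueField hℓ A hA
  haveI : IsAlgClosed (IsLocalRing.ResidueField A) := residueField_isAlgClosed A
  exact exists_normalise_infty A (IsLocalRing.residue A) N ℓ hdeg hℓ hℓN
    (Fermat.Agent.Gateway.C0.rank_one_of_isAlgebraic A hℓ hA) IsLocalRing.residue_surjective u hu

include hA in
/-- **(R3) at `0` for the residue map of `A`**. -/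
theorem exists_normalise_zero_residue (u : FL L (N * ℓ)) (hu : u ≠ 0) :
    ∃ c : L, c ≠ 0 ∧
      ∃ h : algebraMap L (FL L (N * ℓ)) c * u ∈
          Ov0 A (IsLocalRing.residue A) N ℓ hdeg hℓ hℓN,
        red0 A (IsLocalRing.residue A) N ℓ hdeg hℓ hℓN ⟨_, h⟩ ≠ 0 := by
  haveI : CharP (IsLocalRing.ResidueField A) ℓ :=
    Fermat.Agent.Gateway.Kummer.charP_residueField hℓ A hA
  haveI : IsAlgClosed (IsLocalRing.ResidueField A) := residueField_isAlgClosed A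
  exact exists_normalise_zero A (IsLocalRing.residue A) N ℓ hdeg hℓ hℓN
    (Fermat.Agent.Gateway.C0.rank_one_of_isAlgebraic A hℓ hA) IsLocalRing.residue_surjective u hu

end ResidueInst

end Fermat.Agent.S34x.TwoVal
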