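/-
helper44 (P-S34): the second embedding `ι₀` is compatible with raising the level:
for `N ∣ N₂`, `ℓ ∤ N₂`, the restriction of `ι₀` (level `N₂ ℓ`) to `F_{Nℓ} ⊆ F_{N₂ℓ}` is `ι₀`
(level `N ℓ`).  Consequently `Ov0` and `red0` are compatible with the inclusion.
-/
import Fermat.Agent.S34x.TwoVal.Gauss0

set_option autoImplicit false
set_option linter.style.haveILetI false
set_option linter.unusedSectionVars false

noncomputable section

namespace Fermat.Agent.S34x.TwoVal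

open Polynomial ModularCurve AlgebraicCurve IntermediateField
open Fermat.Agent.Gateway.Hecke Fermat.Agent.Gateway.ESC
open Fermat.Agent.Gateway.Red Fermat.Agent.Gateway.GoodRed

section Level

variable {L : Type} [Field L] [Algebra ℚ L] [IsAlgClosed L]
variable {N N₂ ℓ : ℕ} [NeZero N] [NeZero N₂] [NeZero ℓ]

omit [IsAlgClosed L] in
/-- `F_N ⊆ F_{N₂}` for `N ∣ N₂` -/
theorem FL_le_of_dvd (h : N ∣ N₂) : FL L N ≤ FL L N₂ := by
  show laurentBaseChange L _ ≤ laurentBaseChange L _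
  rw [laurentBaseChange, IntermediateField.adjoin_le_iff]
  rintro _ ⟨y, hy, rfl⟩
  exact coeffEmb_mem_laurentBaseChange L (full_degeneracy_le h hy)

variable (hNN₂ : N ∣ N₂)
variable (hdeg : finrankAlong L (heckeAlphaBar L N ℓ) = ℓ + 1)
  (hdeg₂ : finrankAlong L (heckeAlphaBar L N₂ ℓ) = ℓ + 1)
  (hℓ : ℓ.Prime) (hℓN : ¬ ℓ ∣ N) (hℓN₂ : ¬ ℓ ∣ N₂)

/-- **`ι₀` commutes with the inclusion of levels** -/
theorem iota0_inclusion (x : FL L (N * ℓ)) :
    iota0 L N₂ ℓ hdeg₂ hℓ hℓN₂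
        (IntermediateField.inclusion (FL_le_of_dvd (L := L) (mul_dvd_mul_right hNN₂ ℓ)) x) =
      iota0 L N ℓ hdeg hℓ hℓN x := by
  set inc := IntermediateField.inclusion (FL_le_of_dvd (L := L) (mul_dvd_mul_right hNN₂ ℓ))
    with hinc
  set inc' := IntermediateField.inclusion (FL_le_of_dvd (L := L) hNN₂) with hinc'
  let ψ : FL L (N * ℓ) →+* LaurentSeries L := (iota0 L N₂ ℓ hdeg₂ hℓ hℓN₂).comp inc.toRingHom
  have hψ : ∀ y, ψ y = iota0 L N₂ ℓ hdeg₂ hℓ hℓN₂ (inc y) := fun _ => rfl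
  have key : ψ = iota0 L N ℓ hdeg hℓ hℓN := by
    refine iota0_unique hdeg hℓ hℓN ψ (fun v => ?_) (fun v => ?_)
    · have h1 : inc (heckeAlphaBar L N ℓ v) = heckeAlphaBar L N₂ ℓ (inc' v) := by
        apply Subtype.ext
        rw [hinc, IntermediateField.coe_inclusion, coe_heckeAlphaBar, coe_heckeAlphaBar, hinc',
          IntermediateField.coe_inclusion]
      rw [hψ, h1, iota0_alpha, hinc', IntermediateField.coe_inclusion]
    · have h1 : inc (heckeBetaBar L N ℓ v) = heckeBetaBar L N₂ ℓ (inc' v) := by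
        apply Subtype.ext
        rw [hinc, IntermediateField.coe_inclusion, coe_heckeBetaBar, coe_heckeBetaBar, hinc',
          IntermediateField.coe_inclusion]
      rw [hψ, h1, iota0_beta, hinc', IntermediateField.coe_inclusion]
  have h2 := congrFun (congrArg DFunLike.coe key) x
  rw [hψ] at h2
  exact h2

variable (A : ValuationSubring L) {k : Type} [Field k] (π : A →+* k)

/-- `Ov0` is compatible with the inclusion of levels -/
theorem inclusion_mem_Ov0_iff (x : FL L (N * ℓ)) :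
    IntermediateField.inclusion (FL_le_of_dvd (L := L) (mul_dvd_mul_right hNN₂ ℓ)) x ∈
        Ov0 A π N₂ ℓ hdeg₂ hℓ hℓN₂ ↔ x ∈ Ov0 A π N ℓ hdeg hℓ hℓN := by
  rw [mem_Ov0_iff, mem_Ov0_iff, iota0_inclusion hNN₂ hdeg hdeg₂ hℓ hℓN hℓN₂]

/-- `red0` is compatible with the inclusion of levels -/
theorem red0_inclusion (x : FL L (N * ℓ)) (hx : x ∈ Ov0 A π N ℓ hdeg hℓ hℓN) :
    red0 A π N₂ ℓ hdeg₂ hℓ hℓN₂
        ⟨IntermediateField.inclusion (FL_le_of_dvd (L := L) (mul_dvd_mul_right hNN₂ ℓ)) x,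
          (inclusion_mem_Ov0_iff hNN₂ hdeg hdeg₂ hℓ hℓN hℓN₂ A π x).mpr hx⟩ =
      red0 A π N ℓ hdeg hℓ hℓN ⟨x, hx⟩ := by
  rw [red0_apply, red0_apply]
  exact gaussRed_congr A π (iota0_inclusion hNN₂ hdeg hdeg₂ hℓ hℓN hℓN₂ x) _ _

end Level

end Fermat.Agent.S34x.TwoVal
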