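import Mathlib

/-!
# P-S34, WP2-V (V1): a criterion for a local subring of a field to be a valuation ring

helper60.  Mathlib only.

* `isIntegral_tailSum` (Seidenberg's lemma): if `∑_{j ≤ n} a_j x^j = 0` then all the tails
  `y_i = ∑_{j ≥ i} a_j x^(j-i)` are integral over the coefficient ring.
* `mem_or_inv_mem_of_local` (**Theorem (T)**): let `F / E` be an algebraic field extension, `O'` a
  valuation subring of `E`, `R` a subring of `F` and `ρ : R →+* D` a ring homomorphism to a
  nontrivial ring such that
  - `R` contains the integral closure of `O'` in `F`;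
  - every `r ∈ R` with `ρ r ≠ 0` is invertible in `R`.
  Then `R` is a valuation ring of `F`: for every `x`, `x ∈ R` or `x⁻¹ ∈ R`.
-/

set_option autoImplicit false

namespace Fermat.Agent.S34x.TwoVal

open Polynomial

section Seidenberg

variable {R S : Type*} [CommRing R] [CommRing S] [Algebra R S]

/-- if `c x^(m+1) + r(x) = 0` with `deg r ≤ m` then `c x` is integral. -/
theorem isIntegral_mul_of_top (c : R) (x : S) (m : ℕ) (r : R[X]) (hr : r.degree < ((m + 1 : ℕ) : WithBot ℕ))
    (h : algebraMap R S c * x ^ (m + 1) + aeval x r = 0) : IsIntegral R (algebraMap R S c * x) := by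
  by_cases hc : c = 0
  · rw [hc, map_zero, zero_mul]
    exact isIntegral_zero
  set p : R[X] := C c * X ^ (m + 1) + r with hp
  have hdeg : (C c * X ^ (m + 1) : R[X]).degree = ((m + 1 : ℕ) : WithBot ℕ) :=
    degree_C_mul_X_pow (m + 1) hc
  have hlead : p.leadingCoeff = c := by
    rw [hp, add_comm, leadingCoeff_add_of_degree_lt (by rw [hdeg]; exact hr),
      leadingCoeff_C_mul_X_pow]
  have hroot : aeval x p = 0 := by
    rw [hp, map_add, map_mul, aeval_C, map_pow, aeval_X]
    exact h
  have := isIntegral_leadingCoeff_smul p x hroot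
  rwa [hlead, Algebra.smul_def] at this

variable (a : ℕ → R) (x : S) (n : ℕ)

/-- the tail `y_i = ∑_{j ≥ i} a_j x^(j-i)` of the relation `∑_{j ≤ n} a_j x^j`. -/
def tailSum (i : ℕ) : S :=
  ∑ j ∈ Finset.range (n + 1 - i), algebraMap R S (a (i + j)) * x ^ j

theorem tailSum_of_lt {i : ℕ} (hi : n < i) : tailSum a x n i = 0 := by
  unfold tailSum
  rw [show n + 1 - i = 0 by omega, Finset.range_zero, Finset.sum_empty]

theorem tailSum_eq {i : ℕ} (hi : i ≤ n) :
    tailSum a x n i = algebraMap R S (a i) + x * tailSum a x n (i + 1) := by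
  unfold tailSum
  rw [show n + 1 - i = (n + 1 - (i + 1)) + 1 by omega, Finset.sum_range_succ', Finset.mul_sum,
    add_comm]
  congr 1
  · simp
  · refine Finset.sum_congr rfl fun j _ => ?_
    rw [show i + (j + 1) = i + 1 + j by ring, pow_succ]
    ring

theorem tailSum_zero : tailSum a x n 0 = ∑ j ∈ Finset.range (n + 1), algebraMap R S (a j) * x ^ j := by
  unfold tailSum
  simp

/-- `∑_{j ≤ n} a_j x^j = ∑_{j < i} a_j x^j + x^i y_i`. -/
theorem sum_eq_head_add_tail {i : ℕ} (hi : i ≤ n + 1) :
    ∑ j ∈ Finset.range (n + 1), algebraMap R S (a j) * x ^ j =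
      ∑ j ∈ Finset.range i, algebraMap R S (a j) * x ^ j + x ^ i * tailSum a x n i := by
  induction i with
  | zero => rw [Finset.range_zero, Finset.sum_empty, zero_add, pow_zero, one_mul, tailSum_zero]
  | succ i ih =>
    rw [ih (by omega), tailSum_eq a x n (by omega : i ≤ n), Finset.sum_range_succ, pow_succ]
    ring

/-- **Seidenberg's lemma.** -/
theorem isIntegral_tailSum (h : ∑ j ∈ Finset.range (n + 1), algebraMap R S (a j) * x ^ j = 0)
    (i : ℕ) : IsIntegral R (tailSum a x n i) := by
  -- descending induction on `i`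
  suffices H : ∀ d i : ℕ, n + 1 ≤ i + d → IsIntegral R (tailSum a x n i) from H (n + 1) i (by omega)
  intro d
  induction d with
  | zero =>
    intro i hi
    rw [tailSum_of_lt a x n (by omega)]
    exact isIntegral_zero
  | succ d ih =>
    intro i hi
    by_cases hin : n < i
    · rw [tailSum_of_lt a x n hin]
      exact isIntegral_zero
    have hi' : i ≤ n := by omega
    have hy : IsIntegral R (tailSum a x n (i + 1)) := ih (i + 1) (by omega)
    rw [tailSum_eq a x n hi']
    refine IsIntegral.add isIntegral_algebraMap ?_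
    -- `x * y_{i+1}` is integral over the integral closure
    let A := integralClosure R S
    let y : A := ⟨tailSum a x n (i + 1), hy⟩
    let r : A[X] := ∑ j ∈ Finset.range (i + 1), C (algebraMap R A (a j)) * X ^ j
    have hr : r.degree < ((i + 1 : ℕ) : WithBot ℕ) := by
      refine (degree_sum_le _ _).trans_lt ?_
      rw [Finset.sup_lt_iff (WithBot.bot_lt_coe _)]
      intro j hj
      refine (degree_C_mul_X_pow_le j _).trans_lt ?_
      exact_mod_cast Finset.mem_range.mp hj
    have hrx : aeval x r = ∑ j ∈ Finset.range (i + 1), algebraMap R S (a j) * x ^ j := by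
      rw [map_sum]
      refine Finset.sum_congr rfl fun j _ => ?_
      rw [map_mul, aeval_C, map_pow, aeval_X, ← IsScalarTower.algebraMap_apply]
    have hrel : algebraMap A S y * x ^ (i + 1) + aeval x r = 0 := by
      rw [hrx, ← h, sum_eq_head_add_tail a x n (by omega : i + 1 ≤ n + 1)]
      show tailSum a x n (i + 1) * x ^ (i + 1) + _ = _
      ring
    have h1 := isIntegral_mul_of_top y x i r hr hrel
    have h2 : IsIntegral R (algebraMap A S y * x) := isIntegral_trans _ h1
    have h3 : algebraMap A S y * x = x * tailSum a x n (i + 1) := by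
      show tailSum a x n (i + 1) * x = _
      ring
    rwa [h3] at h2

end Seidenberg

section Criterion

variable {E F D : Type*} [Field E] [Field F] [Algebra E F] [Algebra.IsAlgebraic E F]
  [Semiring D] [Nontrivial D]

/-- **Theorem (T)**: a local subring `R` of `F` (units = elements with `ρ r ≠ 0`) containing the
integral closure of a valuation ring `O'` of a subfield `E` with `F / E` algebraic is a valuation
ring of `F`. -/
theorem mem_or_inv_mem_of_local (O' : ValuationSubring E) (R : Subring F) (ρ : R →+* D)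
    (hint : ∀ x : F, ((algebraMap E F).comp O'.subtype).IsIntegralElem x → x ∈ R)
    (hunit : ∀ r : R, ρ r ≠ 0 → (r : F)⁻¹ ∈ R) (x : F) : x ∈ R ∨ x⁻¹ ∈ R := by
  classical
  let _ : Algebra O' F := ((algebraMap E F).comp O'.subtype).toAlgebra
  have halg : ∀ c : O', algebraMap O' F c = algebraMap E F (c : E) := fun c => rfl
  by_cases hx0 : x = 0
  · exact Or.inl (hx0 ▸ R.zero_mem)
  -- a nonzero relation over `E`
  obtain ⟨p, hp0, hpx⟩ := Algebra.IsAlgebraic.isAlgebraic (R := E) x
  -- normalise by the coefficient of maximal valuation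
  obtain ⟨j₀, hj₀, hmax⟩ := p.support.exists_max_image (fun j => O'.valuation (p.coeff j))
    (nonempty_support_iff.mpr hp0)
  have hc0 : p.coeff j₀ ≠ 0 := mem_support_iff.mp hj₀
  have hmem : ∀ j, p.coeff j / p.coeff j₀ ∈ O' := by
    intro j
    by_cases hj : j ∈ p.support
    · rw [← O'.valuation_le_one_iff, map_div₀]
      exact div_le_one_of_le₀ (hmax j hj) zero_le
    · rw [notMem_support_iff.mp hj, zero_div]
      exact O'.zero_mem
  let a : ℕ → O' := fun j => ⟨p.coeff j / p.coeff j₀, hmem j⟩
  set n := p.natDegree with hn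
  have hrel : ∑ j ∈ Finset.range (n + 1), algebraMap O' F (a j) * x ^ j = 0 := by
    have h1 : aeval x p = ∑ j ∈ Finset.range (n + 1), algebraMap E F (p.coeff j) * x ^ j := by
      rw [aeval_eq_sum_range]
      refine Finset.sum_congr rfl fun j _ => ?_
      rw [Algebra.smul_def]
    have h2 : ∑ j ∈ Finset.range (n + 1), algebraMap O' F (a j) * x ^ j =
        (algebraMap E F (p.coeff j₀))⁻¹ * aeval x p := by
      rw [h1, Finset.mul_sum]
      refine Finset.sum_congr rfl fun j _ => ?_
      rw [halg]
      show algebraMap E F (p.coeff j / p.coeff j₀) * x ^ j = _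
      rw [map_div₀]
      field_simp
    rw [h2, hpx, mul_zero]
  -- the tails lie in `R`
  have hy : ∀ i, tailSum a x n i ∈ R := fun i => hint _ (isIntegral_tailSum a x n hrel i)
  have hj₀n : j₀ ≤ n := le_natDegree_of_mem_supp j₀ hj₀
  have haR : ∀ j, algebraMap O' F (a j) ∈ R := fun j =>
    hint _ (isIntegral_algebraMap (R := O') (A := F) (x := a j))
  -- `a j₀ = 1`
  have ha1 : algebraMap O' F (a j₀) = 1 := by
    rw [halg]
    show algebraMap E F (p.coeff j₀ / p.coeff j₀) = 1
    rw [div_self hc0, map_one]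
  -- `x * y_{j₀+1} ∈ R`
  have hxy : x * tailSum a x n (j₀ + 1) ∈ R := by
    have := tailSum_eq a x n hj₀n
    have h3 : x * tailSum a x n (j₀ + 1) = tailSum a x n j₀ - algebraMap O' F (a j₀) := by
      rw [this]; ring
    rw [h3]
    exact R.sub_mem (hy j₀) (haR j₀)
  have hone : ρ ⟨tailSum a x n j₀, hy j₀⟩ = ρ ⟨x * tailSum a x n (j₀ + 1), hxy⟩ + 1 := by
    rw [← map_one ρ, ← map_add]
    congr 1
    apply Subtype.ext
    show tailSum a x n j₀ = x * tailSum a x n (j₀ + 1) + 1
    rw [tailSum_eq a x n hj₀n, ha1]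
    ring
  by_cases h1 : ρ ⟨x * tailSum a x n (j₀ + 1), hxy⟩ = 0
  · -- then `y_{j₀}` is a unit and `x = (x y_{j₀}) / y_{j₀}`
    have h2 : ρ ⟨tailSum a x n j₀, hy j₀⟩ ≠ 0 := by
      rw [hone, h1, zero_add]
      exact one_ne_zero
    have hinv := hunit _ h2
    have hy0 : tailSum a x n j₀ ≠ 0 := by
      intro h0
      apply h2
      have : (⟨tailSum a x n j₀, hy j₀⟩ : R) = 0 := Subtype.ext h0
      rw [this, map_zero]
    have hj₀pos : 0 < j₀ := by
      rcases Nat.eq_zero_or_pos j₀ with h0 | h0
      · exfalso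
        apply hy0
        rw [h0, tailSum_zero, hrel]
      · exact h0
    obtain ⟨i, rfl⟩ : ∃ i, j₀ = i + 1 := ⟨j₀ - 1, by omega⟩
    have hxy' : x * tailSum a x n (i + 1) ∈ R := by
      have := tailSum_eq a x n (by omega : i ≤ n)
      have h3 : x * tailSum a x n (i + 1) = tailSum a x n i - algebraMap O' F (a i) := by
        rw [this]; ring
      rw [h3]
      exact R.sub_mem (hy i) (haR i)
    left
    have : x = x * tailSum a x n (i + 1) * (tailSum a x n (i + 1))⁻¹ := by
      field_simp
    rw [this]
    exact R.mul_mem hxy' hinv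
  · -- `x y_{j₀+1}` is a unit and `x⁻¹ = y_{j₀+1} / (x y_{j₀+1})`
    have hinv := hunit _ h1
    have hy0 : tailSum a x n (j₀ + 1) ≠ 0 := by
      intro h0
      apply h1
      have : (⟨x * tailSum a x n (j₀ + 1), hxy⟩ : R) = 0 := by
        apply Subtype.ext
        show x * tailSum a x n (j₀ + 1) = 0
        rw [h0, mul_zero]
      rw [this, map_zero]
    right
    have : x⁻¹ = tailSum a x n (j₀ + 1) * (x * tailSum a x n (j₀ + 1))⁻¹ := by
      field_simp
    rw [this]
    exact R.mul_mem (hy _) hinv

end Criterion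

end Fermat.Agent.S34x.TwoVal
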