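import Fermat.Agent.S34x.TwoVal.ValRing
import Fermat.Agent.Gateway.ESC.KroneckerGauss

/-!
# P-S34, WP2-V (V3): Gauss valuation rings on `F_{Nℓ}` in residue characteristic `ℓ`

helper60.  `L` a field of characteristic zero, `A` a rank-one valuation subring, `π : A →+* k`
surjective onto an algebraically closed field of characteristic `ℓ`, `ℓ ∤ N`.

* `coe_mem_quotLS`: the `q`-expansions of the elements of `F_M` (any level `M`) are quotients of
  `A`-integral series; `map_mem_quotLS`: the same for any embedding `ι : F_M → L((q))` fixing the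
  constants and mapping the generators `j(q^d)` to quotients.
* `valOfEmb`: for an embedding `ι : F_{Nℓ} → L((q))` as above which maps `α (OvVal)` into the Gauss
  ring, the pull-back of the Gauss ring along `ι` is a **valuation subring** of `F_{Nℓ}`
  (the level `Nℓ` is divisible by the residue characteristic, so `GoodRed.OvVal` does not apply).
* `valInfty`: the case of the tautological embedding `F_{Nℓ} ⊆ L((q))`, i.e.
  `Ov A π (FL L (N * ℓ))` is a valuation ring; `alpha_mem_valInfty_iff`, `beta_mem_valInfty_iff`: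
  it induces the Gauss valuation of `F_N` along both degeneracy maps.
-/

set_option autoImplicit false
set_option linter.style.haveILetI false

noncomputable section

namespace Fermat.Agent.S34x.TwoVal

open Polynomial ModularCurve AlgebraicCurve IntermediateField
open Fermat.Agent.S28 Fermat.Agent.S28.Tower Fermat.Agent.Gateway.Hecke
open Fermat.Agent.Gateway.Red Fermat.Agent.Gateway.GoodRed Fermat.Agent.Gateway.ESC

section Quot

variable {L : Type*} [Field L] [Algebra ℚ L] (A : ValuationSubring L)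

theorem jL_mem_intLS (d : ℕ) [NeZero d] : jL L d ∈ intLS A := by
  rw [jL_eq_jS]
  refine ⟨jS A 1 d, ?_⟩
  rw [embA, coeffMap_jS, map_one]

omit [Algebra ℚ L] in
theorem algebraMap_mem_quotLS (c : L) : algebraMap L (LaurentSeries L) c ∈ quotLS A := by
  rw [algebraMap_laurentSeries_eq_single]
  exact C_mem_quotLS A c

variable (M : ℕ) [NeZero M]

/-- an embedding of `F_M` fixing the constants and mapping the generators to quotients of
`A`-integral series has image in `quotLS A`. -/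
theorem map_mem_quotLS (ι : FL L M →+* LaurentSeries L)
    (hc : ∀ c : L, ι (algebraMap L (FL L M) c) ∈ quotLS A)
    (hg : ∀ (d : ℕ) [NeZero d] (hd : d ∣ M), ι (gen L M hd) ∈ quotLS A) (x : FL L M) :
    ι x ∈ quotLS A := by
  let E' : IntermediateField L (FL L M) :=
    { (quotLS A).comap ι with algebraMap_mem' := hc }
  have hE : ∀ x, x ∈ E' ↔ ι x ∈ quotLS A := fun _ => Iff.rfl
  have hle : IntermediateField.adjoin L (genSetF L M) ≤ E' := by
    rw [IntermediateField.adjoin_le_iff]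
    rintro x ⟨d, hd0, hd, rfl⟩
    exact (hE _).mpr (hg d hd)
  rw [adjoin_genSetF] at hle
  exact (hE x).mp (hle IntermediateField.mem_top)

/-- the `q`-expansions of the elements of `F_M` are quotients of `A`-integral series. -/
theorem coe_mem_quotLS (x : FL L M) : (x : LaurentSeries L) ∈ quotLS A :=
  map_mem_quotLS A M (algebraMap (FL L M) (LaurentSeries L))
    (fun c => algebraMap_mem_quotLS A c)
    (fun d _ _ => intLS_le_quotLS A (jL_mem_intLS A d)) x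

end Quot

section Level

variable {L : Type*} [Field L] [Algebra ℚ L] (A : ValuationSubring L)
  {k : Type} [Field k] (π : A →+* k) [IsAlgClosed k]
variable (N ℓ : ℕ) [NeZero N] [Fact ℓ.Prime] [CharP k ℓ]

/-- **the pull-back of the Gauss ring along an embedding of `F_{Nℓ}` is a valuation ring.** -/
theorem gaussOf_level_mem_or_inv_mem
    (hrk : ∀ x ∈ IsLocalRing.maximalIdeal A, ∀ c : A, c ≠ 0 → ∃ j : ℕ, c ∣ x ^ j)
    (hπ : Function.Surjective π) (hℓN : ¬ ℓ ∣ N) (ι : FL L (N * ℓ) →+* LaurentSeries L)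
    (hc : ∀ c : L, ι (algebraMap L (FL L (N * ℓ)) c) ∈ quotLS A)
    (hg : ∀ (d : ℕ) [NeZero d] (hd : d ∣ N * ℓ), ι (gen L (N * ℓ) hd) ∈ quotLS A)
    (hα : ∀ c : FL L N, c ∈ OvVal A π N ℓ hπ hℓN → ι (heckeAlphaBar L N ℓ c) ∈ gaussRing A π)
    (x : FL L (N * ℓ)) : x ∈ gaussOf A π ι ∨ x⁻¹ ∈ gaussOf A π ι := by
  letI := algebraAlong (heckeAlphaBar L N ℓ)
  haveI : FiniteDimensional (FL L N) (FL L (N * ℓ)) := finiteAlong_alpha L N ℓ
  exact gaussOf_mem_or_inv_mem A π ι hrk (OvVal A π N ℓ hπ hℓN) (fun c => hα c c.2)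
    (map_mem_quotLS A (N * ℓ) ι hc hg) x

/-- the valuation subring of `F_{Nℓ}` attached to an embedding into `L((q))`. -/
def valOfEmb
    (hrk : ∀ x ∈ IsLocalRing.maximalIdeal A, ∀ c : A, c ≠ 0 → ∃ j : ℕ, c ∣ x ^ j)
    (hπ : Function.Surjective π) (hℓN : ¬ ℓ ∣ N) (ι : FL L (N * ℓ) →+* LaurentSeries L)
    (hc : ∀ c : L, ι (algebraMap L (FL L (N * ℓ)) c) ∈ quotLS A)
    (hg : ∀ (d : ℕ) [NeZero d] (hd : d ∣ N * ℓ), ι (gen L (N * ℓ) hd) ∈ quotLS A)
    (hα : ∀ c : FL L N, c ∈ OvVal A π N ℓ hπ hℓN → ι (heckeAlphaBar L N ℓ c) ∈ gaussRing A π) :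
    ValuationSubring (FL L (N * ℓ)) :=
  { gaussOf A π ι with
    mem_or_inv_mem' := gaussOf_level_mem_or_inv_mem A π N ℓ hrk hπ hℓN ι hc hg hα }

theorem mem_valOfEmb_iff
    (hrk : ∀ x ∈ IsLocalRing.maximalIdeal A, ∀ c : A, c ≠ 0 → ∃ j : ℕ, c ∣ x ^ j)
    (hπ : Function.Surjective π) (hℓN : ¬ ℓ ∣ N) (ι : FL L (N * ℓ) →+* LaurentSeries L)
    (hc : ∀ c : L, ι (algebraMap L (FL L (N * ℓ)) c) ∈ quotLS A)
    (hg : ∀ (d : ℕ) [NeZero d] (hd : d ∣ N * ℓ), ι (gen L (N * ℓ) hd) ∈ quotLS A)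
    (hα : ∀ c : FL L N, c ∈ OvVal A π N ℓ hπ hℓN → ι (heckeAlphaBar L N ℓ c) ∈ gaussRing A π)
    {x : FL L (N * ℓ)} :
    x ∈ valOfEmb A π N ℓ hrk hπ hℓN ι hc hg hα ↔ ι x ∈ gaussRing A π := Iff.rfl

/-- the non-units of `valOfEmb` are the elements with zero reduction. -/
theorem gaussRedOf_eq_zero_iff
    (hrk : ∀ x ∈ IsLocalRing.maximalIdeal A, ∀ c : A, c ≠ 0 → ∃ j : ℕ, c ∣ x ^ j)
    (hπ : Function.Surjective π) (hℓN : ¬ ℓ ∣ N) (ι : FL L (N * ℓ) →+* LaurentSeries L)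
    (hc : ∀ c : L, ι (algebraMap L (FL L (N * ℓ)) c) ∈ quotLS A)
    (hg : ∀ (d : ℕ) [NeZero d] (hd : d ∣ N * ℓ), ι (gen L (N * ℓ) hd) ∈ quotLS A)
    (hα : ∀ c : FL L N, c ∈ OvVal A π N ℓ hπ hℓN → ι (heckeAlphaBar L N ℓ c) ∈ gaussRing A π)
    (x : valOfEmb A π N ℓ hrk hπ hℓN ι hc hg hα) :
    gaussRedOf A π ι ⟨(x : FL L (N * ℓ)), x.2⟩ = 0 ↔ ¬ IsUnit x := by
  constructor
  · intro h hu
    obtain ⟨y, hy⟩ := isUnit_iff_exists_inv.mp hu
    have h1 : (⟨(x : FL L (N * ℓ)), x.2⟩ : gaussOf A π ι) * ⟨(y : FL L (N * ℓ)), y.2⟩ = 1 := by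
      apply Subtype.ext
      have := congrArg (fun z : valOfEmb A π N ℓ hrk hπ hℓN ι hc hg hα => (z : FL L (N * ℓ))) hy
      exact this
    have h2 := congrArg (gaussRedOf A π ι) h1
    rw [map_mul, h, zero_mul, map_one] at h2
    exact zero_ne_one h2
  · intro hu
    by_contra h0
    apply hu
    have hinv := inv_mem_gaussOf A π ι x.2 h0
    have hx0 : (x : FL L (N * ℓ)) ≠ 0 := by
      intro h
      apply h0
      have : (⟨(x : FL L (N * ℓ)), x.2⟩ : gaussOf A π ι) = 0 := Subtype.ext h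
      rw [this, map_zero]
    exact IsUnit.of_mul_eq_one
      (⟨(x : FL L (N * ℓ))⁻¹, hinv⟩ : valOfEmb A π N ℓ hrk hπ hℓN ι hc hg hα)
      (Subtype.ext (mul_inv_cancel₀ hx0))

/-! ### the tautological embedding -/

/-- **`Ov A π (F_{Nℓ})` is a valuation ring** (residue characteristic `ℓ` dividing the level). -/
def valInfty
    (hrk : ∀ x ∈ IsLocalRing.maximalIdeal A, ∀ c : A, c ≠ 0 → ∃ j : ℕ, c ∣ x ^ j)
    (hπ : Function.Surjective π) (hℓN : ¬ ℓ ∣ N) : ValuationSubring (FL L (N * ℓ)) :=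
  valOfEmb A π N ℓ hrk hπ hℓN (algebraMap (FL L (N * ℓ)) (LaurentSeries L))
    (fun c => algebraMap_mem_quotLS A c)
    (fun d _ _ => intLS_le_quotLS A (jL_mem_intLS A d))
    (fun c hc => by
      show ((heckeAlphaBar L N ℓ c : FL L (N * ℓ)) : LaurentSeries L) ∈ gaussRing A π
      rw [coe_heckeAlphaBar]
      exact hc)

theorem mem_valInfty_iff
    (hrk : ∀ x ∈ IsLocalRing.maximalIdeal A, ∀ c : A, c ≠ 0 → ∃ j : ℕ, c ∣ x ^ j)
    (hπ : Function.Surjective π) (hℓN : ¬ ℓ ∣ N) {x : FL L (N * ℓ)} :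
    x ∈ valInfty A π N ℓ hrk hπ hℓN ↔ x ∈ Ov A π (FL L (N * ℓ)) := Iff.rfl

theorem alpha_mem_valInfty_iff
    (hrk : ∀ x ∈ IsLocalRing.maximalIdeal A, ∀ c : A, c ≠ 0 → ∃ j : ℕ, c ∣ x ^ j)
    (hπ : Function.Surjective π) (hℓN : ¬ ℓ ∣ N) (c : FL L N) :
    heckeAlphaBar L N ℓ c ∈ valInfty A π N ℓ hrk hπ hℓN ↔ c ∈ OvVal A π N ℓ hπ hℓN := by
  rw [mem_valInfty_iff, mem_Ov_iff, coe_heckeAlphaBar]
  rfl

theorem beta_mem_valInfty_iff
    (hrk : ∀ x ∈ IsLocalRing.maximalIdeal A, ∀ c : A, c ≠ 0 → ∃ j : ℕ, c ∣ x ^ j)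
    (hπ : Function.Surjective π) (hℓN : ¬ ℓ ∣ N) (c : FL L N) :
    heckeBetaBar L N ℓ c ∈ valInfty A π N ℓ hrk hπ hℓN ↔ c ∈ OvVal A π N ℓ hπ hℓN := by
  rw [mem_valInfty_iff, mem_Ov_iff, coe_heckeBetaBar]
  constructor
  · intro h
    exact mem_Ov_of_qExpand_mem A π ℓ N hπ hℓN ℓ c h
  · intro h
    exact GaussRing.qExpand_mem_gaussRing A π ℓ h

end Level

end Fermat.Agent.S34x.TwoVal
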