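import Fermat.Agent.S34x.TwoVal.ValCriterion
import Fermat.Agent.Gateway.GoodRed.IntClosedLS
import Fermat.Agent.Gateway.GoodRed.GaussRing

/-!
# P-S34, WP2-V (V2): pull-backs of the Gauss ring are valuation rings

helper60.  `A` a valuation subring of `L` of rank one, `π : A →+* k`.

* `quotLS A : Subfield L((q))`: the quotients of `A`-integral Laurent series.
* `mem_gaussRing_of_isIntegral`: the Gauss ring is integrally closed in `quotLS A`.
* `comap_gaussRing_mem_or_inv_mem` / `gaussValOf`: for a ring homomorphism `ι : F →+* L((q))` from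
  a field with image in `quotLS A`, if `F` is algebraic over a subfield `E` carrying a valuation
  ring `O'` mapped into the Gauss ring, then `(gaussRing A π).comap ι` is a valuation subring of
  `F`; its reduction map is `gaussRedOf`.
-/

set_option autoImplicit false

noncomputable section

namespace Fermat.Agent.S34x.TwoVal

open Polynomial Fermat.Agent.Gateway.Red Fermat.Agent.Gateway.GoodRed

variable {L : Type*} [Field L] (A : ValuationSubring L) {k : Type*} [Field k] (π : A →+* k)

/-! ### quotients of `A`-integral series -/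

/-- the quotients `a / b` of `A`-integral Laurent series inside `L((q))`. -/
def quotLS : Subfield (LaurentSeries L) where
  carrier := {y | ∃ a b : LaurentSeries A, b ≠ 0 ∧ y * embA A b = embA A a}
  zero_mem' := ⟨0, 1, one_ne_zero, by simp⟩
  one_mem' := ⟨1, 1, one_ne_zero, by simp⟩
  add_mem' := by
    rintro y₁ y₂ ⟨a₁, b₁, hb₁, h₁⟩ ⟨a₂, b₂, hb₂, h₂⟩
    refine ⟨a₁ * b₂ + a₂ * b₁, b₁ * b₂, mul_ne_zero hb₁ hb₂, ?_⟩
    rw [map_add, map_mul, map_mul, map_mul, ← h₁, ← h₂]; ring
  mul_mem' := by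
    rintro y₁ y₂ ⟨a₁, b₁, hb₁, h₁⟩ ⟨a₂, b₂, hb₂, h₂⟩
    refine ⟨a₁ * a₂, b₁ * b₂, mul_ne_zero hb₁ hb₂, ?_⟩
    rw [map_mul, map_mul, ← h₁, ← h₂]; ring
  neg_mem' := by
    rintro y ⟨a, b, hb, h⟩
    exact ⟨-a, b, hb, by rw [map_neg, ← h]; ring⟩
  inv_mem' := by
    rintro y ⟨a, b, hb, h⟩
    by_cases hy : y = 0
    · exact ⟨0, 1, one_ne_zero, by simp [hy]⟩
    have hb' : embA A b ≠ 0 := fun h0 => hb ((embA_eq_zero_iff A b).mp h0)
    have ha : a ≠ 0 := by
      rintro rfl
      rw [map_zero] at h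
      exact (mul_ne_zero hy hb') h
    refine ⟨b, a, ha, ?_⟩
    rw [← h]
    field_simp

theorem mem_quotLS_iff {y : LaurentSeries L} :
    y ∈ quotLS A ↔ ∃ a b : LaurentSeries A, b ≠ 0 ∧ y * embA A b = embA A a := Iff.rfl

theorem embA_mem_quotLS (a : LaurentSeries A) : embA A a ∈ quotLS A :=
  ⟨a, 1, one_ne_zero, by simp⟩

theorem intLS_le_quotLS {y : LaurentSeries L} (hy : y ∈ intLS A) : y ∈ quotLS A := by
  obtain ⟨a, rfl⟩ := hy
  exact embA_mem_quotLS A a

theorem gaussRing_le_quotLS {y : LaurentSeries L} (hy : y ∈ gaussRing A π) : y ∈ quotLS A := by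
  obtain ⟨a, b, hb, h⟩ := hy
  refine ⟨a, b, ?_, h⟩
  rintro rfl
  exact hb (map_zero _)

theorem C_mem_quotLS (c : L) : (HahnSeries.C c : LaurentSeries L) ∈ quotLS A := by
  rcases A.mem_or_inv_mem c with h | h
  · have : (HahnSeries.C c : LaurentSeries L) = embA A (HahnSeries.C ⟨c, h⟩) :=
      (embA_C A ⟨c, h⟩).symm
    rw [this]
    exact embA_mem_quotLS A _
  · by_cases hc : c = 0
    · rw [hc, map_zero]
      exact (quotLS A).zero_mem
    have h1 : (HahnSeries.C c⁻¹ : LaurentSeries L) ∈ quotLS A := by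
      have : (HahnSeries.C c⁻¹ : LaurentSeries L) = embA A (HahnSeries.C ⟨c⁻¹, h⟩) :=
        (embA_C A ⟨c⁻¹, h⟩).symm
      rw [this]
      exact embA_mem_quotLS A _
    have h2 := (quotLS A).inv_mem h1
    have h3 : ((HahnSeries.C c⁻¹ : LaurentSeries L))⁻¹ = HahnSeries.C c := by
      rw [← map_inv₀, inv_inv]
    rwa [h3] at h2

/-! ### the Gauss ring is integrally closed among quotients -/

/-- **(G)** the Gauss ring is integrally closed in `quotLS A` (rank one). -/
theorem mem_gaussRing_of_isIntegral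
    (hrk : ∀ x ∈ IsLocalRing.maximalIdeal A, ∀ c : A, c ≠ 0 → ∃ j : ℕ, c ∣ x ^ j)
    {y : LaurentSeries L} (hq : y ∈ quotLS A) (hy : IsIntegral (gaussRing A π) y) :
    y ∈ gaussRing A π := by
  classical
  obtain ⟨P, hmonic, hroot⟩ := hy
  have hsub : algebraMap (gaussRing A π) (LaurentSeries L) = (gaussRing A π).subtype := rfl
  rw [hsub] at hroot
  -- denominators of the coefficients
  have hex : ∀ i, ∃ a b : LaurentSeries A, redA A π b ≠ 0 ∧
      ((P.coeff i : gaussRing A π) : LaurentSeries L) * embA A b = embA A a := fun i => (P.coeff i).2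
  choose a b hb hab using hex
  set d := P.natDegree with hd
  set s : LaurentSeries A := ∏ i ∈ Finset.range d, b i with hs
  have hsred : redA A π s ≠ 0 := by
    rw [hs, map_prod]
    exact Finset.prod_ne_zero_iff.mpr fun i _ => hb i
  have hs0 : s ≠ 0 := by
    rintro h0
    exact hsred (by rw [h0, map_zero])
  -- `coeff i * s` is integral
  have hcs : ∀ i ∈ Finset.range d,
      ((P.coeff i : gaussRing A π) : LaurentSeries L) * embA A s ∈ intLS A := by
    intro i hi
    rw [hs, ← Finset.mul_prod_erase _ _ hi, map_mul, ← mul_assoc, hab i, ← map_mul]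
    exact embA_mem_intLS A _
  -- the scaled polynomial
  set Q₀ : (LaurentSeries L)[X] := (P.map (gaussRing A π).subtype).scaleRoots (embA A s) with hQ₀
  have hPm : (P.map (gaussRing A π).subtype).Monic := hmonic.map _
  have hdeg : (P.map (gaussRing A π).subtype).natDegree = d := hmonic.natDegree_map _
  have hQ₀monic : Q₀.Monic := (monic_scaleRoots_iff _).mpr hPm
  have hQ₀coeff : ∀ i, Q₀.coeff i ∈ intLS A := by
    intro i
    rw [hQ₀, coeff_scaleRoots, hdeg, coeff_map]
    rcases lt_trichotomy i d with hi | hi | hi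
    · obtain ⟨e, he⟩ : ∃ e, d - i = e + 1 := ⟨d - i - 1, by omega⟩
      rw [he, pow_succ, ← mul_assoc, mul_comm _ (embA A s), ← mul_assoc,
        mul_comm (embA A s)]
      refine Subring.mul_mem _ (hcs i (Finset.mem_range.mpr hi)) ?_
      rw [← map_pow]
      exact embA_mem_intLS A _
    · rw [hi, Nat.sub_self, pow_zero, mul_one, hd, hmonic.coeff_natDegree]
      exact Subring.one_mem _
    · rw [coeff_eq_zero_of_natDegree_lt (by rw [← hd]; exact hi), map_zero, zero_mul]
      exact Subring.zero_mem _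
  have hQ₀sub : (↑Q₀.coeffs : Set (LaurentSeries L)) ⊆ ↑(intLS A) := by
    intro c hc
    rw [Finset.mem_coe, mem_coeffs_iff] at hc
    obtain ⟨n, -, rfl⟩ := hc
    exact hQ₀coeff n
  -- `s * y` is integral over `intLS A`
  have hz : IsIntegral (intLS A) (embA A s * y) := by
    refine ⟨Q₀.toSubring (intLS A) hQ₀sub, (monic_toSubring _ _ _).mpr hQ₀monic, ?_⟩
    have h1 : eval₂ (algebraMap (intLS A) (LaurentSeries L)) (embA A s * y)
        (Q₀.toSubring (intLS A) hQ₀sub) = eval (embA A s * y) Q₀ := by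
      have : algebraMap (intLS A) (LaurentSeries L) = (intLS A).subtype := rfl
      rw [this, ← eval_map, map_toSubring]
    rw [h1, hQ₀]
    have h2 := scaleRoots_eval₂_mul (p := P.map (gaussRing A π).subtype) (RingHom.id _)
      y (embA A s)
    simp only [eval₂_id, RingHom.id_apply] at h2
    rw [h2, eval_map, hroot, mul_zero]
  -- hence `s * y` is `A`-integral
  obtain ⟨a', b', hb', hy'⟩ := hq
  have hz' : embA A s * y * embA A b' = embA A (s * a') := by
    rw [map_mul, ← hy']
    ring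
  obtain ⟨c, hc⟩ := mem_intLS_of_isIntegral A hrk hb' hz' hz
  exact ⟨c, s, hsred, by rw [hc]; ring⟩

/-! ### pull-backs of the Gauss ring -/

section Comap

variable {F : Type*} [Field F] (ι : F →+* LaurentSeries L)

/-- the pull-back of the Gauss ring along `ι`. -/
def gaussOf : Subring F := (gaussRing A π).comap ι

theorem mem_gaussOf_iff {x : F} : x ∈ gaussOf A π ι ↔ ι x ∈ gaussRing A π := Iff.rfl

/-- the reduction map on the pull-back of the Gauss ring. -/
def gaussRedOf : gaussOf A π ι →+* LaurentSeries k :=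
  (gaussRed A π).comp (ι.restrict (gaussOf A π ι) (gaussRing A π) fun _ hx => hx)

theorem gaussRedOf_apply (x : gaussOf A π ι) :
    gaussRedOf A π ι x = gaussRed A π ⟨ι (x : F), x.2⟩ := rfl

theorem inv_mem_gaussOf {x : F} (hx : x ∈ gaussOf A π ι) (hred : gaussRedOf A π ι ⟨x, hx⟩ ≠ 0) :
    x⁻¹ ∈ gaussOf A π ι := by
  rw [mem_gaussOf_iff, map_inv₀]
  exact inv_mem_gaussRing A π hx hred

variable {E : Type*} [Field E] [Algebra E F] [Algebra.IsAlgebraic E F]

/-- **(V2)** the pull-back of the Gauss ring along `ι : F → L((q))` is a valuation ring of `F`, if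
`ι F` consists of quotients of `A`-integral series and `F` is algebraic over a subfield `E` with a
valuation ring `O'` mapped into the Gauss ring. -/
theorem gaussOf_mem_or_inv_mem
    (hrk : ∀ x ∈ IsLocalRing.maximalIdeal A, ∀ c : A, c ≠ 0 → ∃ j : ℕ, c ∣ x ^ j)
    (O' : ValuationSubring E) (hO : ∀ c : O', algebraMap E F (c : E) ∈ gaussOf A π ι)
    (hq : ∀ x : F, ι x ∈ quotLS A) (x : F) : x ∈ gaussOf A π ι ∨ x⁻¹ ∈ gaussOf A π ι := by
  refine mem_or_inv_mem_of_local O' (gaussOf A π ι) (gaussRedOf A π ι) ?_ ?_ x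
  · -- integral closure
    rintro z ⟨p, hp, hz⟩
    rw [mem_gaussOf_iff]
    refine mem_gaussRing_of_isIntegral A π hrk (hq z) ?_
    let g : O' →+* gaussRing A π :=
      (ι.comp ((algebraMap E F).comp O'.subtype)).codRestrict (gaussRing A π) fun c => hO c
    refine ⟨p.map g, hp.map g, ?_⟩
    rw [eval₂_map]
    have hcomp : (algebraMap (gaussRing A π) (LaurentSeries L)).comp g =
        ι.comp ((algebraMap E F).comp O'.subtype) := by
      ext c
      rfl
    rw [hcomp, ← hom_eval₂, hz, map_zero]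
  · intro r hr
    exact inv_mem_gaussOf A π ι r.2 hr

/-- the pull-back of the Gauss ring as a valuation subring. -/
def gaussValOf
    (hrk : ∀ x ∈ IsLocalRing.maximalIdeal A, ∀ c : A, c ≠ 0 → ∃ j : ℕ, c ∣ x ^ j)
    (O' : ValuationSubring E) (hO : ∀ c : O', algebraMap E F (c : E) ∈ gaussOf A π ι)
    (hq : ∀ x : F, ι x ∈ quotLS A) : ValuationSubring F :=
  { gaussOf A π ι with
    mem_or_inv_mem' := gaussOf_mem_or_inv_mem A π ι hrk O' hO hq }

theorem mem_gaussValOf_iff
    (hrk : ∀ x ∈ IsLocalRing.maximalIdeal A, ∀ c : A, c ≠ 0 → ∃ j : ℕ, c ∣ x ^ j)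
    (O' : ValuationSubring E) (hO : ∀ c : O', algebraMap E F (c : E) ∈ gaussOf A π ι)
    (hq : ∀ x : F, ι x ∈ quotLS A) {x : F} :
    x ∈ gaussValOf A π ι hrk O' hO hq ↔ ι x ∈ gaussRing A π := Iff.rfl

end Comap

end Fermat.Agent.S34x.TwoVal
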